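import Fermat.Agent.S15.A.Export

/-!
# S15 / A / Stable : `A.main` for a point `Q` whose subgroup `⟨Q⟩` is only Galois-*stable*

(for S12: the cofixed line of the Frey curve).  The rationality of `Q` is used in `A.main` only through `h0 p Q ∈ ℚ`.
-/

set_option autoImplicit false

open WeierstrassCurve WeierstrassCurve.Affine AlgebraicCurve ModularCurve

namespace Fermat.Agent.S15.A

open Fermat.Agent.S05 (xc yc)
open Fermat.Agent.S37.Red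
open Fermat.Agent.ES (Qb FF GQ)
open Fermat.Agent.S15.A.Loc (EQ)
open Fermat.Agent.S15.A.Pl

/-- multiplication by `m` (prime to `p`) permutes the non-zero multiples of a point killed by `p`. -/
theorem prod_nsmul_perm {M G : Type*} [CommMonoid M] [AddCommMonoid G] {p : ℕ} (hp : p.Prime) (Q : G)
    (hQ : p • Q = 0) (f : G → M) (m : ℕ) (hm : ¬ p ∣ m) :
    ∏ k ∈ Finset.Ico 1 p, f ((k * m) • Q) = ∏ k ∈ Finset.Ico 1 p, f (k • Q) := by
  classical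
  have hmod : ∀ n : ℕ, n • Q = (n % p) • Q := by
    intro n
    conv_lhs => rw [← Nat.mod_add_div n p, add_nsmul, mul_nsmul, hQ, smul_zero, add_zero]
  have hinj : Set.InjOn (fun k => (k * m) % p) (Finset.Ico 1 p : Set ℕ) := by
    intro k hk k' hk' h
    simp only [Finset.coe_Ico, Set.mem_Ico] at hk hk'
    have h1 : k * m ≡ k' * m [MOD p] := h
    have hcop : Nat.gcd p m = 1 := (Nat.Prime.coprime_iff_not_dvd hp).2 hm
    have h2 : k ≡ k' [MOD p] := Nat.ModEq.cancel_right_of_coprime hcop h1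
    have h3 : k % p = k' % p := h2
    rwa [Nat.mod_eq_of_lt hk.2, Nat.mod_eq_of_lt hk'.2] at h3
  have hsub : (Finset.Ico 1 p).image (fun k => (k * m) % p) ⊆ Finset.Ico 1 p := by
    intro n hn
    obtain ⟨k, hk, rfl⟩ := Finset.mem_image.1 hn
    rw [Finset.mem_Ico] at hk ⊢
    refine ⟨?_, Nat.mod_lt _ hp.pos⟩
    rw [Nat.one_le_iff_ne_zero]
    intro h0
    have hd : p ∣ k * m := Nat.dvd_of_mod_eq_zero h0
    rcases (Nat.Prime.dvd_mul hp).1 hd with h | h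
    · exact absurd (Nat.le_of_dvd (by omega) h) (by omega)
    · exact hm h
  have himg : (Finset.Ico 1 p).image (fun k => (k * m) % p) = Finset.Ico 1 p :=
    Finset.eq_of_subset_of_card_le hsub (by rw [Finset.card_image_of_injOn hinj])
  conv_rhs => rw [← himg, Finset.prod_image hinj]
  exact Finset.prod_congr rfl fun k _ => by rw [hmod (k * m)]

variable {p : ℕ} [Fact p.Prime] {W : WeierstrassCurve ℤ}

/-- the product of the `yc (k • Q)` is rational as soon as `⟨Q⟩` is Galois-stable. -/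
theorem prod_yc_mem_rat_of_stable (Q : (EQ W).Point) (hQord : addOrderOf Q = p)
    (hstab : ∀ σ : Qb ≃ₐ[ℚ] Qb, ∃ m : ℕ, σ • Q = m • Q) :
    ∃ c : ℚ, ∏ k ∈ Finset.Ico 1 p, yc (k • Q) = algebraMap ℚ Qb c := by
  have hp : p.Prime := Fact.out
  have hpQ : p • Q = 0 := hQord ▸ addOrderOf_nsmul_eq_zero Q
  have hQ0 : Q ≠ 0 := by
    rintro rfl
    rw [addOrderOf_zero] at hQord
    exact hp.one_lt.ne hQord
  have hfix : ∀ σ : Qb ≃ₐ[ℚ] Qb,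
      σ (∏ k ∈ Finset.Ico 1 p, yc (k • Q)) = ∏ k ∈ Finset.Ico 1 p, yc (k • Q) := by
    intro σ
    obtain ⟨m, hm⟩ := hstab σ
    have hpm : ¬ p ∣ m := by
      rintro ⟨t, rfl⟩
      rw [mul_nsmul, hpQ, nsmul_zero] at hm
      have h1 : σ⁻¹ • (σ • Q) = σ⁻¹ • (0 : (EQ W).Point) := by rw [hm]
      have h2 : σ⁻¹ • (0 : (EQ W).Point) = 0 :=
        map_zero (DistribSMul.toAddMonoidHom (EQ W).Point σ⁻¹)
      rw [inv_smul_smul, h2] at h1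
      exact hQ0 h1
    rw [map_prod, ← prod_nsmul_perm hp Q hpQ (fun P => yc P) m hpm]
    refine Finset.prod_congr rfl (fun k _ => ?_)
    have h1 : σ • (k • Q) = k • (σ • Q) :=
      map_nsmul (DistribSMul.toAddMonoidHom (EQ W).Point σ) k Q
    rw [← Loc.EQ_yc_smul, h1, hm, mul_nsmul']
  have hac : IsAlgClosure ℚ Qb :=
    (inferInstance : @IsAlgClosure ℚ (AlgebraicClosure ℚ) _ _ (AlgebraicClosure.instAlgebra ℚ) _)
  have hgal : IsGalois ℚ Qb := IsAlgClosure.isGalois ℚ Qb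
  obtain ⟨c, hc⟩ := (InfiniteGalois.mem_range_algebraMap_iff_fixed _).mpr hfix
  exact ⟨c, hc.symm⟩

theorem h0_mem_rat_of_stable (Q : (EQ W).Point) (hQord : addOrderOf Q = p)
    (hstab : ∀ σ : Qb ≃ₐ[ℚ] Qb, ∃ m : ℕ, σ • Q = m • Q) :
    ∃ c : ℚ, h0 p Q = algebraMap ℚ Qb c := by
  obtain ⟨c, hc⟩ := prod_yc_mem_rat_of_stable Q hQord hstab
  refine ⟨(p : ℚ) ^ 12 * c ^ 4 / (W.Δ : ℚ) ^ (p - 1), ?_⟩
  rw [h0, hc]
  simp

/-- **`A.main` from `h0 p Q ∈ ℚ` only.** -/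
theorem main_of_rat (hp2 : p ≠ 2) (hΔ : W.Δ ≠ 0) (Q : (EQ W).Point)
    (hrat : ∃ c : ℚ, h0 p Q = algebraMap ℚ Qb c) (hQord : addOrderOf Q = p)
    (h2c₄ : ¬ (2 : ℤ) ∣ W.c₄) :
    ∃ (x : Place Qb (FF p)) (c : ℚ), c ≠ 0 ∧ h0 p Q = algebraMap ℚ Qb c ∧
      Van x (jQ p - algebraMap Qb (FF p) (j0 W)) ∧
      Van x (hQ p - algebraMap Qb (FF p) (algebraMap ℚ Qb c)) ∧
      (∀ r : ℕ, r.Prime → r ≠ p → (r : ℤ) ∣ W.Δ → ¬ (r : ℤ) ∣ W.c₄ →
        ∀ A : ValuationSubring Qb, A.LiesOverPrime r →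
          (W.InZeroComponentAt A Q → 1 < A.valuation (algebraMap ℚ Qb c)) ∧
          (¬ W.InZeroComponentAt A Q → A.valuation (algebraMap ℚ Qb c) < 1)) ∧
      ((∃ (r : ℕ) (A : ValuationSubring Qb), r.Prime ∧ r ≠ p ∧ (r : ℤ) ∣ W.Δ ∧ ¬ (r : ℤ) ∣ W.c₄ ∧
          A.LiesOverPrime r ∧ W.InZeroComponentAt A Q) →
        ∀ σ : GQ, arithmeticGalois (modularFunctionFieldFull p) σ • x = x) := by
  obtain ⟨x, hxj, hxh⟩ := exists_place hp2 hΔ h2c₄ Q hQord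
  obtain ⟨c, hc⟩ := hrat
  have hh0 : h0 p Q ≠ 0 := h0_ne_zero hp2 hΔ h2c₄ Q hQord
  have hc0 : c ≠ 0 := by
    rintro rfl
    exact hh0 (by rw [hc, map_zero])
  have hp1 : p - 1 ≠ 0 := by
    have := (Fact.out : p.Prime).two_le
    omega
  have hIn : ∀ r : ℕ, r.Prime → r ≠ p → (r : ℤ) ∣ W.Δ → ¬ (r : ℤ) ∣ W.c₄ →
      ∀ A : ValuationSubring Qb, A.LiesOverPrime r →
        W.InZeroComponentAt A Q → 1 < A.valuation (algebraMap ℚ Qb c) := by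
    intro r hr hrp hrΔ hrc₄ A hA h
    rw [← hc, val_h0_of_inZero hp2 hr hrp hΔ hrΔ hrc₄ A hA Q hQord h]
    exact one_lt_pow₀ (val_j0 hr hrΔ hrc₄ hΔ A hA).1 hp1
  refine ⟨x, c, hc0, hc, hxj, hc ▸ hxh, ?_, ?_⟩
  · intro r hr hrp hrΔ hrc₄ A hA
    refine ⟨hIn r hr hrp hrΔ hrc₄ A hA, fun h => ?_⟩
    rw [← hc]
    have hAp : A.valuation (p : Qb) = 1 := by
      have h1 : A.valuation (((p : ℤ) : Qb)) ≤ 1 := val_int_le_one A (p : ℤ)
      have h2 : ¬ A.valuation (((p : ℤ) : Qb)) < 1 := by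
        rw [val_int_lt_one_iff hr A hA]
        intro hd
        have hd' : r ∣ p := by exact_mod_cast hd
        exact hrp ((Nat.prime_dvd_prime_iff_eq hr (Fact.out : p.Prime)).1 hd')
      have h3 : A.valuation (((p : ℤ) : Qb)) = 1 := le_antisymm h1 (not_lt.1 h2)
      simpa using h3
    exact val_lt_one_of_place hp2 hh0 hxj hxh A hAp (val_j0 hr hrΔ hrc₄ hΔ A hA).1
      (val_h0_of_not_inZero hr hrp hΔ hrΔ hrc₄ A hA Q hQord h)
  · rintro ⟨r, A, hr, hrp, hrΔ, hrc₄, hA, h⟩ σ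
    have hja : j0 W = algebraMap ℚ Qb ((W.c₄ : ℚ) ^ 3 / (W.Δ : ℚ)) := by
      simp [j0]
    refine smul_eq_of_val hp2 (a := (W.c₄ : ℚ) ^ 3 / (W.Δ : ℚ)) hc0 (hja ▸ hxj) (hc ▸ hxh) A ?_
      (hIn r hr hrp hrΔ hrc₄ A hA h).le σ
    rw [← hja]
    exact (val_j0 hr hrΔ hrc₄ hΔ A hA).1

/-- **`A.main'` for a Galois-stable subgroup `⟨Q⟩`.** -/
theorem main_stable (c : T.Cusp p) (hc : c.h = hQ p) (hp2 : p ≠ 2) (hΔ : W.Δ ≠ 0)
    (Q : (EQ W).Point) (hstab : ∀ σ : Qb ≃ₐ[ℚ] Qb, ∃ m : ℕ, σ • Q = m • Q)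
    (hQord : addOrderOf Q = p) (h2c₄ : ¬ (2 : ℤ) ∣ W.c₄) :
    ∃ x : Place Qb (FF p),
      (∀ r : ℕ, r.Prime → r ≠ p → (r : ℤ) ∣ W.Δ → ¬ (r : ℤ) ∣ W.c₄ →
        ∀ A : ValuationSubring Qb, A.LiesOverPrime r →
          (W.InZeroComponentAt A Q → x ∈ T.DiscInf c A) ∧
          (¬ W.InZeroComponentAt A Q → x ∈ T.Disc0 c A)) ∧
      ((∃ (r : ℕ) (A : ValuationSubring Qb), r.Prime ∧ r ≠ p ∧ (r : ℤ) ∣ W.Δ ∧ ¬ (r : ℤ) ∣ W.c₄ ∧
          A.LiesOverPrime r ∧ W.InZeroComponentAt A Q) →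
        ∀ σ : GQ, arithmeticGalois (modularFunctionFieldFull p) σ • x = x) := by
  obtain ⟨x, a, -, -, -, hx, hloc, hgal⟩ :=
    main_of_rat hp2 hΔ Q (h0_mem_rat_of_stable Q hQord hstab) hQord h2c₄
  refine ⟨x, fun r hr hrp hrΔ hrc A hA => ⟨fun h => ?_, fun h => ?_⟩, hgal⟩
  · exact mem_DiscInf_of_van c hc hx A ((hloc r hr hrp hrΔ hrc A hA).1 h)
  · exact mem_Disc0_of_van c hc hx A ((hloc r hr hrp hrΔ hrc A hA).2 h)

end Fermat.Agent.S15.A
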