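import Fermat.Agent.S13.LocE0
import Fermat.Agent.S05.T1
import Fermat.Agent.S05.Inertia
import Fermat.Prelude.Def_EllipticCurve_ZeroComponentAt
import Fermat.Prelude.Def_FLTPrelim_Ramification

/-!
# S15 / A / Loc : the elliptic side of the local analysis

`E` a Weierstrass curve over a field `K` with a valuation `v`, integral coefficients, `v Δ < 1 = v c₄` (multiplicative reduction).
`yc P = 2y + a₁x + a₃`.  For a point `Q` of odd prime order `p` with `v p = 1`: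
* `Q` in the zero component  ⟹  `v (yc (k • Q)) = 1` for `0 < k < p`;
* `Q` not in the zero component  ⟹  `v (yc Q) < 1`, and `v (yc (k • Q)) ≤ 1` for all `k`.
-/

set_option autoImplicit false

open WeierstrassCurve WeierstrassCurve.Affine

namespace Fermat.Agent.S15.A.Loc

open Fermat.Agent.S05 (xc yc Centre D2 F0 T1)
open Fermat.Agent.S13.Loc (InE0 InE1)

noncomputable section

section Abstract

variable {K : Type*} [Field K] [DecidableEq K] {W : Affine K}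
variable {Γ₀ : Type*} [LinearOrderedCommGroupWithZero Γ₀] (v : Valuation K Γ₀)

/-- For a centre: `c₄ = β² - 48 κ`, `Δ = κ² (β² - 64 κ)`.  (Polynomial identities from `Centre.c1..c4`, the definitions of `c₄`, `Δ` and `b_relation`.
`char K ≠ 2` is not needed if one uses `c2` in the form `b₄ = 2κ - e b₂ - 6e²`, `c3` for `b₆`, `c4` for `b₈`.) -/
theorem centre_c₄ {e κ β : K} (h : Centre W e κ β) : W.c₄ = β ^ 2 - 48 * κ := by
  rw [h.c1]
  simp only [WeierstrassCurve.c₄]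
  linear_combination 24 * h.c2

theorem centre_Δ {e κ β : K} (h : Centre W e κ β) : W.Δ = κ ^ 2 * (β ^ 2 - 64 * κ) := by
  have hb2 : W.b₂ = β - 12 * e := by rw [h.c1]; ring
  have hb4 : W.b₄ = 2 * κ - e * W.b₂ - 6 * e ^ 2 := by rw [h.c2]; ring
  have hb6 : W.b₆ = -(4 * e ^ 3 + W.b₂ * e ^ 2 + 2 * W.b₄ * e) := by linear_combination h.c3
  have hb8 : W.b₈ = -κ ^ 2 - (3 * e * W.b₆ + 3 * e ^ 2 * W.b₄ + e ^ 3 * W.b₂ + 3 * e ^ 4) := by
    linear_combination h.c4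
  simp only [WeierstrassCurve.Δ]
  rw [hb8, hb6, hb4, hb2]
  ring

/-- Every root `e` of `D2 = 4X³ + b₂X² + 2b₄X + b₆` gives a centre (`(2 : K) ≠ 0`): `κ = (b₄ + e b₂ + 6e²)/2`, `β = b₂ + 12 e`; `c4` follows from `4 b₈ = b₂b₆ - b₄²`. -/
theorem centre_of_root (h2 : (2 : K) ≠ 0) {e : K} (he : D2 W e = 0) :
    Centre W e ((W.b₄ + e * W.b₂ + 6 * e ^ 2) / 2) (W.b₂ + 12 * e) := by
  have he' : 4 * e ^ 3 + W.b₂ * e ^ 2 + 2 * W.b₄ * e + W.b₆ = 0 := he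
  refine ⟨rfl, mul_div_cancel₀ _ h2, he', ?_⟩
  have h4 : (4 : K) ≠ 0 := by
    have : (4 : K) = 2 * 2 := by norm_num
    rw [this]
    exact mul_ne_zero h2 h2
  apply mul_left_cancel₀ h4
  have e1 : 4 * -((W.b₄ + e * W.b₂ + 6 * e ^ 2) / 2) ^ 2 = -(W.b₄ + e * W.b₂ + 6 * e ^ 2) ^ 2 := by
    field_simp
    ring
  rw [e1]
  linear_combination W.b_relation + (W.b₂ + 12 * e) * he'

/-- (task A-Loc-Exists, helper) Vieta for the cubic `4X³ + b₂X² + 2b₄X + b₆`. -/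
theorem LocExists_roots {K : Type*} [Field K] [IsAlgClosed K] [CharZero K] (b₂ b₄ b₆ : K) :
    ∃ e₁ e₂ e₃ : K, b₂ = -4 * (e₁ + e₂ + e₃) ∧ b₄ = 2 * (e₁ * e₂ + e₁ * e₃ + e₂ * e₃) ∧
      b₆ = -4 * (e₁ * e₂ * e₃) := by
  have h4 : (4 : K) ≠ 0 := by norm_num
  obtain ⟨e₁, he₁⟩ := IsAlgClosed.exists_root
    (Polynomial.C (4 : K) * Polynomial.X ^ 3 + Polynomial.C b₂ * Polynomial.X ^ 2
      + Polynomial.C (2 * b₄) * Polynomial.X + Polynomial.C b₆)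
    (by rw [Polynomial.degree_cubic h4]; norm_num)
  simp only [Polynomial.IsRoot.def, Polynomial.eval_add, Polynomial.eval_mul, Polynomial.eval_C,
    Polynomial.eval_pow, Polynomial.eval_X] at he₁
  obtain ⟨s, hs⟩ := IsAlgClosed.exists_pow_nat_eq
    ((b₂ + 4 * e₁) ^ 2 - 16 * (2 * b₄ + b₂ * e₁ + 4 * e₁ ^ 2)) (n := 2) (by norm_num)
  refine ⟨e₁, (-(b₂ + 4 * e₁) + s) / 8, (-(b₂ + 4 * e₁) - s) / 8, ?_, ?_, ?_⟩
  · ring
  · linear_combination (1 / 32 : K) * hs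
  · linear_combination he₁ - (e₁ / 16) * hs

omit [DecidableEq K] in
/-- (task A-Loc-Exists, helper) -/
theorem LocExists_eq_one_of_sq {g : Γ₀} (h : g ^ 2 = 1) : g = 1 := by
  rcases lt_trichotomy g 1 with h1 | h1 | h1
  · exact absurd h (pow_lt_one₀ zero_le h1 two_ne_zero).ne
  · exact h1
  · exact absurd h (one_lt_pow₀ h1 two_ne_zero).ne'

omit [DecidableEq K] in
/-- (task A-Loc-Exists, helper) `κ` is integral when `e` is. -/
theorem LocExists_val_κ_le_one {e κ β : K} (h : Centre W e κ β) (hb₂ : v W.b₂ ≤ 1)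
    (hb₄ : v W.b₄ ≤ 1) (hb₆ : v W.b₆ ≤ 1) (hb₈ : v W.b₈ ≤ 1) (he : v e ≤ 1) : v κ ≤ 1 := by
  have h3 : v (3 : K) ≤ 1 := by simpa using Fermat.Agent.S05.v_natCast_le_one v 3
  have h1 : v κ ^ 2 ≤ 1 := by
    rw [← map_pow, ← v.map_neg, ← h.c4]
    refine v.map_add_le (v.map_add_le (v.map_add_le (v.map_add_le hb₈ ?_) ?_) ?_) ?_
    · rw [map_mul, map_mul]; exact mul_le_one' (mul_le_one' h3 he) hb₆
    · rw [map_mul, map_mul, map_pow]
      exact mul_le_one' (mul_le_one' h3 (pow_le_one₀ zero_le he)) hb₄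
    · rw [map_mul, map_pow]; exact mul_le_one' (pow_le_one₀ zero_le he) hb₂
    · rw [map_mul, map_pow]; exact mul_le_one' h3 (pow_le_one₀ zero_le he)
  by_contra hlt
  rw [not_le] at hlt
  exact absurd h1 (not_le.mpr (one_lt_pow₀ hlt two_ne_zero))

omit [DecidableEq K] in
/-- (task A-Loc-Exists, helper) `v β = 1`. -/
theorem LocExists_val_β {κ β : K} (h : W.c₄ = β ^ 2 - 48 * κ) (hc₄ : v W.c₄ = 1)
    (hκ : v (48 * κ) < 1) : v β = 1 := by
  have h2 : β ^ 2 = W.c₄ + 48 * κ := by rw [h]; ring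
  apply LocExists_eq_one_of_sq
  rw [← map_pow, h2, v.map_add_eq_of_lt_left (by rw [hc₄]; exact hκ), hc₄]

/-- (task A-Loc-Exists, helper) residue characteristic `2`: every integral centre is at the node. -/
theorem LocExists_val_κ_lt_one_of_two {e κ β : K} (h : Centre W e κ β) (hb₂ : v W.b₂ ≤ 1)
    (hb₄ : v W.b₄ ≤ 1) (hb₆ : v W.b₆ ≤ 1) (hb₈ : v W.b₈ ≤ 1) (hΔ : v W.Δ < 1) (hc₄ : v W.c₄ = 1)
    (he : v e ≤ 1) (hv2 : v (2 : K) < 1) : v κ < 1 := by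
  have hκ1 : v κ ≤ 1 := LocExists_val_κ_le_one v h hb₂ hb₄ hb₆ hb₈ he
  have h24 : v (24 : K) ≤ 1 := by simpa using Fermat.Agent.S05.v_natCast_le_one v 24
  have h32 : v (32 : K) ≤ 1 := by simpa using Fermat.Agent.S05.v_natCast_le_one v 32
  have h48 : v (48 * κ) < 1 := by
    have : (48 : K) * κ = 2 * (24 * κ) := by ring
    rw [this, map_mul, map_mul]
    exact lt_of_le_of_lt (mul_le_of_le_one_right' (mul_le_one' h24 hκ1)) hv2
  have h64 : v (64 * κ) < 1 := by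
    have : (64 : K) * κ = 2 * (32 * κ) := by ring
    rw [this, map_mul, map_mul]
    exact lt_of_le_of_lt (mul_le_of_le_one_right' (mul_le_one' h32 hκ1)) hv2
  have hβ : v β = 1 := LocExists_val_β v (centre_c₄ h) hc₄ h48
  have h1 : v (β ^ 2 - 64 * κ) = 1 := by
    rw [v.map_sub_eq_of_lt_left (by rw [map_pow, hβ, one_pow]; exact h64), map_pow, hβ, one_pow]
  have h2 : v W.Δ = v κ ^ 2 := by rw [centre_Δ h, map_mul, h1, mul_one, map_pow]
  rw [h2] at hΔ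
  by_contra hge
  rw [not_lt] at hge
  exact absurd hΔ (not_lt.mpr (one_le_pow₀ hge))

omit [DecidableEq K] in
/-- (task A-Loc-Exists, helper) residue characteristic `≠ 2`: the roots of `D2` are integral. -/
theorem LocExists_root_integral (hb₂ : v W.b₂ ≤ 1) (hb₄ : v W.b₄ ≤ 1) (hb₆ : v W.b₆ ≤ 1)
    (hv2 : v (2 : K) = 1) {e : K} (he : D2 W e = 0) : v e ≤ 1 := by
  by_contra hlt
  rw [not_le] at hlt
  have h4 : v (4 : K) = 1 := by
    have : (4 : K) = 2 * 2 := by norm_num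
    rw [this, map_mul, hv2, one_mul]
  have h1 : 4 * e ^ 3 = -(W.b₂ * e ^ 2 + 2 * W.b₄ * e + W.b₆) := by
    simp only [D2] at he
    linear_combination he
  have h2 : v (4 * e ^ 3) = v e ^ 3 := by rw [map_mul, h4, one_mul, map_pow]
  have hsq : 1 ≤ v e ^ 2 := one_le_pow₀ hlt.le
  have h3 : v (-(W.b₂ * e ^ 2 + 2 * W.b₄ * e + W.b₆)) ≤ v e ^ 2 := by
    rw [v.map_neg]
    refine v.map_add_le (v.map_add_le ?_ ?_) (hb₆.trans hsq)
    · rw [map_mul, map_pow]; exact mul_le_of_le_one_left' hb₂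
    · rw [map_mul, map_mul, hv2, one_mul, sq]
      exact mul_le_mul' (hb₄.trans hlt.le) le_rfl
  rw [← h1, h2] at h3
  have h5 : v e ^ 2 < v e ^ 3 := pow_lt_pow_right₀ hlt (by norm_num)
  exact absurd h3 (not_le.mpr h5)

/-- **Existence of a centre at the node.**  `K` algebraically closed of characteristic `0`.  `D2 = 4 (X-e₁)(X-e₂)(X-e₃)`, `κ_i = (e_i-e_j)(e_i-e_k)`, `κ₁κ₂κ₃ = -Δ/16`.
If `e_i` is integral then `κ_i` is integral (`κ_i² = -(b₈ + 3e b₆ + …)`, `c4`) and `Δ = κ_i²(β_i² - 64κ_i)`, `c₄ = β_i² - 48 κ_i`.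
Case `v 2 = 1`: all `e_i` are integral (monic after dividing by the unit `4`), `∏ κ_i = -Δ/16` is a non-unit, so some `v κ_i < 1`.
Case `v 2 < 1`: `v b₂ = 1` (`c₄ = b₂² - 24 b₄`); order `v e₁ ≥ v e₂ ≥ v e₃`; `v(e₁+e₂+e₃) = v(b₂/4) > 1`, `v(∑ e_ie_j) = v(b₄/2)`, `v(e₁e₂e₃) = v(b₆/4)` force `v e₃ ≤ 1` (indeed `v e₂ ≤ 1`);
then `β₃ = b₂ + 12 e₃` is a unit, `β₃² - 64κ₃` is a unit, so `v κ₃ < 1`.
In both cases `v β = 1` from `c₄ = β² - 48κ`. -/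
theorem exists_centre [IsAlgClosed K] [CharZero K] (hb₂ : v W.b₂ ≤ 1) (hb₄ : v W.b₄ ≤ 1)
    (hb₆ : v W.b₆ ≤ 1) (hb₈ : v W.b₈ ≤ 1) (hΔ : v W.Δ < 1) (hc₄ : v W.c₄ = 1) :
    ∃ e κ β : K, Centre W e κ β ∧ v e ≤ 1 ∧ v κ < 1 ∧ v β = 1 := by
  have h2ne : (2 : K) ≠ 0 := two_ne_zero
  have h48 : v (48 : K) ≤ 1 := by simpa using Fermat.Agent.S05.v_natCast_le_one v 48
  have hv2le : v (2 : K) ≤ 1 := by simpa using Fermat.Agent.S05.v_natCast_le_one v 2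
  suffices H : ∃ e, D2 W e = 0 ∧ v e ≤ 1 ∧ v ((W.b₄ + e * W.b₂ + 6 * e ^ 2) / 2) < 1 by
    obtain ⟨e, he0, he, hκ⟩ := H
    have hc := centre_of_root h2ne he0
    refine ⟨e, _, _, hc, he, hκ, LocExists_val_β v (centre_c₄ hc) hc₄ ?_⟩
    rw [map_mul]
    exact lt_of_le_of_lt (mul_le_of_le_one_left' h48) hκ
  obtain ⟨e₁, e₂, e₃, h2, h4, h6⟩ := LocExists_roots W.b₂ W.b₄ W.b₆
  have hr₁ : D2 W e₁ = 0 := by simp only [D2]; rw [h2, h4, h6]; ring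
  have hr₂ : D2 W e₂ = 0 := by simp only [D2]; rw [h2, h4, h6]; ring
  have hr₃ : D2 W e₃ = 0 := by simp only [D2]; rw [h2, h4, h6]; ring
  rcases lt_or_eq_of_le hv2le with hv2 | hv2
  · -- residue characteristic 2
    have key : ∀ e, D2 W e = 0 → v e ≤ 1 →
        ∃ e, D2 W e = 0 ∧ v e ≤ 1 ∧ v ((W.b₄ + e * W.b₂ + 6 * e ^ 2) / 2) < 1 :=
      fun e he0 he => ⟨e, he0, he, LocExists_val_κ_lt_one_of_two v (centre_of_root h2ne he0)
        hb₂ hb₄ hb₆ hb₈ hΔ hc₄ he hv2⟩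
    have hvb₂ : v W.b₂ = 1 := by
      have h12 : v (12 : K) ≤ 1 := by simpa using Fermat.Agent.S05.v_natCast_le_one v 12
      have h24 : v (24 * W.b₄) < 1 := by
        have : (24 : K) * W.b₄ = 2 * (12 * W.b₄) := by ring
        rw [this, map_mul, map_mul]
        exact lt_of_le_of_lt (mul_le_of_le_one_right' (mul_le_one' h12 hb₄)) hv2
      have h1 : W.b₂ ^ 2 = W.c₄ + 24 * W.b₄ := by simp only [WeierstrassCurve.c₄]; ring
      apply LocExists_eq_one_of_sq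
      rw [← map_pow, h1, v.map_add_eq_of_lt_left (by rw [hc₄]; exact h24), hc₄]
    by_cases h1 : v e₁ ≤ 1
    · exact key e₁ hr₁ h1
    by_cases h2' : v e₂ ≤ 1
    · exact key e₂ hr₂ h2'
    by_cases h3 : v e₃ ≤ 1
    · exact key e₃ hr₃ h3
    exfalso
    rw [not_le] at h1 h2' h3
    have hrel : W.b₂ * (e₁ * e₂ * e₃) = W.b₆ * (e₁ + e₂ + e₃) := by rw [h2, h6]; ring
    have hL : v (W.b₂ * (e₁ * e₂ * e₃)) = v e₁ * v e₂ * v e₃ := by
      rw [map_mul, hvb₂, one_mul, map_mul, map_mul]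
    have hp1 : 0 < v e₁ := lt_trans zero_lt_one h1
    have hp2 : 0 < v e₂ := lt_trans zero_lt_one h2'
    have hp3 : 0 < v e₃ := lt_trans zero_lt_one h3
    have l1 : v e₁ < v e₁ * v e₂ * v e₃ := by
      calc v e₁ = v e₁ * 1 := (mul_one _).symm
        _ < v e₁ * v e₂ := mul_lt_mul_of_pos_left h2' hp1
        _ = v e₁ * v e₂ * 1 := (mul_one _).symm
        _ < v e₁ * v e₂ * v e₃ := mul_lt_mul_of_pos_left h3 (mul_pos hp1 hp2)
    have l2 : v e₂ < v e₁ * v e₂ * v e₃ := by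
      calc v e₂ = 1 * v e₂ := (one_mul _).symm
        _ < v e₁ * v e₂ := mul_lt_mul_of_pos_right h1 hp2
        _ = v e₁ * v e₂ * 1 := (mul_one _).symm
        _ < v e₁ * v e₂ * v e₃ := mul_lt_mul_of_pos_left h3 (mul_pos hp1 hp2)
    have l3 : v e₃ < v e₁ * v e₂ * v e₃ := by
      calc v e₃ = 1 * v e₃ := (one_mul _).symm
        _ < v e₁ * v e₂ * v e₃ := mul_lt_mul_of_pos_right (one_lt_mul'' h1 h2') hp3
    have hR : v (W.b₆ * (e₁ + e₂ + e₃)) < v e₁ * v e₂ * v e₃ := by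
      rw [map_mul]
      exact lt_of_le_of_lt (mul_le_of_le_one_left' hb₆) (v.map_add_lt (v.map_add_lt l1 l2) l3)
    rw [← hrel, hL] at hR
    exact lt_irrefl _ hR
  · -- residue characteristic ≠ 2
    have hk₁ : (W.b₄ + e₁ * W.b₂ + 6 * e₁ ^ 2) / 2 = (e₁ - e₂) * (e₁ - e₃) := by
      rw [h2, h4]; ring
    have hk₂ : (W.b₄ + e₂ * W.b₂ + 6 * e₂ ^ 2) / 2 = (e₂ - e₁) * (e₂ - e₃) := by
      rw [h2, h4]; ring
    have hk₃ : (W.b₄ + e₃ * W.b₂ + 6 * e₃ ^ 2) / 2 = (e₃ - e₁) * (e₃ - e₂) := by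
      rw [h2, h4]; ring
    have hD : W.Δ = -(16 * (((e₁ - e₂) * (e₁ - e₃)) * ((e₂ - e₁) * (e₂ - e₃))
        * ((e₃ - e₁) * (e₃ - e₂)))) := by
      rw [centre_Δ (centre_of_root h2ne hr₁), hk₁, h2]; ring
    have h16 : v (16 : K) = 1 := by
      have : (16 : K) = 2 * 2 * 2 * 2 := by norm_num
      rw [this, map_mul, map_mul, map_mul, hv2, one_mul, one_mul, one_mul]
    rw [hD, v.map_neg, map_mul, h16, one_mul, map_mul, map_mul] at hΔ
    by_cases h1 : v ((e₁ - e₂) * (e₁ - e₃)) < 1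
    · exact ⟨e₁, hr₁, LocExists_root_integral v hb₂ hb₄ hb₆ hv2 hr₁, by rw [hk₁]; exact h1⟩
    by_cases h2' : v ((e₂ - e₁) * (e₂ - e₃)) < 1
    · exact ⟨e₂, hr₂, LocExists_root_integral v hb₂ hb₄ hb₆ hv2 hr₂, by rw [hk₂]; exact h2'⟩
    by_cases h3 : v ((e₃ - e₁) * (e₃ - e₂)) < 1
    · exact ⟨e₃, hr₃, LocExists_root_integral v hb₂ hb₄ hb₆ hv2 hr₃, by rw [hk₃]; exact h3⟩
    exfalso
    rw [not_lt] at h1 h2' h3
    exact absurd hΔ (not_lt.mpr (one_le_mul (one_le_mul h1 h2') h3))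

/-- on the curve: `N² + a₁ N Y - (a₂ + 2x) Y² = F0 x x` with `N = 3x² + 2a₂x + a₄ - a₁y`, `Y = 2y + a₁x + a₃`. -/
theorem slope_identity {x y : K} (h : W.Equation x y) :
    (3 * x ^ 2 + 2 * W.a₂ * x + W.a₄ - W.a₁ * y) ^ 2
      + W.a₁ * (3 * x ^ 2 + 2 * W.a₂ * x + W.a₄ - W.a₁ * y) * (2 * y + W.a₁ * x + W.a₃)
      - (W.a₂ + 2 * x) * (2 * y + W.a₁ * x + W.a₃) ^ 2 = F0 W x x := by
  have h' := (W.equation_iff x y).1 h
  simp only [F0, WeierstrassCurve.b₄, WeierstrassCurve.b₆, WeierstrassCurve.b₈]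
  linear_combination (-(W.a₁ ^ 2 + 4 * W.a₂ + 8 * x)) * h'

variable {v}

omit [DecidableEq K] in
/-- (task A-Loc-Yc, helper) `v x ≤ 1 ⟹ v (D2 x) ≤ 1`. -/
theorem LocYc_val_D2_le_one (hb₂ : v W.b₂ ≤ 1) (hb₄ : v W.b₄ ≤ 1) (hb₆ : v W.b₆ ≤ 1) {x : K}
    (hx : v x ≤ 1) : v (D2 W x) ≤ 1 := by
  have h2 : v (2 : K) ≤ 1 := by simpa using Fermat.Agent.S05.v_natCast_le_one v 2
  have h4 : v (4 : K) ≤ 1 := by simpa using Fermat.Agent.S05.v_natCast_le_one v 4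
  simp only [D2]
  refine v.map_add_le (v.map_add_le (v.map_add_le ?_ ?_) ?_) hb₆
  · rw [map_mul, map_pow]; exact mul_le_one' h4 (pow_le_one₀ zero_le hx)
  · rw [map_mul, map_pow]; exact mul_le_one' hb₂ (pow_le_one₀ zero_le hx)
  · rw [map_mul, map_mul]; exact mul_le_one' (mul_le_one' h2 hb₄) hx

/-- (task A-Loc-Yc, helper) same statement as `val_yc_le_one`, placed early. -/
theorem LocYc_val_yc_le_one (hb₂ : v W.b₂ ≤ 1) (hb₄ : v W.b₄ ≤ 1) (hb₆ : v W.b₆ ≤ 1)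
    (hb₈ : v W.b₈ ≤ 1) {n : ℕ} (hvn : v (n : K) = 1) {P : W.Point} (hP : n • P = 0) :
    v (yc P) ≤ 1 := by
  by_cases hP0 : P = 0
  · subst hP0; simp
  have hx : v (xc P) ≤ 1 := T1 v hb₂ hb₄ hb₆ hb₈ n hvn P hP
  have h1 : v (yc P) ^ 2 ≤ 1 := by
    rw [← map_pow, Fermat.Agent.S05.yc_sq P hP0]
    exact LocYc_val_D2_le_one hb₂ hb₄ hb₆ hx
  by_contra hlt
  rw [not_le] at hlt
  exact absurd h1 (not_le.mpr (one_lt_pow₀ hlt two_ne_zero))

/-- `P ∈ E⁰`, `P` of odd order `n` with `v n = 1`: `yc P` is a unit.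
Proof: `ξ = x - e` satisfies `v ξ = 1` (`≥ 1` by `InE0`, `≤ 1` by `T1` and `v e ≤ 1`).  `Centre.xi_dbl`: `ξ(2P) Y² = (ξ² - κ)²`, `v(ξ² - κ) = 1`; `v ξ(2P) ≤ 1` by `T1` for `2P` (`2P ≠ 0`).  So `v Y ≥ 1`;
`v Y ≤ 1` from `Y² = D2 x` (`yc_sq`). -/
theorem val_yc_eq_one {e κ β : K} (hc : Centre W e κ β) (he : v e ≤ 1) (hκ : v κ < 1) (hβ : v β ≤ 1)
    (hb₂ : v W.b₂ ≤ 1) (hb₄ : v W.b₄ ≤ 1) (hb₆ : v W.b₆ ≤ 1) (hb₈ : v W.b₈ ≤ 1)
    {n : ℕ} (hn : Odd n) (hvn : v (n : K) = 1) {P : W.Point} (hP0 : P ≠ 0) (hP : n • P = 0)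
    (h0 : InE0 v e P) : v (yc P) = 1 := by
  have hle : v (yc P) ≤ 1 := LocYc_val_yc_le_one hb₂ hb₄ hb₆ hb₈ hvn hP
  refine le_antisymm hle ?_
  -- `P + P ≠ 0`
  have h2P : P + P ≠ 0 := by
    intro h2
    apply hP0
    obtain ⟨k, rfl⟩ := hn
    have h3 : (2 * k + 1) • P = k • (P + P) + P := by
      rw [add_smul, one_smul, mul_comm, mul_smul, two_smul]
    rw [h3, h2, smul_zero, zero_add] at hP
    exact hP
  have hξ1 : 1 ≤ v (xc P - e) := by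
    rcases h0 with h0 | h0
    · exact absurd h0 hP0
    · exact h0
  have hξ2 : v (xc P - e) ≤ 1 := v.map_sub_le (T1 v hb₂ hb₄ hb₆ hb₈ n hvn P hP) he
  have hξ : v (xc P - e) = 1 := le_antisymm hξ2 hξ1
  have hn2 : n • (P + P) = 0 := by rw [smul_add, hP, add_zero]
  have hξ' : v (xc (P + P) - e) ≤ 1 :=
    v.map_sub_le (T1 v hb₂ hb₄ hb₆ hb₈ n hvn (P + P) hn2) he
  have hd := hc.xi_dbl h2P
  rw [← hc.D2_id, ← Fermat.Agent.S05.yc_sq P hP0] at hd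
  have h1 : v ((xc P - e) ^ 2 - κ) = 1 := by
    have : v ((xc P - e) ^ 2 - κ) = v ((xc P - e) ^ 2) := by
      apply v.map_sub_eq_of_lt_left
      rw [map_pow, hξ, one_pow]; exact hκ
    rw [this, map_pow, hξ, one_pow]
  have hL := congrArg v hd
  rw [map_mul, map_pow, map_pow, h1, one_pow] at hL
  by_contra hlt
  rw [not_le] at hlt
  have h5 : v (yc P) ^ 2 < 1 := pow_lt_one₀ zero_le hlt two_ne_zero
  have h6 : v (xc (P + P) - e) * v (yc P) ^ 2 < 1 :=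
    lt_of_le_of_lt (mul_le_of_le_one_left' hξ') h5
  rw [hL] at h6
  exact lt_irrefl _ h6

/-- `P ∉ E⁰`: `Y² = ξ (4ξ² + βξ + 4κ)` (`Centre.D2_id`) with `v ξ < 1`. -/
theorem val_yc_lt_one {e κ β : K} (hc : Centre W e κ β) (hκ : v κ < 1) (hβ : v β ≤ 1)
    {P : W.Point} (h0 : ¬ InE0 v e P) : v (yc P) < 1 := by
  have hP0 : P ≠ 0 := fun h => h0 (Or.inl h)
  have hξ : v (xc P - e) < 1 := not_le.mp fun h => h0 (Or.inr h)
  have h4 : v (4 : K) ≤ 1 := by simpa using Fermat.Agent.S05.v_natCast_le_one v 4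
  have h1 : v (4 * (xc P - e) ^ 2 + β * (xc P - e) + 4 * κ) ≤ 1 := by
    refine v.map_add_le (v.map_add_le ?_ ?_) ?_
    · rw [map_mul, map_pow]; exact mul_le_one' h4 (pow_le_one₀ zero_le hξ.le)
    · rw [map_mul]; exact mul_le_one' hβ hξ.le
    · rw [map_mul]; exact mul_le_one' h4 hκ.le
  have h2 : v (yc P) ^ 2 < 1 := by
    rw [← map_pow, Fermat.Agent.S05.yc_sq P hP0, hc.D2_id, map_mul]
    exact lt_of_le_of_lt (mul_le_of_le_one_right' h1) hξ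
  by_contra hge
  rw [not_lt] at hge
  exact absurd h2 (not_lt.mpr (one_le_pow₀ hge))

/-- torsion points of order prime to the residue characteristic: `v (yc P) ≤ 1` (`T1`, `yc_sq`). -/
theorem val_yc_le_one (hb₂ : v W.b₂ ≤ 1) (hb₄ : v W.b₄ ≤ 1) (hb₆ : v W.b₆ ≤ 1) (hb₈ : v W.b₈ ≤ 1)
    {n : ℕ} (hvn : v (n : K) = 1) {P : W.Point} (hP : n • P = 0) : v (yc P) ≤ 1 :=
  LocYc_val_yc_le_one hb₂ hb₄ hb₆ hb₈ hvn hP

/-- **Product, zero component.**  (`inE0_nsmul`.) -/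
theorem val_prod_yc_eq_one {e κ β : K} (hc : Centre W e κ β) (he : v e ≤ 1) (hκ : v κ < 1)
    (hβ : v β ≤ 1) (hb₂ : v W.b₂ ≤ 1) (hb₄ : v W.b₄ ≤ 1) (hb₆ : v W.b₆ ≤ 1) (hb₈ : v W.b₈ ≤ 1)
    {p : ℕ} (hp : p.Prime) (hp2 : p ≠ 2) (hvp : v (p : K) = 1) {Q : W.Point}
    (hQ : addOrderOf Q = p) (h0 : InE0 v e Q) :
    v (∏ k ∈ Finset.Ico 1 p, yc (k • Q)) = 1 := by
  rw [map_prod]
  refine Finset.prod_eq_one (fun k hk => ?_)
  obtain ⟨hk1, hk2⟩ := Finset.mem_Ico.mp hk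
  have hP0 : k • Q ≠ 0 := by
    intro h
    have h1 := addOrderOf_dvd_of_nsmul_eq_zero h
    rw [hQ] at h1
    have := Nat.le_of_dvd (by omega) h1
    omega
  have hP : p • (k • Q) = 0 := by
    rw [smul_comm, ← hQ, addOrderOf_nsmul_eq_zero, smul_zero]
  exact val_yc_eq_one hc he hκ hβ hb₂ hb₄ hb₆ hb₈ (hp.odd_of_ne_two hp2) hvp hP0 hP
    (Fermat.Agent.S13.Loc.inE0_nsmul v hc hκ hβ h0 k)

/-- **Product, other components.** -/
theorem val_prod_yc_lt_one {e κ β : K} (hc : Centre W e κ β) (hκ : v κ < 1)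
    (hβ : v β ≤ 1) (hb₂ : v W.b₂ ≤ 1) (hb₄ : v W.b₄ ≤ 1) (hb₆ : v W.b₆ ≤ 1) (hb₈ : v W.b₈ ≤ 1)
    {p : ℕ} (hp : p.Prime) (hvp : v (p : K) = 1) {Q : W.Point}
    (hQ : addOrderOf Q = p) (h0 : ¬ InE0 v e Q) :
    v (∏ k ∈ Finset.Ico 1 p, yc (k • Q)) < 1 := by
  have h1 : 1 ∈ Finset.Ico 1 p := Finset.mem_Ico.mpr ⟨le_rfl, hp.one_lt⟩
  rw [map_prod, ← Finset.mul_prod_erase _ _ h1, one_smul]
  have h2 : ∏ k ∈ (Finset.Ico 1 p).erase 1, v (yc (k • Q)) ≤ 1 := by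
    refine Finset.prod_le_one' (fun k _ => ?_)
    refine val_yc_le_one hb₂ hb₄ hb₆ hb₈ hvp (P := k • Q) ?_
    rw [smul_comm, ← hQ, addOrderOf_nsmul_eq_zero, smul_zero]
  exact lt_of_le_of_lt (mul_le_of_le_one_right' h2) (val_yc_lt_one hc hκ hβ h0)

end Abstract

section Prelude

abbrev Qb : Type := AlgebraicClosure ℚ

variable (W : WeierstrassCurve ℤ)

/-- the curve over `ℚ̄`. -/
abbrev EQ : Affine Qb := (W.map (Int.castRingHom ℚ))⁄Qb

theorem EQ_b₂ : (EQ W).b₂ = (W.b₂ : Qb) := by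
  show ((W.map (Int.castRingHom ℚ)).map (algebraMap ℚ Qb)).b₂ = _
  rw [WeierstrassCurve.map_b₂, WeierstrassCurve.map_b₂]
  simp
theorem EQ_b₄ : (EQ W).b₄ = (W.b₄ : Qb) := by
  show ((W.map (Int.castRingHom ℚ)).map (algebraMap ℚ Qb)).b₄ = _
  rw [WeierstrassCurve.map_b₄, WeierstrassCurve.map_b₄]
  simp
theorem EQ_b₆ : (EQ W).b₆ = (W.b₆ : Qb) := by
  show ((W.map (Int.castRingHom ℚ)).map (algebraMap ℚ Qb)).b₆ = _
  rw [WeierstrassCurve.map_b₆, WeierstrassCurve.map_b₆]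
  simp
theorem EQ_b₈ : (EQ W).b₈ = (W.b₈ : Qb) := by
  show ((W.map (Int.castRingHom ℚ)).map (algebraMap ℚ Qb)).b₈ = _
  rw [WeierstrassCurve.map_b₈, WeierstrassCurve.map_b₈]
  simp
theorem EQ_c₄ : (EQ W).c₄ = (W.c₄ : Qb) := by
  show ((W.map (Int.castRingHom ℚ)).map (algebraMap ℚ Qb)).c₄ = _
  rw [WeierstrassCurve.map_c₄, WeierstrassCurve.map_c₄]
  simp
theorem EQ_c₆ : (EQ W).c₆ = (W.c₆ : Qb) := by
  show ((W.map (Int.castRingHom ℚ)).map (algebraMap ℚ Qb)).c₆ = _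
  rw [WeierstrassCurve.map_c₆, WeierstrassCurve.map_c₆]
  simp
theorem EQ_Δ : (EQ W).Δ = (W.Δ : Qb) := by
  show ((W.map (Int.castRingHom ℚ)).map (algebraMap ℚ Qb)).Δ = _
  rw [WeierstrassCurve.map_Δ, WeierstrassCurve.map_Δ]
  simp

variable {W}

/-- (Dict) on a curve with a centre `e` with `κ = 0` (a node or cusp at `x = e`): a point is nonsingular iff `x ≠ e`. -/
theorem Dict_nonsingular_iff {k : Type*} [Field k] {W : Affine k} {e β : k} (hc : Centre W e 0 β)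
    {x y : k} (h : W.Equation x y) : W.Nonsingular x y ↔ x ≠ e := by
  have h1 := (equation_iff ..).mp h
  have hY : (2 * y + W.a₁ * x + W.a₃) ^ 2 = D2 W x := by
    simp only [D2, b₂, b₄, b₆]
    linear_combination 4 * h1
  have hN : (3 * x ^ 2 + 2 * W.a₂ * x + W.a₄ - W.a₁ * y) ^ 2
      + W.a₁ * (3 * x ^ 2 + 2 * W.a₂ * x + W.a₄ - W.a₁ * y) * (2 * y + W.a₁ * x + W.a₃)
      - (W.a₂ + 2 * x) * (2 * y + W.a₁ * x + W.a₃) ^ 2 = F0 W x x := by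
    simp only [F0, b₄, b₆, b₈]
    linear_combination (-(W.a₁ ^ 2 + 4 * W.a₂ + 8 * x)) * h1
  have hD := hc.D2_id x
  have hF := hc.F0_id x x
  have hF1 : Fermat.Agent.S05.F1 W x x = D2 W x := by
    simp only [Fermat.Agent.S05.F1, D2]
    ring
  rw [nonsingular_iff']
  constructor
  · rintro ⟨-, hns⟩ rfl
    have hD0 : D2 W x = 0 := by rw [hD]; ring
    have hY0 : 2 * y + W.a₁ * x + W.a₃ = 0 := by
      rw [hD0] at hY
      exact pow_eq_zero_iff (two_ne_zero) |>.1 hY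
    have hF0 : F0 W x x = 0 := by
      rw [hF1, hD0] at hF
      linear_combination hF
    have hN0 : 3 * x ^ 2 + 2 * W.a₂ * x + W.a₄ - W.a₁ * y = 0 := by
      rw [hY0, hF0] at hN
      have : (3 * x ^ 2 + 2 * W.a₂ * x + W.a₄ - W.a₁ * y) ^ 2 = 0 := by linear_combination hN
      exact pow_eq_zero_iff (two_ne_zero) |>.1 this
    rcases hns with h2 | h2
    · exact h2 (by linear_combination -hN0)
    · exact h2 hY0
  · intro hne
    refine ⟨h, ?_⟩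
    by_contra hcon
    push Not at hcon
    obtain ⟨hN0, hY0⟩ := hcon
    have hD0 : D2 W x = 0 := by rw [← hY, hY0]; ring
    have hN0' : 3 * x ^ 2 + 2 * W.a₂ * x + W.a₄ - W.a₁ * y = 0 := by linear_combination -hN0
    have hF0 : F0 W x x = 0 := by rw [← hN, hN0', hY0]; ring
    rw [hF1, hD0, hF0] at hF
    have : (x - e) ^ 4 = 0 := by linear_combination -hF
    exact hne (sub_eq_zero.1 (pow_eq_zero_iff (by norm_num) |>.1 this))

/-- (Dict) the centre reduces to a centre. -/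
theorem Dict_centre_res (A : ValuationSubring Qb) {e κ β : Qb} (hc : Centre (EQ W) e κ β)
    (he : e ∈ A) (hκ : κ ∈ A) (hβ : β ∈ A) :
    Centre (W.map (Int.castRingHom (IsLocalRing.ResidueField A))).toAffine
      (IsLocalRing.residue A ⟨e, he⟩) (IsLocalRing.residue A ⟨κ, hκ⟩)
      (IsLocalRing.residue A ⟨β, hβ⟩) := by
  have c1 : (⟨β, hβ⟩ : A) = (W.b₂ : A) + 12 * ⟨e, he⟩ := by
    apply A.subtype_injective
    simp only [map_add, map_mul, map_intCast, map_ofNat, ValuationSubring.subtype_apply]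
    rw [← EQ_b₂]
    exact hc.c1
  have c2 : 2 * (⟨κ, hκ⟩ : A) = (W.b₄ : A) + ⟨e, he⟩ * (W.b₂ : A) + 6 * ⟨e, he⟩ ^ 2 := by
    apply A.subtype_injective
    simp only [map_add, map_mul, map_pow, map_intCast, map_ofNat, ValuationSubring.subtype_apply]
    rw [← EQ_b₂, ← EQ_b₄]
    exact hc.c2
  have c3 : 4 * (⟨e, he⟩ : A) ^ 3 + (W.b₂ : A) * ⟨e, he⟩ ^ 2 + 2 * (W.b₄ : A) * ⟨e, he⟩
      + (W.b₆ : A) = 0 := by
    apply A.subtype_injective
    simp only [map_add, map_mul, map_pow, map_intCast, map_ofNat, map_zero,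
      ValuationSubring.subtype_apply]
    rw [← EQ_b₂, ← EQ_b₄, ← EQ_b₆]
    exact hc.c3
  have c4 : (W.b₈ : A) + 3 * ⟨e, he⟩ * (W.b₆ : A) + 3 * ⟨e, he⟩ ^ 2 * (W.b₄ : A)
      + ⟨e, he⟩ ^ 3 * (W.b₂ : A) + 3 * ⟨e, he⟩ ^ 4 = - (⟨κ, hκ⟩ : A) ^ 2 := by
    apply A.subtype_injective
    simp only [map_add, map_mul, map_pow, map_intCast, map_ofNat, map_neg,
      ValuationSubring.subtype_apply]
    rw [← EQ_b₂, ← EQ_b₄, ← EQ_b₆, ← EQ_b₈]
    exact hc.c4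
  refine ⟨?_, ?_, ?_, ?_⟩
  · have := congrArg (IsLocalRing.residue A) c1
    simpa only [map_add, map_mul, map_pow, map_intCast, map_ofNat, map_b₂, eq_intCast] using this
  · have := congrArg (IsLocalRing.residue A) c2
    simpa only [map_add, map_mul, map_pow, map_intCast, map_ofNat, map_b₂, map_b₄,
      eq_intCast] using this
  · have := congrArg (IsLocalRing.residue A) c3
    simpa only [map_add, map_mul, map_pow, map_intCast, map_ofNat, map_b₂, map_b₄, map_b₆,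
      map_zero, eq_intCast] using this
  · have := congrArg (IsLocalRing.residue A) c4
    simpa only [map_add, map_mul, map_pow, map_intCast, map_ofNat, map_b₂, map_b₄, map_b₆,
      map_b₈, map_neg, eq_intCast] using this

/-- (Dict) the equation of `EQ W`. -/
theorem Dict_equation_iff (x y : Qb) : (EQ W).Equation x y ↔
    y ^ 2 + (W.a₁ : Qb) * x * y + (W.a₃ : Qb) * y =
      x ^ 3 + (W.a₂ : Qb) * x ^ 2 + (W.a₄ : Qb) * x + (W.a₆ : Qb) := by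
  rw [equation_iff]
  simp

/-- (Dict) `x` integral implies `y` integral. -/
theorem Dict_y_mem (A : ValuationSubring Qb) {x y : Qb} (h : (EQ W).Equation x y) (hx : x ∈ A) :
    y ∈ A := by
  rw [Dict_equation_iff] at h
  by_contra hy
  have hvy : 1 < A.valuation y := by
    rw [← not_le, A.valuation_le_one_iff]
    exact hy
  have hc : (W.a₁ : Qb) * x + (W.a₃ : Qb) ∈ A :=
    add_mem (mul_mem (intCast_mem A _) hx) (intCast_mem A _)
  have hd : x ^ 3 + (W.a₂ : Qb) * x ^ 2 + (W.a₄ : Qb) * x + (W.a₆ : Qb) ∈ A :=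
    add_mem (add_mem (add_mem (pow_mem hx 3) (mul_mem (intCast_mem A _) (pow_mem hx 2)))
      (mul_mem (intCast_mem A _) hx)) (intCast_mem A _)
  have h1 : y * (y + ((W.a₁ : Qb) * x + (W.a₃ : Qb))) =
      x ^ 3 + (W.a₂ : Qb) * x ^ 2 + (W.a₄ : Qb) * x + (W.a₆ : Qb) := by
    linear_combination h
  have h2 : A.valuation (y + ((W.a₁ : Qb) * x + (W.a₃ : Qb))) = A.valuation y :=
    Valuation.map_add_eq_of_lt_left _ (lt_of_le_of_lt ((A.valuation_le_one_iff _).2 hc) hvy)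
  have h3 := (A.valuation_le_one_iff _).2 hd
  rw [← h1, map_mul, h2] at h3
  exact absurd (lt_of_lt_of_le hvy (le_mul_of_one_le_right' hvy.le)) (not_lt.2 h3)

/-- (Dict) the reduction lies on the reduced curve. -/
theorem Dict_equation_res (A : ValuationSubring Qb) {x y : Qb} (h : (EQ W).Equation x y)
    (hx : x ∈ A) (hy : y ∈ A) :
    (W.map (Int.castRingHom (IsLocalRing.ResidueField A))).toAffine.Equation
      (IsLocalRing.residue A ⟨x, hx⟩) (IsLocalRing.residue A ⟨y, hy⟩) := by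
  rw [Dict_equation_iff] at h
  have h1 : (⟨y, hy⟩ : A) ^ 2 + (W.a₁ : A) * ⟨x, hx⟩ * ⟨y, hy⟩ + (W.a₃ : A) * ⟨y, hy⟩ =
      ⟨x, hx⟩ ^ 3 + (W.a₂ : A) * ⟨x, hx⟩ ^ 2 + (W.a₄ : A) * ⟨x, hx⟩ + (W.a₆ : A) := by
    apply A.subtype_injective
    simp only [map_add, map_mul, map_pow, map_intCast, ValuationSubring.subtype_apply]
    exact h
  rw [equation_iff]
  have := congrArg (IsLocalRing.residue A) h1
  simpa only [map_add, map_mul, map_pow, map_intCast, map_a₁, map_a₂, map_a₃, map_a₄, map_a₆,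
    eq_intCast] using this

/-- **Dictionary with the Prelude's `InZeroComponentAt`.**  `P = (x,y)`.
(⇒, contrapositive) `v(x - e) < 1`: `x ∈ A`, `y ∈ A` (integral over `A[x]`), `Ȳ² = D̄2(ē) = 0` and `N̄² = F̄0(ē,ē) = ē D̄2(ē) + (ξ̄² - κ̄)² = 0` (`slope_identity`, `Centre.F0_id` with `s = t`), so both partial derivatives
vanish at the reduction: singular.  (⇐) `x ∉ A`: clear.  `x ∈ A`, `v(x-e) = 1`: `y ∈ A`; the reduction satisfies the equation; if `Ȳ ≠ 0` nonsingular; if `Ȳ = 0` then `N̄² = F̄0(x̄,x̄) = (ξ̄² - κ̄)² = ξ̄⁴ ≠ 0`.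
`Nonsingular` = `Equation ∧ (polynomialX.. ≠ 0 ∨ polynomialY.. ≠ 0)`: `nonsingular_iff`. -/
theorem inZeroComponentAt_iff (A : ValuationSubring Qb) {e κ β : Qb} (hc : Centre (EQ W) e κ β)
    (he : A.valuation e ≤ 1) (hκ : A.valuation κ < 1) (hβ : A.valuation β = 1) (P : (EQ W).Point) :
    W.InZeroComponentAt A P ↔ InE0 A.valuation e P := by
  have heA : e ∈ A := (A.valuation_le_one_iff e).1 he
  have hκA : κ ∈ A := (A.valuation_le_one_iff κ).1 hκ.le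
  have hβA : β ∈ A := (A.valuation_le_one_iff β).1 hβ.le
  have hκ0 : IsLocalRing.residue A ⟨κ, hκA⟩ = 0 := by
    rw [IsLocalRing.residue_eq_zero_iff, A.valuation_lt_one_iff]
    exact hκ
  have hck := Dict_centre_res A hc heA hκA hβA
  rw [hκ0] at hck
  have key : ∀ (x y : Qb) (_ : (EQ W).Equation x y) (hx : x ∈ A) (hy : y ∈ A),
      ((W.map (Int.castRingHom (IsLocalRing.ResidueField A))).toAffine.Nonsingular
        (IsLocalRing.residue A ⟨x, hx⟩) (IsLocalRing.residue A ⟨y, hy⟩) ↔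
        1 ≤ A.valuation (x - e)) := by
    intro x y h hx hy
    refine (Dict_nonsingular_iff hck (Dict_equation_res A h hx hy)).trans ?_
    rw [← not_lt]
    refine not_congr ?_
    rw [← sub_eq_zero, ← map_sub, IsLocalRing.residue_eq_zero_iff, A.valuation_lt_one_iff]
    rfl
  have hout : ∀ x : Qb, x ∉ A → 1 ≤ A.valuation (x - e) := by
    intro x hx
    have hvx : 1 < A.valuation x := by
      rw [← not_le, A.valuation_le_one_iff]
      exact hx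
    rw [Valuation.map_sub_eq_of_lt_left _ (lt_of_le_of_lt he hvx)]
    exact hvx.le
  rcases P with _ | ⟨x, y, h⟩
  · exact iff_of_true (Or.inl rfl) (Or.inl rfl)
  · constructor
    · rintro (h0 | ⟨x', y', h', hP, hcase⟩)
      · exact absurd h0 (by simp)
      · obtain ⟨rfl, rfl⟩ : x = x' ∧ y = y' := by
          injection hP with h1 h2
          exact ⟨h1, h2⟩
        right
        rcases hcase with hx | ⟨hx, hy, hns⟩
        · exact hout x hx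
        · exact (key x y h.1 hx hy).1 hns
    · rintro (h0 | h1)
      · exact absurd h0 (by simp)
      · refine Or.inr ⟨x, y, h, rfl, ?_⟩
        by_cases hx : x ∈ A
        · exact Or.inr ⟨hx, Dict_y_mem A h.1 hx, (key x y h.1 hx _).2 h1⟩
        · exact Or.inl hx

/-- the valuation data of `EQ W` at a place over a prime of multiplicative reduction. -/
theorem Main_data {r : ℕ} (hr : r.Prime) (hrΔ : (r : ℤ) ∣ W.Δ) (hrc₄ : ¬ (r : ℤ) ∣ W.c₄)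
    (A : ValuationSubring Qb) (hA : A.LiesOverPrime r) :
    A.valuation (EQ W).b₂ ≤ 1 ∧ A.valuation (EQ W).b₄ ≤ 1 ∧ A.valuation (EQ W).b₆ ≤ 1 ∧
      A.valuation (EQ W).b₈ ≤ 1 ∧ A.valuation (EQ W).Δ < 1 ∧ A.valuation (EQ W).c₄ = 1 := by
  rw [EQ_b₂, EQ_b₄, EQ_b₆, EQ_b₈, EQ_Δ, EQ_c₄]
  refine ⟨(Fermat.Agent.S05.val_int A hr hA _).1, (Fermat.Agent.S05.val_int A hr hA _).1,
    (Fermat.Agent.S05.val_int A hr hA _).1, (Fermat.Agent.S05.val_int A hr hA _).1,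
    (Fermat.Agent.S05.val_int A hr hA _).2.mpr hrΔ, ?_⟩
  exact le_antisymm (Fermat.Agent.S05.val_int A hr hA _).1
    (not_lt.mp (fun h => hrc₄ ((Fermat.Agent.S05.val_int A hr hA _).2.mp h)))

theorem Main_val_prime {r p : ℕ} (hr : r.Prime) (hp : p.Prime) (hrp : r ≠ p)
    (A : ValuationSubring Qb) (hA : A.LiesOverPrime r) : A.valuation (p : Qb) = 1 := by
  have h := Fermat.Agent.S05.val_int A hr hA (p : ℤ)
  rw [Int.cast_natCast] at h
  refine le_antisymm h.1 (not_lt.mp (fun h1 => hrp ?_))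
  have h2 : r ∣ p := by exact_mod_cast h.2.mp h1
  exact (Nat.prime_dvd_prime_iff_eq hr hp).mp h2

/-- **(L1)** -/
theorem val_prod_of_inZero {r p : ℕ} (hr : r.Prime) (hp : p.Prime) (hp2 : p ≠ 2) (hrp : r ≠ p)
    (hrΔ : (r : ℤ) ∣ W.Δ) (hrc₄ : ¬ (r : ℤ) ∣ W.c₄) (A : ValuationSubring Qb)
    (hA : A.LiesOverPrime r) (Q : (EQ W).Point) (hQ : addOrderOf Q = p)
    (h : W.InZeroComponentAt A Q) :
    A.valuation (∏ k ∈ Finset.Ico 1 p, yc (k • Q)) = 1 := by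
  obtain ⟨hb₂, hb₄, hb₆, hb₈, hΔ, hc₄⟩ := Main_data hr hrΔ hrc₄ A hA
  obtain ⟨e, κ, β, hc, he, hκ, hβ⟩ := exists_centre A.valuation hb₂ hb₄ hb₆ hb₈ hΔ hc₄
  exact val_prod_yc_eq_one hc he hκ hβ.le hb₂ hb₄ hb₆ hb₈ hp hp2 (Main_val_prime hr hp hrp A hA) hQ
    ((inZeroComponentAt_iff A hc he hκ hβ Q).mp h)

/-- **(L2)** -/
theorem val_prod_of_not_inZero {r p : ℕ} (hr : r.Prime) (hp : p.Prime) (hrp : r ≠ p)
    (hrΔ : (r : ℤ) ∣ W.Δ) (hrc₄ : ¬ (r : ℤ) ∣ W.c₄) (A : ValuationSubring Qb)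
    (hA : A.LiesOverPrime r) (Q : (EQ W).Point) (hQ : addOrderOf Q = p)
    (h : ¬ W.InZeroComponentAt A Q) :
    A.valuation (∏ k ∈ Finset.Ico 1 p, yc (k • Q)) < 1 := by
  obtain ⟨hb₂, hb₄, hb₆, hb₈, hΔ, hc₄⟩ := Main_data hr hrΔ hrc₄ A hA
  obtain ⟨e, κ, β, hc, he, hκ, hβ⟩ := exists_centre A.valuation hb₂ hb₄ hb₆ hb₈ hΔ hc₄
  exact val_prod_yc_lt_one hc hκ hβ.le hb₂ hb₄ hb₆ hb₈ hp (Main_val_prime hr hp hrp A hA) hQ
    (fun h0 => h ((inZeroComponentAt_iff A hc he hκ hβ Q).mpr h0))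

theorem EQ_yc_smul (σ : Qb ≃ₐ[ℚ] Qb) (P : (EQ W).Point) : yc (σ • P) = σ (yc P) := by
  rcases P with _ | ⟨x, y, h⟩
  · exact (map_zero σ).symm
  · have h1 : σ (EQ W).a₁ = (EQ W).a₁ := σ.commutes (W.map (Int.castRingHom ℚ)).a₁
    have h3 : σ (EQ W).a₃ = (EQ W).a₃ := σ.commutes (W.map (Int.castRingHom ℚ)).a₃
    show 2 * σ y + (EQ W).a₁ * σ x + (EQ W).a₃ = σ (2 * y + (EQ W).a₁ * x + (EQ W).a₃)
    rw [map_add, map_add, map_mul, map_mul, h1, h3, map_ofNat]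

/-- Galois: `yc (σ • P) = σ (yc P)`; hence the product is rational when `Q` is. -/
theorem prod_yc_mem_rat {p : ℕ} (Q : (EQ W).Point)
    (hQfix : ∀ σ : Qb ≃ₐ[ℚ] Qb, σ • Q = Q) :
    ∃ c : ℚ, ∏ k ∈ Finset.Ico 1 p, yc (k • Q) = algebraMap ℚ Qb c := by
  have hfix : ∀ σ : Qb ≃ₐ[ℚ] Qb,
      σ (∏ k ∈ Finset.Ico 1 p, yc (k • Q)) = ∏ k ∈ Finset.Ico 1 p, yc (k • Q) := by
    intro σ
    rw [map_prod]
    refine Finset.prod_congr rfl (fun k _ => ?_)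
    have h1 : σ • (k • Q) = k • (σ • Q) :=
      map_nsmul (DistribSMul.toAddMonoidHom (EQ W).Point σ) k Q
    rw [← EQ_yc_smul, h1, hQfix σ]
  have hac : IsAlgClosure ℚ Qb :=
    (inferInstance : @IsAlgClosure ℚ (AlgebraicClosure ℚ) _ _ (AlgebraicClosure.instAlgebra ℚ) _)
  have hgal : IsGalois ℚ Qb := IsAlgClosure.isGalois ℚ Qb
  obtain ⟨c, hc⟩ := (InfiniteGalois.mem_range_algebraMap_iff_fixed _).mpr hfix
  exact ⟨c, hc.symm⟩

end Prelude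

end

end Fermat.Agent.S15.A.Loc
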