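import Fermat.Agent.S15.A.Wp.Main
import Fermat.Agent.S15.A.Loc

/-!
# S15 / A / Transfer : from `(W, Q)` over `ℚ̄` to a point `τ` of the upper half plane

Base change along `S24.iotaC : ℚ̄ → ℂ` and `Wp.exists_tau`.
-/

set_option autoImplicit false

open WeierstrassCurve WeierstrassCurve.Affine UpperHalfPlane

namespace Fermat.Agent.S15.A.Tr

open Fermat.Agent.S24 (jfun mulH iotaC)
open Fermat.Agent.S05 (xc yc)
open Fermat.Agent.S15.A.Loc (Qb EQ)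

noncomputable section

variable (W : WeierstrassCurve ℤ)

/-- the curve over `ℂ`. -/
abbrev EC : Affine ℂ := (EQ W).map iotaC

theorem EC_Δ : (EC W).Δ = (W.Δ : ℂ) := by
  show ((EQ W).map iotaC).Δ = _
  rw [WeierstrassCurve.map_Δ, Loc.EQ_Δ]
  simp

theorem EC_c₄ : (EC W).c₄ = (W.c₄ : ℂ) := by
  show ((EQ W).map iotaC).c₄ = _
  rw [WeierstrassCurve.map_c₄, Loc.EQ_c₄]
  simp

theorem EC_c₆ : (EC W).c₆ = (W.c₆ : ℂ) := by
  show ((EQ W).map iotaC).c₆ = _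
  rw [WeierstrassCurve.map_c₆, Loc.EQ_c₆]
  simp

/-- `2 ∤ c₄` ⟹ `c₄ ≠ 0` and `c₆ ≠ 0` (`1728 Δ = c₄³ - c₆²`: `c₆ = 0` ⟹ `2 ∣ c₄³`). -/
theorem c₄_ne_zero (h2 : ¬ (2 : ℤ) ∣ W.c₄) : W.c₄ ≠ 0 := by
  intro h
  exact h2 (h ▸ dvd_zero _)

theorem c₆_ne_zero (h2 : ¬ (2 : ℤ) ∣ W.c₄) : W.c₆ ≠ 0 := by
  intro h
  have h1 := W.c_relation
  rw [h] at h1
  have h3 : (2 : ℤ) ∣ W.c₄ ^ 3 := ⟨864 * W.Δ, by linarith⟩
  exact h2 (Int.prime_two.dvd_of_dvd_pow h3)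

variable {W}

/-- transport of points along an equality of curves. -/
theorem TrMap_transport {W₁ W₂ : Affine ℂ} (h : W₁ = W₂) :
    ∃ e : W₁.Point ≃+ W₂.Point, ∀ P, yc (e P) = yc P := by
  subst h
  exact ⟨AddEquiv.refl _, fun _ => rfl⟩

/-- base change of points: an injective group homomorphism compatible with `yc`
(Mathlib: `WeierstrassCurve.Affine.Point.map` for an algebra hom / ring hom; build it by hand on `some x y` if this is more convenient). -/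
theorem exists_pointMap : ∃ φ : (EQ W).Point →+ (EC W).Point, Function.Injective φ ∧
    ∀ P : (EQ W).Point, yc (φ P) = iotaC (yc P) := by
  let f : Qb →ₐ[ℚ] ℂ := iotaC.toRatAlgHom
  have hf : ∀ x, f x = iotaC x := fun _ => rfl
  have hW : ((W.map (Int.castRingHom ℚ))⁄ℂ : Affine ℂ) = EC W := by
    show (W.map (Int.castRingHom ℚ)).map (algebraMap ℚ ℂ) =
      ((W.map (Int.castRingHom ℚ)).map (algebraMap ℚ Qb)).map iotaC
    rw [WeierstrassCurve.map_map (W.map (Int.castRingHom ℚ)) (algebraMap ℚ Qb) iotaC,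
      Subsingleton.elim (iotaC.comp (algebraMap ℚ Qb)) (algebraMap ℚ ℂ)]
  obtain ⟨e, he⟩ := TrMap_transport hW
  refine ⟨e.toAddMonoidHom.comp (Point.map (W' := W.map (Int.castRingHom ℚ)) f),
    e.injective.comp (Point.map_injective f), ?_⟩
  intro P
  show yc (e (Point.map f P)) = _
  rw [he]
  cases P with
  | zero =>
    show (0 : ℂ) = iotaC 0
    rw [map_zero]
  | some x y h =>
    rw [Point.map_some]
    show 2 * f y + ((W.map (Int.castRingHom ℚ))⁄ℂ).a₁ * f x + ((W.map (Int.castRingHom ℚ))⁄ℂ).a₃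
      = iotaC (2 * y + (EQ W).a₁ * x + (EQ W).a₃)
    rw [map_add, map_add, map_mul, map_mul, map_ofNat, hf, hf]
    have h1 : ((W.map (Int.castRingHom ℚ))⁄ℂ).a₁ = iotaC (EQ W).a₁ :=
      (f.commutes (W.map (Int.castRingHom ℚ)).a₁).symm
    have h3 : ((W.map (Int.castRingHom ℚ))⁄ℂ).a₃ = iotaC (EQ W).a₃ :=
      (f.commutes (W.map (Int.castRingHom ℚ)).a₃).symm
    rw [h1, h3]

/-- **Transfer.** -/
theorem exists_tau (hΔ : W.Δ ≠ 0) (h2 : ¬ (2 : ℤ) ∣ W.c₄) {p : ℕ} [NeZero p] (hp : p.Prime)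
    (hp2 : p ≠ 2) (Q : (EQ W).Point) (hQ : addOrderOf Q = p) :
    ∃ τ : ℍ, jfun τ = iotaC ((W.c₄ : Qb) ^ 3 / (W.Δ : Qb)) ∧
      ModularForm.discriminant τ =
        iotaC ((p : Qb) ^ 12 * (∏ k ∈ Finset.Ico 1 p, yc (k • Q)) ^ 4 / (W.Δ : Qb) ^ (p - 1)) *
          ModularForm.discriminant (mulH p τ) := by
  obtain ⟨φ, hinj, hyc⟩ := exists_pointMap (W := W)
  have hΔC' : (W.Δ : ℂ) ≠ 0 := by exact_mod_cast hΔ
  have hΔC : (EC W).Δ ≠ 0 := by rw [EC_Δ]; exact hΔC'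
  have h4C : (EC W).c₄ ≠ 0 := by rw [EC_c₄]; exact_mod_cast c₄_ne_zero W h2
  have h6C : (EC W).c₆ ≠ 0 := by rw [EC_c₆]; exact_mod_cast c₆_ne_zero W h2
  have hord : addOrderOf (φ Q) = p := by rw [addOrderOf_injective φ hinj, hQ]
  obtain ⟨τ, h1, h3⟩ := Wp.exists_tau (EC W) hΔC h4C h6C hp hp2 (φ Q) hord
  refine ⟨τ, ?_, ?_⟩
  · rw [EC_Δ, EC_c₄] at h1
    rw [map_div₀, map_pow, map_intCast, map_intCast, eq_div_iff hΔC', h1]
  · rw [EC_Δ] at h3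
    have hk : ∀ k : ℕ, yc (k • φ Q) = iotaC (yc (k • Q)) := fun k => by rw [← map_nsmul, hyc]
    simp only [hk] at h3
    rw [map_div₀, map_mul, map_pow, map_pow, map_pow, map_natCast, map_intCast, map_prod,
      div_mul_eq_mul_div, eq_div_iff (pow_ne_zero _ hΔC'), h3]

end

end Fermat.Agent.S15.A.Tr
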