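import Fermat.Agent.S15.A.Gen
import Fermat.Agent.S15.A.Transfer

/-!
# S15 / A / Main : the dictionary  `(E, Q)  ⟼  x ∈ X₀(p)(ℚ)`

EXPORT `A.main`.  `W/ℤ`, `Q` a `G_ℚ`-fixed point of odd prime order `p`, `2 ∤ c₄`.  There is a place `x` of `FF p` (function field of `X₀(p)` over `ℚ̄`) with
* `j(x) = c₄³/Δ`, `h(x) = c ∈ ℚˣ`  (`h = hQ p = Δ(q)/Δ(q^p)`, pole of order `p - 1` at the cusp `∞`, zero of order `p - 1` at the cusp `0`);
* for every prime `r ≠ p` of multiplicative reduction and every `A | r`: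
    `Q` in the zero component at `A`      ⟹ `|h(x)|_A > 1`   (`x` reduces to the cusp `∞`),
    `Q` not in the zero component at `A`  ⟹ `|h(x)|_A < 1`   (`x` reduces to the cusp `0`);
* if `Q` is in the zero component at some such `A`, then `x` is fixed by `G_ℚ`.
-/

set_option autoImplicit false

open WeierstrassCurve WeierstrassCurve.Affine AlgebraicCurve ModularCurve Polynomial

namespace Fermat.Agent.S15.A

open Fermat.Agent.S05 (xc yc)
open Fermat.Agent.S37.Red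
open Fermat.Agent.ES (Qb FF GQ galF)
open Fermat.Agent.S15.A.Loc (EQ)
open Fermat.Agent.S15.A.Pl

noncomputable section

variable (p : ℕ) [Fact p.Prime] (W : WeierstrassCurve ℤ)

/-- `j(E)`. -/
def j0 : Qb := (W.c₄ : Qb) ^ 3 / (W.Δ : Qb)

variable {W}

/-- `h(E, Q) = p¹² ∏_{0<k<p} (2y + a₁x + a₃)(kQ)⁴ / Δ^(p-1)`. -/
def h0 (Q : (EQ W).Point) : Qb :=
  (p : Qb) ^ 12 * (∏ k ∈ Finset.Ico 1 p, yc (k • Q)) ^ 4 / (W.Δ : Qb) ^ (p - 1)

variable {p}

/-- `Tr.exists_tau` + `Pl.exists_place_of_tau`. -/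
theorem exists_place (hp2 : p ≠ 2) (hΔ : W.Δ ≠ 0) (h2 : ¬ (2 : ℤ) ∣ W.c₄) (Q : (EQ W).Point)
    (hQo : addOrderOf Q = p) :
    ∃ x : Place Qb (FF p), Van x (jQ p - algebraMap Qb (FF p) (j0 W)) ∧
      Van x (hQ p - algebraMap Qb (FF p) (h0 p Q)) := by
  obtain ⟨τ, h1, h3⟩ := Tr.exists_tau hΔ h2 (Fact.out : p.Prime) hp2 Q hQo
  exact Pl.exists_place_of_tau (p := p) τ (j0 W) (h0 p Q) h1.symm h3

/-- `Gen.not_van_hQ` at the place of `exists_place`. -/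
theorem h0_ne_zero (hp2 : p ≠ 2) (hΔ : W.Δ ≠ 0) (h2 : ¬ (2 : ℤ) ∣ W.c₄) (Q : (EQ W).Point)
    (hQo : addOrderOf Q = p) : h0 p Q ≠ 0 := by
  obtain ⟨x, hxj, hxh⟩ := exists_place hp2 hΔ h2 Q hQo
  intro h
  rw [h, map_zero, sub_zero] at hxh
  have hreg : Reg x (jQ p) := by
    have := (hxj.reg x).add x (reg_algebraMap x (j0 W))
    rwa [sub_add_cancel] at this
  exact Gen.not_van_hQ p hp2 x hreg hxh

/-- `Loc.prod_yc_mem_rat`. -/
theorem h0_mem_rat (Q : (EQ W).Point) (hQfix : ∀ σ : Qb ≃ₐ[ℚ] Qb, σ • Q = Q) :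
    ∃ c : ℚ, h0 p Q = algebraMap ℚ Qb c := by
  obtain ⟨c, hc⟩ := Loc.prod_yc_mem_rat (p := p) Q hQfix
  refine ⟨(p : ℚ) ^ 12 * c ^ 4 / (W.Δ : ℚ) ^ (p - 1), ?_⟩
  rw [h0, hc, map_div₀, map_mul, map_pow, map_pow, map_pow, map_natCast, map_intCast]

/-- valuations of integers at `A | r`. -/
theorem val_int_le_one (A : ValuationSubring Qb) (n : ℤ) : A.valuation (n : Qb) ≤ 1 := by
  exact (A.valuation_le_one_iff _).mpr (intCast_mem A n)

theorem val_int_lt_one_iff {r : ℕ} (hr : r.Prime) (A : ValuationSubring Qb) (hA : A.LiesOverPrime r)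
    (n : ℤ) : A.valuation (n : Qb) < 1 ↔ (r : ℤ) ∣ n := by
  have hq1 : A.valuation (r : Qb) < 1 := A.mem_nonunits_iff.1 hA
  constructor
  · intro hn
    by_contra hdvd
    have hcop : IsCoprime (r : ℤ) n :=
      (Prime.coprime_iff_not_dvd (Nat.prime_iff_prime_int.mp hr)).mpr hdvd
    obtain ⟨u, w, huw⟩ := hcop
    have h1 : (u : Qb) * (r : Qb) + (w : Qb) * (n : Qb) = 1 := by
      exact_mod_cast congrArg (Int.cast : ℤ → Qb) huw
    have h2 : A.valuation ((u : Qb) * (r : Qb) + (w : Qb) * (n : Qb)) < 1 := by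
      apply Valuation.map_add_lt
      · rw [map_mul]
        exact lt_of_le_of_lt (mul_le_of_le_one_left' (val_int_le_one A u)) hq1
      · rw [map_mul]
        exact lt_of_le_of_lt (mul_le_of_le_one_left' (val_int_le_one A w)) hn
    rw [h1, map_one] at h2
    exact lt_irrefl _ h2
  · rintro ⟨m, rfl⟩
    push_cast
    rw [map_mul]
    exact lt_of_le_of_lt (mul_le_of_le_one_right' (val_int_le_one A m)) hq1

theorem val_isIntegral_le_one (A : ValuationSubring Qb) {a : Qb} (ha : IsIntegral ℤ a) :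
    A.valuation a ≤ 1 := by
  have h1 : IsIntegral A a := ha.tower_top
  obtain ⟨y, hy⟩ := IsIntegrallyClosed.isIntegral_iff.1 h1
  rw [← hy]
  exact A.valuation_le_one y

theorem val_j0 {r : ℕ} (hr : r.Prime) (hrΔ : (r : ℤ) ∣ W.Δ) (hrc₄ : ¬ (r : ℤ) ∣ W.c₄) (hΔ : W.Δ ≠ 0)
    (A : ValuationSubring Qb) (hA : A.LiesOverPrime r) :
    1 < A.valuation (j0 W) ∧ A.valuation (j0 W) * A.valuation (W.Δ : Qb) = 1 := by
  have hΔQ : (W.Δ : Qb) ≠ 0 := by exact_mod_cast hΔ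
  have hvΔ0 : A.valuation (W.Δ : Qb) ≠ 0 := (Valuation.ne_zero_iff _).2 hΔQ
  have hvΔ : A.valuation (W.Δ : Qb) < 1 := (val_int_lt_one_iff hr A hA _).2 hrΔ
  have hvc : A.valuation (W.c₄ : Qb) = 1 :=
    le_antisymm (val_int_le_one A _)
      (not_lt.1 fun h => hrc₄ ((val_int_lt_one_iff hr A hA _).1 h))
  have hj : A.valuation (j0 W) = (A.valuation (W.Δ : Qb))⁻¹ := by
    rw [j0, map_div₀, map_pow, hvc, one_pow, one_div]
  rw [hj]
  exact ⟨(one_lt_inv₀ (zero_lt_iff.2 hvΔ0)).2 hvΔ, inv_mul_cancel₀ hvΔ0⟩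

/-- (L1) -/
theorem val_h0_of_inZero (hp2 : p ≠ 2) {r : ℕ} (hr : r.Prime) (hrp : r ≠ p) (hΔ : W.Δ ≠ 0)
    (hrΔ : (r : ℤ) ∣ W.Δ) (hrc₄ : ¬ (r : ℤ) ∣ W.c₄) (A : ValuationSubring Qb)
    (hA : A.LiesOverPrime r) (Q : (EQ W).Point) (hQo : addOrderOf Q = p)
    (h : W.InZeroComponentAt A Q) : A.valuation (h0 p Q) = A.valuation (j0 W) ^ (p - 1) := by
  have hprod := Loc.val_prod_of_inZero hr (Fact.out : p.Prime) hp2 hrp hrΔ hrc₄ A hA Q hQo h
  have hvp : A.valuation (p : Qb) = 1 := by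
    have h1 := val_int_le_one A (p : ℤ)
    have h2 := val_int_lt_one_iff hr A hA (p : ℤ)
    rw [Int.cast_natCast] at h1 h2
    refine le_antisymm h1 (not_lt.mp fun h3 => hrp ?_)
    have h4 : r ∣ p := by exact_mod_cast h2.mp h3
    exact (Nat.prime_dvd_prime_iff_eq hr (Fact.out : p.Prime)).mp h4
  have hj := (val_j0 hr hrΔ hrc₄ hΔ A hA).2
  rw [h0, map_div₀, map_mul, map_pow, map_pow, map_pow, hvp, hprod, one_pow, one_pow, one_mul,
    one_div, eq_inv_of_mul_eq_one_left hj, inv_pow]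

/-- (L2) -/
theorem val_h0_of_not_inZero {r : ℕ} (hr : r.Prime) (hrp : r ≠ p) (hΔ : W.Δ ≠ 0)
    (hrΔ : (r : ℤ) ∣ W.Δ) (hrc₄ : ¬ (r : ℤ) ∣ W.c₄) (A : ValuationSubring Qb)
    (hA : A.LiesOverPrime r) (Q : (EQ W).Point) (hQo : addOrderOf Q = p)
    (h : ¬ W.InZeroComponentAt A Q) : A.valuation (h0 p Q) < A.valuation (j0 W) ^ (p - 1) := by
  have hprod := Loc.val_prod_of_not_inZero hr (Fact.out : p.Prime) hrp hrΔ hrc₄ A hA Q hQo h
  have hvp : A.valuation (p : Qb) = 1 := by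
    have h1 := val_int_le_one A (p : ℤ)
    have h2 := val_int_lt_one_iff hr A hA (p : ℤ)
    rw [Int.cast_natCast] at h1 h2
    refine le_antisymm h1 (not_lt.mp fun h3 => hrp ?_)
    have h4 : r ∣ p := by exact_mod_cast h2.mp h3
    exact (Nat.prime_dvd_prime_iff_eq hr (Fact.out : p.Prime)).mp h4
  have hj := (val_j0 hr hrΔ hrc₄ hΔ A hA).2
  have hj1 := (val_j0 hr hrΔ hrc₄ hΔ A hA).1
  have hpos : 0 < A.valuation (j0 W) ^ (p - 1) := pow_pos (lt_trans zero_lt_one hj1) _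
  rw [h0, map_div₀, map_mul, map_pow, map_pow, map_pow, hvp, one_pow, one_mul, div_eq_mul_inv,
    ← inv_pow, ← eq_inv_of_mul_eq_one_left hj]
  exact mul_lt_of_lt_one_left hpos (pow_lt_one₀ zero_le hprod (by norm_num))

/-- from `h(x) = h₀ ≠ 0` to `u(x) = p¹²/h₀`. -/
theorem over_of_van {x : Place Qb (FF p)} {j₀ h₀ : Qb} (hh : h₀ ≠ 0)
    (hj : Van x (jQ p - algebraMap Qb (FF p) j₀)) (hx : Van x (hQ p - algebraMap Qb (FF p) h₀)) :
    Unique.Over (jQ p) (uQ p) j₀ ((p : Qb) ^ 12 / h₀) x := by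
  refine ⟨hj, ?_⟩
  have hnv : ¬ Van x (hQ p) := by
    intro hv
    have h1 := hv.sub x hx
    rw [sub_sub_cancel] at h1
    exact hh ((van_algebraMap_iff x).1 h1)
  have hQ0 : hQ p ≠ 0 := by
    intro h0
    exact hnv (h0 ▸ van_zero x)
  have hA0 : algebraMap Qb (FF p) h₀ ≠ 0 := by
    rw [Ne, map_eq_zero]
    exact hh
  have hE : uQ p - algebraMap Qb (FF p) ((p : Qb) ^ 12 / h₀) =
      (algebraMap Qb (FF p) ((p : Qb) ^ 12 / h₀) * (hQ p)⁻¹) *
        (-(hQ p - algebraMap Qb (FF p) h₀)) := by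
    rw [uQ, map_div₀]
    field_simp
    ring
  rw [hE]
  exact Van.mul_left x ((reg_algebraMap x _).mul x (reg_inv_of_not_van x hnv)) (hx.neg x)

/-- **Dichotomy at a place** (`Psi.exists_Psi`, `Unique.eval_eq_zero_of_over`, `Newton.val_lt_one_of_lt`). -/
theorem val_lt_one_of_place (hp2 : p ≠ 2) {x : Place Qb (FF p)} {j₀ h₀ : Qb} (hh : h₀ ≠ 0)
    (hj : Van x (jQ p - algebraMap Qb (FF p) j₀)) (hx : Van x (hQ p - algebraMap Qb (FF p) h₀))
    (A : ValuationSubring Qb) (hAp : A.valuation (p : Qb) = 1) (hj1 : 1 < A.valuation j₀)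
    (hlt : A.valuation h₀ < A.valuation j₀ ^ (p - 1)) : A.valuation h₀ < 1 := by
  have hp3 : 3 ≤ p := by
    have := (Fact.out : p.Prime).two_le
    omega
  obtain ⟨Ψ, hS, hint, hΨ⟩ := Psi.exists_Psi p hp2
  have h0 := Unique.eval_eq_zero_of_over Ψ hΨ (over_of_van hh hj hx)
  exact Newton.val_lt_one_of_lt A.valuation hp3 hS
    (fun i n => val_isIntegral_le_one A (hint i n)) hAp hj1 hh h0 hlt

/-- **Uniqueness of the place in the disc of `∞`** (`Psi.exists_Psi`, `Newton.simple_root`, `Gen.adjoin_eq_top`, `Unique.place_unique`). -/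
theorem place_unique_of_val (hp2 : p ≠ 2) {x x' : Place Qb (FF p)} {j₀ h₀ : Qb} (hh : h₀ ≠ 0)
    (hj : Van x (jQ p - algebraMap Qb (FF p) j₀)) (hx : Van x (hQ p - algebraMap Qb (FF p) h₀))
    (hj' : Van x' (jQ p - algebraMap Qb (FF p) j₀)) (hx' : Van x' (hQ p - algebraMap Qb (FF p) h₀))
    (A : ValuationSubring Qb) (hj1 : 1 < A.valuation j₀) (hh1 : 1 ≤ A.valuation h₀) : x = x' := by
  have hp3 : 3 ≤ p := by
    have := (Fact.out : p.Prime).two_le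
    omega
  obtain ⟨Ψ, hS, hint, hΨ⟩ := Psi.exists_Psi p hp2
  have hnat : ∀ n : ℕ, A.valuation (n : Qb) ≤ 1 := fun n => by
    have := val_int_le_one A (n : ℤ)
    rwa [Int.cast_natCast] at this
  have hu : A.valuation ((p : Qb) ^ 12 / h₀) ≤ 1 := by
    rw [map_div₀, map_pow]
    have h0 : 0 < A.valuation h₀ := lt_of_lt_of_le zero_lt_one hh1
    rw [div_le_one₀ h0]
    exact (pow_le_one₀ zero_le (hnat p)).trans hh1
  have hs := Newton.simple_root A.valuation hp3 hS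
    (fun i n => val_isIntegral_le_one A (hint i n)) hnat hj1 hu
  exact Unique.place_unique (Gen.adjoin_eq_top p) Ψ hΨ hs (over_of_van hh hj hx)
    (over_of_van hh hj' hx')

/-- Galois action: `jQ`, `hQ` have rational coefficients. -/
theorem galF_jQ (σ : GQ) : galF p σ (jQ p) = jQ p := by
  apply Subtype.ext
  rw [Fermat.Agent.ES.coe_galF]
  show coeffMap (σ : Qb →+* Qb) (coeffMap (algebraMap ℚ Qb) (qExpand ℚ 1 jq)) =
    coeffMap (algebraMap ℚ Qb) (qExpand ℚ 1 jq)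
  ext k
  simp only [coeffMap_coeff]
  exact σ.commutes _

theorem galF_hQ (σ : GQ) : galF p σ (hQ p) = hQ p := by
  apply Subtype.ext
  rw [Fermat.Agent.ES.coe_galF, coe_hQ]
  exact Fermat.Agent.Crux.GM.coeffMap_castS _ _

theorem galF_algebraMap (σ : GQ) (c : Qb) :
    galF p σ (algebraMap Qb (FF p) c) = algebraMap Qb (FF p) (σ c) := by
  apply Subtype.ext
  rw [Fermat.Agent.ES.coe_galF]
  show coeffMap (σ : Qb →+* Qb) (algebraMap Qb (LaurentSeries Qb) c) =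
    algebraMap Qb (LaurentSeries Qb) (σ c)
  rw [algebraMap_laurentSeries_eq_single, algebraMap_laurentSeries_eq_single]
  ext k
  rw [coeffMap_coeff, HahnSeries.coeff_single, HahnSeries.coeff_single]
  split_ifs
  · rfl
  · exact map_zero _

/-- `ES.ord_galF`. -/
theorem van_smul_iff (σ : GQ) (x : Place Qb (FF p)) (f : FF p) :
    Van (arithmeticGalois (modularFunctionFieldFull p) σ • x) (galF p σ f) ↔ Van x f := by
  exact Fermat.Agent.S37.Red.van_smul_iff x (arithmeticGalois (modularFunctionFieldFull p) σ)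

/-- **Rationality of the place.** -/
theorem smul_eq_of_val (hp2 : p ≠ 2) {x : Place Qb (FF p)} {a c : ℚ} (hc : c ≠ 0)
    (hj : Van x (jQ p - algebraMap Qb (FF p) (algebraMap ℚ Qb a)))
    (hx : Van x (hQ p - algebraMap Qb (FF p) (algebraMap ℚ Qb c)))
    (A : ValuationSubring Qb) (hj1 : 1 < A.valuation (algebraMap ℚ Qb a))
    (hh1 : 1 ≤ A.valuation (algebraMap ℚ Qb c)) (σ : GQ) :
    arithmeticGalois (modularFunctionFieldFull p) σ • x = x := by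
  have hc' : algebraMap ℚ Qb c ≠ 0 := by
    rw [Ne, map_eq_zero]; exact hc
  have h1 : ∀ r : ℚ, galF p σ (algebraMap Qb (FF p) (algebraMap ℚ Qb r)) =
      algebraMap Qb (FF p) (algebraMap ℚ Qb r) := by
    intro r
    rw [galF_algebraMap, σ.commutes]
  have hj' := (van_smul_iff σ x _).2 hj
  have hx' := (van_smul_iff σ x _).2 hx
  rw [map_sub, galF_jQ, h1] at hj'
  rw [map_sub, galF_hQ, h1] at hx'
  exact place_unique_of_val hp2 hc' hj' hx' hj hx A hj1 hh1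

/-- **EXPORT of Part A.** -/
theorem main (hp2 : p ≠ 2) (hΔ : W.Δ ≠ 0) (Q : (EQ W).Point)
    (hQfix : ∀ σ : Qb ≃ₐ[ℚ] Qb, σ • Q = Q) (hQord : addOrderOf Q = p) (h2c₄ : ¬ (2 : ℤ) ∣ W.c₄) :
    ∃ (x : Place Qb (FF p)) (c : ℚ), c ≠ 0 ∧
      Van x (jQ p - algebraMap Qb (FF p) (j0 W)) ∧
      Van x (hQ p - algebraMap Qb (FF p) (algebraMap ℚ Qb c)) ∧
      (∀ r : ℕ, r.Prime → r ≠ p → (r : ℤ) ∣ W.Δ → ¬ (r : ℤ) ∣ W.c₄ →
        ∀ A : ValuationSubring Qb, A.LiesOverPrime r →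
          (W.InZeroComponentAt A Q → 1 < A.valuation (algebraMap ℚ Qb c)) ∧
          (¬ W.InZeroComponentAt A Q → A.valuation (algebraMap ℚ Qb c) < 1)) ∧
      ((∃ (r : ℕ) (A : ValuationSubring Qb), r.Prime ∧ r ≠ p ∧ (r : ℤ) ∣ W.Δ ∧ ¬ (r : ℤ) ∣ W.c₄ ∧
          A.LiesOverPrime r ∧ W.InZeroComponentAt A Q) →
        ∀ σ : GQ, arithmeticGalois (modularFunctionFieldFull p) σ • x = x) := by
  obtain ⟨x, hxj, hxh⟩ := exists_place hp2 hΔ h2c₄ Q hQord
  obtain ⟨c, hc⟩ := h0_mem_rat (p := p) Q hQfix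
  have hh0 : h0 p Q ≠ 0 := h0_ne_zero hp2 hΔ h2c₄ Q hQord
  have hc0 : c ≠ 0 := by
    rintro rfl
    exact hh0 (by rw [hc, map_zero])
  have hp1 : p - 1 ≠ 0 := by
    have := (Fact.out : p.Prime).two_le
    omega
  have hIn : ∀ r : ℕ, r.Prime → r ≠ p → (r : ℤ) ∣ W.Δ → ¬ (r : ℤ) ∣ W.c₄ →
      ∀ A : ValuationSubring Qb, A.LiesOverPrime r →
        W.InZeroComponentAt A Q → 1 < A.valuation (algebraMap ℚ Qb c) := by
    intro r hr hrp hrΔ hrc₄ A hA h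
    rw [← hc, val_h0_of_inZero hp2 hr hrp hΔ hrΔ hrc₄ A hA Q hQord h]
    exact one_lt_pow₀ (val_j0 hr hrΔ hrc₄ hΔ A hA).1 hp1
  refine ⟨x, c, hc0, hxj, hc ▸ hxh, ?_, ?_⟩
  · intro r hr hrp hrΔ hrc₄ A hA
    refine ⟨hIn r hr hrp hrΔ hrc₄ A hA, fun h => ?_⟩
    rw [← hc]
    have hAp : A.valuation (p : Qb) = 1 := by
      have h1 : A.valuation (((p : ℤ) : Qb)) ≤ 1 := val_int_le_one A (p : ℤ)
      have h2 : ¬ A.valuation (((p : ℤ) : Qb)) < 1 := by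
        rw [val_int_lt_one_iff hr A hA]
        intro hd
        have hd' : r ∣ p := by exact_mod_cast hd
        exact hrp ((Nat.prime_dvd_prime_iff_eq hr (Fact.out : p.Prime)).1 hd')
      have h3 : A.valuation (((p : ℤ) : Qb)) = 1 := le_antisymm h1 (not_lt.1 h2)
      simpa using h3
    exact val_lt_one_of_place hp2 hh0 hxj hxh A hAp (val_j0 hr hrΔ hrc₄ hΔ A hA).1
      (val_h0_of_not_inZero hr hrp hΔ hrΔ hrc₄ A hA Q hQord h)
  · rintro ⟨r, A, hr, hrp, hrΔ, hrc₄, hA, h⟩ σ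
    have hja : j0 W = algebraMap ℚ Qb ((W.c₄ : ℚ) ^ 3 / (W.Δ : ℚ)) := by
      simp [j0]
    refine smul_eq_of_val hp2 (a := (W.c₄ : ℚ) ^ 3 / (W.Δ : ℚ)) hc0 (hja ▸ hxj) (hc ▸ hxh) A ?_
      (hIn r hr hrp hrΔ hrc₄ A hA h).le σ
    rw [← hja]
    exact (val_j0 hr hrΔ hrc₄ hΔ A hA).1

end

end Fermat.Agent.S15.A
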