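import Fermat.Agent.ES.An.BC
import Fermat.Agent.S37.Mod.PreChart
import Fermat.Agent.Crux.GM.Fricke
import Fermat.Agent.Crux.GM.Haupt

/-!
# S15 / A / Place : the place "evaluation at `τ`" of the function field of `X₀(p)` over `ℚ̄`

`jQ p`, `hQ p = Δ(q)/Δ(q^p)`, `uQ p = p¹²/hQ p` in `FF p`.
* `phi_hQ` : under the analytic model `ES.An.modelB p` the function `hQ p` is `Δ(τ)/Δ(pτ)`;
* `exists_place_of_tau` : a point `τ` with `j(τ), Δ(τ)/Δ(pτ) ∈ ℚ̄` gives a place `x` with these values of `jQ`, `hQ`;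
* `fr_uQ` : the Fricke involution exchanges `uQ` and `hQ`.
-/

set_option autoImplicit false

open AlgebraicCurve ModularCurve UpperHalfPlane
open scoped MatrixGroups Manifold

namespace Fermat.Agent.S15.A.Pl

open Fermat.Agent.S24 Fermat.Agent.ES.An Fermat.Agent.S37.Red
open Fermat.Agent.ES (Qb FF GQ)
open Fermat.Agent.Crux (GM.hH GM.hH_mem GM.castS)

noncomputable section

variable (p : ℕ) [Fact p.Prime]

instance neZero_p : NeZero p := ⟨(Fact.out : p.Prime).ne_zero⟩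

theorem p_ne_zero_Qb : (p : Qb) ≠ 0 := by
  exact_mod_cast (Fact.out : p.Prime).ne_zero

/-- `j`. -/
def jQ : FF p := jN p

/-- `j(q^p)`. -/
def jpQ : FF p := jF p p dvd_rfl

/-- `h = Δ(q)/Δ(q^p) = q^(1-p) + …`. -/
def hQ : FF p := Fermat.Agent.S37.Mod.zQ (GM.hH p) (GM.hH_mem Qb p (p_ne_zero_Qb p))

/-- `u = p¹² Δ(q^p)/Δ(q) = p¹²/h`. -/
def uQ : FF p := algebraMap Qb (FF p) ((p : Qb) ^ 12) * (hQ p)⁻¹

theorem coe_hQ : ((hQ p : FF p) : LaurentSeries Qb) = GM.castS Qb (GM.hH p) := rfl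

/-- `hH p` has order `1 - p` and leading coefficient `1` (`GM.haupt_order_hH`), so its cast is non-zero. -/
theorem hQ_ne_zero : hQ p ≠ 0 := by
  intro h
  have h1 : ((hQ p : FF p) : LaurentSeries Qb) = 0 := by rw [h]; rfl
  rw [coe_hQ] at h1
  exact Fermat.Agent.Crux.GM.castS_ne_zero (GM.hH p)
    (Fermat.Agent.Crux.GM.haupt_order_hH p).2 h1

theorem uQ_ne_zero : uQ p ≠ 0 := by
  refine mul_ne_zero ?_ (inv_ne_zero (hQ_ne_zero p))
  rw [Ne, map_eq_zero]
  exact pow_ne_zero _ (p_ne_zero_Qb p)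

theorem uQ_mul_hQ : uQ p * hQ p = algebraMap Qb (FF p) ((p : Qb) ^ 12) := by
  rw [uQ, mul_assoc, inv_mul_cancel₀ (hQ_ne_zero p), mul_one]

/-- the underlying series of `uQ` is `S28.uInf Qb p`  (`GM.uInf_mul_castS_hH`). -/
theorem coe_uQ : ((uQ p : FF p) : LaurentSeries Qb) = Fermat.Agent.S28.uInf Qb p := by
  have h1 : ((uQ p : FF p) : LaurentSeries Qb) * GM.castS Qb (GM.hH p)
      = HahnSeries.C ((p : Qb) ^ 12) := by
    have h2 := congrArg (fun f : FF p => (f : LaurentSeries Qb)) (uQ_mul_hQ p)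
    have h3 : ((algebraMap Qb (FF p) ((p : Qb) ^ 12) : FF p) : LaurentSeries Qb)
        = HahnSeries.C ((p : Qb) ^ 12) := by
      show algebraMap Qb (LaurentSeries Qb) ((p : Qb) ^ 12) = _
      rw [algebraMap_laurentSeries_eq_single]
      rfl
    rw [← h3]
    exact h2
  have h0 : GM.castS Qb (GM.hH p) ≠ 0 :=
    Fermat.Agent.Crux.GM.castS_ne_zero (GM.hH p) (Fermat.Agent.Crux.GM.haupt_order_hH p).2
  exact mul_right_cancel₀ h0 (h1.trans (Fermat.Agent.Crux.GM.uInf_mul_castS_hH Qb p).symm)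

/-- `τ ↦ Δ(dτ)` as a holomorphic function. -/
def DHol (d : ℕ) [NeZero d] : Hol :=
  ⟨fun τ => ModularForm.discriminant (mulH d τ), QDict.mdiff_comp_mulH d QDict.D_hol⟩

/-- `τ ↦ Δ(dτ)` in `Mer`. -/
def DMer (d : ℕ) [NeZero d] : Mer := algebraMap Hol Mer (DHol d)

theorem DHol_apply (d : ℕ) [NeZero d] (τ : ℍ) :
    (DHol d : ℍ → ℂ) τ = ModularForm.discriminant (mulH d τ) := rfl

/-- `Δ ≠ 0` on `ℍ` (Mathlib: `ModularForm.discriminant_ne_zero` or via the eta product). -/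
theorem DHol_ne_zero (d : ℕ) [NeZero d] (τ : ℍ) : (DHol d : ℍ → ℂ) τ ≠ 0 :=
  ModularForm.discriminant_ne_zero (mulH d τ)

theorem DMer_ne_zero (d : ℕ) [NeZero d] : DMer d ≠ 0 := by
  refine (map_ne_zero_iff _ (IsFractionRing.injective Hol Mer)).2 fun h => ?_
  have h1 := DHol_ne_zero d UpperHalfPlane.I
  rw [h] at h1
  exact h1 rfl

/-- the `q`-expansion of `Δ(dτ)` : `S24.laurent_Dd`, `hasLau_of_holCusp` (`cuspIncl 1 (Dd d) = DHol d`). -/
theorem hasLau_DMer (d : ℕ) [NeZero d] :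
    HasLau 1 (DMer d) (Fermat.Agent.S28.V ℂ d (Fermat.Agent.S28.deltaC ℂ)) := by
  have h1 := Fermat.Agent.ES.An.hasLau_of_holCusp 1 (QDict.Dd d)
  have h2 : HahnSeries.ofPowerSeries ℤ ℂ Fermat.Agent.S28.DC = Fermat.Agent.S28.deltaC ℂ := by
    rw [Fermat.Agent.S28.DC, Fermat.Agent.S28.deltaC, map_mul, map_mul, PowerSeries.map_X,
      HahnSeries.ofPowerSeries_X]
  rw [QDict.laurent_Dd, h2] at h1
  exact h1

/-- **`hQ` is `Δ(τ)/Δ(pτ)`.**  Both sides have the same `q`-expansion: `hasLau_toMer (bc p (hQ p))`, `hasLau_DMer`,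
`HasLau.mul`, `HasLau.eq_of_eq`; formal identity `castS ℂ (hH p) * V p Δ = Δ` (`hH = deltaC * V p deltaInvC`, `deltaC_mul_deltaInvC`);
`coeffMap iotaC (castS Qb z) = castS ℂ z`; `V ℂ 1 = id`. -/
theorem phi_hQ : (modelB p).φ (hQ p) * DMer p = DMer 1 := by
  have h1 : HasLau 1 ((modelB p).φ (hQ p)) (GM.castS ℂ (GM.hH p)) := by
    have h := hasLau_toMer p (bc p (hQ p))
    rw [coe_bc] at h
    have e : coeffMap iotaC ((hQ p : FF p) : LaurentSeries Qb) = GM.castS ℂ (GM.hH p) := by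
      rw [coe_hQ]
      exact Fermat.Agent.Crux.GM.coeffMap_castS iotaC (GM.hH p)
    rw [← e]
    exact h
  have h2 := h1.mul (hasLau_DMer p)
  have h3 := hasLau_DMer 1
  have e : GM.castS ℂ (GM.hH p) * Fermat.Agent.S28.V ℂ p (Fermat.Agent.S28.deltaC ℂ) =
      Fermat.Agent.S28.V ℂ 1 (Fermat.Agent.S28.deltaC ℂ) := by
    rw [qExpand_one_apply, GM.hH, GM.castS, map_mul, Fermat.Agent.S28.Build.coeffMap_deltaC,
      Fermat.Agent.S28.Build.coeffMap_V, Fermat.Agent.S28.Build.coeffMap_deltaInvC, mul_assoc,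
      ← map_mul, mul_comm (Fermat.Agent.S28.deltaInvC ℂ),
      Fermat.Agent.S28.Build.deltaC_mul_deltaInvC, map_one, mul_one]
  rw [e] at h2
  exact h2.eq_of_eq h3

/-- the constant coefficient of the Taylor expansion at `τ` is the value at `τ`. -/
theorem PlOrd_coeff_zero (τ : ℍ) (f : Hol) : (taylorAt τ f).coeff 0 = (f : ℍ → ℂ) τ := by
  rw [taylorAt_apply, PowerSeries.coeff_coe, if_neg (lt_irrefl 0), Int.natAbs_zero,
    Taylor.ser_coeff]
  simp [Taylor.pull, Taylor.cay_zero]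

/-- a holomorphic function vanishing at `τ` has positive order (or is zero). -/
theorem ordAt_pos_of_eval_eq_zero (τ : ℍ) (f : Hol) (hf0 : f ≠ 0) (hf : (f : ℍ → ℂ) τ = 0) :
    0 < ordAt τ (algebraMap Hol Mer f) := by
  rcases (ordAt_algebraMap_nonneg τ f).lt_or_eq with h | h
  · exact h
  · exfalso
    unfold ordAt at h
    rw [tay_algebraMap] at h
    have hne : taylorAt τ f ≠ 0 := fun h' => hf0 (taylorAt_injective τ (by rw [h', map_zero]))
    apply hne
    rw [← HahnSeries.coeff_order_eq_zero, ← h, PlOrd_coeff_zero, hf]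

/-- a holomorphic function not vanishing at `τ` has order `0`. -/
theorem ordAt_eq_zero_of_eval_ne_zero (τ : ℍ) (f : Hol) (hf : (f : ℍ → ℂ) τ ≠ 0) :
    ordAt τ (algebraMap Hol Mer f) = 0 := by
  refine le_antisymm ?_ (ordAt_algebraMap_nonneg τ f)
  unfold ordAt
  rw [tay_algebraMap]
  apply HahnSeries.order_le_of_coeff_ne_zero
  rw [PlOrd_coeff_zero]
  exact hf

/-- **The place at `τ`** (`S24.FF.exists_place_of_ordFun` exactly as in `ES.An.Model.dvd_ordAt`; non-trivial because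
`jN p - j₀ ≠ 0` (`transcendental_jN`) has positive order: `ordAt_pos_of_eval_eq_zero`, `(modelB p).φ_j`, `φ_alg`). -/
theorem exists_place_at (τ : ℍ) (j₀ : Qb) (hj : iotaC j₀ = jfun τ) :
    ∃ (x : Place Qb (FF p)) (c : ℕ), 0 < c ∧
      ∀ f : FF p, f ≠ 0 → ordAt τ ((modelB p).φ f) = c * x.ord f := by
  have hne : ∀ g : FF p, g ≠ 0 → (modelB p).φ g ≠ 0 := fun g hg => by
    rwa [Ne, map_eq_zero]
  refine FF.exists_place_of_ordFun (K := Qb) (fun g : FF p => ordAt τ ((modelB p).φ g))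
    (fun g h hg hh => by
      show ordAt τ ((modelB p).φ (g * h)) = _
      rw [map_mul, ordAt_mul τ (hne g hg) (hne h hh)])
    (fun g h hg hh hgh => by
      show _ ≤ ordAt τ ((modelB p).φ (g + h))
      have h1 : (modelB p).φ (g + h) = (modelB p).φ g + (modelB p).φ h :=
        RingHom.map_add _ g h
      rw [h1]
      apply min_ordAt_le_add
      rw [← h1]
      exact hne _ hgh)
    (fun c _ => by
      show ordAt τ ((modelB p).φ (algebraMap Qb (FF p) c)) = 0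
      rw [(modelB p).φ_alg, ordAt_const])
    ?_
  have hz : jN p - algebraMap Qb (FF p) j₀ ≠ 0 := by
    intro h
    have h1 : jN p = algebraMap Qb (FF p) j₀ := sub_eq_zero.mp h
    exact (transcendental_jN p) (h1 ▸ isAlgebraic_algebraMap j₀)
  refine ⟨jN p - algebraMap Qb (FF p) j₀, hz, ?_⟩
  have h1 : (modelB p).φ (jN p - algebraMap Qb (FF p) j₀)
      = algebraMap Hol Mer (jdHol 1 - algebraMap ℂ Hol (iotaC j₀)) := by
    have h2 : (modelB p).φ (jN p) = jMer := (modelB p).φ_j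
    rw [RingHom.map_sub, RingHom.map_sub, (modelB p).φ_alg, h2,
      ← IsScalarTower.algebraMap_apply ℂ Hol Mer]
    rfl
  have h3 : jdHol 1 - algebraMap ℂ Hol (iotaC j₀) ≠ 0 := by
    intro h
    rw [h, RingHom.map_zero] at h1
    exact hne _ hz h1
  have h4 : ((jdHol 1 - algebraMap ℂ Hol (iotaC j₀) : Hol) : ℍ → ℂ) τ = 0 := by
    show jd 1 τ - iotaC j₀ = 0
    rw [Packages.jd_one, hj, sub_self]
  show ordAt τ ((modelB p).φ (jN p - algebraMap Qb (FF p) j₀)) ≠ 0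
  rw [h1]
  exact (ordAt_pos_of_eval_eq_zero τ _ h3 h4).ne'

/-- **Main statement of this file.** -/
theorem exists_place_of_tau (τ : ℍ) (j₀ h₀ : Qb) (hj : iotaC j₀ = jfun τ)
    (hh : ModularForm.discriminant τ = iotaC h₀ * ModularForm.discriminant (mulH p τ)) :
    ∃ x : Place Qb (FF p), Van x (jQ p - algebraMap Qb (FF p) j₀) ∧
      Van x (hQ p - algebraMap Qb (FF p) h₀) := by
  obtain ⟨x, c, hc, hx⟩ := exists_place_at p τ j₀ hj
  have key : ∀ f : FF p, f ≠ 0 → 0 < ordAt τ ((modelB p).φ f) → 0 < x.ord f := by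
    intro f hf h
    rw [hx f hf] at h
    have hc' : (0 : ℤ) < (c : ℤ) := by exact_mod_cast hc
    exact (mul_pos_iff_of_pos_left hc').1 h
  refine ⟨x, ?_, ?_⟩
  · rw [van_iff_ord]
    by_cases h0 : jQ p - algebraMap Qb (FF p) j₀ = 0
    · exact Or.inl h0
    · refine Or.inr (key _ h0 ?_)
      have hφ : (modelB p).φ (jQ p - algebraMap Qb (FF p) j₀)
          = algebraMap Hol Mer (jdHol 1 - algebraMap ℂ Hol (iotaC j₀)) := by
        rw [RingHom.map_sub, (modelB p).φ_alg, RingHom.map_sub,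
          ← IsScalarTower.algebraMap_apply ℂ Hol Mer]
        congr 1
        exact (modelB p).φ_j
      rw [hφ]
      apply ordAt_pos_of_eval_eq_zero
      · intro h
        rw [h, map_zero] at hφ
        exact h0 ((map_eq_zero _).1 hφ)
      · show jd 1 τ - iotaC j₀ = 0
        rw [Packages.jd_one, hj, sub_self]
  · rw [van_iff_ord]
    by_cases h0 : hQ p - algebraMap Qb (FF p) h₀ = 0
    · exact Or.inl h0
    · refine Or.inr (key _ h0 ?_)
      have hφ0 : (modelB p).φ (hQ p - algebraMap Qb (FF p) h₀) ≠ 0 := by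
        rwa [Ne, map_eq_zero]
      have hφ : (modelB p).φ (hQ p - algebraMap Qb (FF p) h₀) * DMer p
          = algebraMap Hol Mer (DHol 1 - algebraMap ℂ Hol (iotaC h₀) * DHol p) := by
        rw [RingHom.map_sub, (modelB p).φ_alg, sub_mul, phi_hQ, RingHom.map_sub, RingHom.map_mul,
          ← IsScalarTower.algebraMap_apply ℂ Hol Mer]
        rfl
      have h1 := ordAt_mul τ hφ0 (DMer_ne_zero p)
      have h2 : ordAt τ (DMer p) = 0 := ordAt_eq_zero_of_eval_ne_zero τ (DHol p) (DHol_ne_zero p τ)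
      rw [h2, add_zero, hφ] at h1
      rw [← h1]
      apply ordAt_pos_of_eval_eq_zero
      · intro h
        rw [h, map_zero] at hφ
        exact (mul_ne_zero hφ0 (DMer_ne_zero p)) hφ
      · show ModularForm.discriminant (mulH 1 τ)
          - iotaC h₀ * ModularForm.discriminant (mulH p τ) = 0
        rw [Packages.mulH_one, hh, sub_self]

/-- the matrix `[[0,-1],[p,0]]`. -/
def WpMat : GLp :=
  ⟨Matrix.GeneralLinearGroup.mkOfDetNeZero !![0, -1; (p : ℝ), 0] (by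
      simp [Matrix.det_fin_two]; exact (Fact.out : p.Prime).ne_zero), by
    simp [Matrix.GeneralLinearGroup.mkOfDetNeZero, Matrix.det_fin_two]
    exact (Fact.out : p.Prime).pos⟩

/-- `WpMat • τ = S • (pτ) = -1/(pτ)`. -/
theorem WpMat_smul (τ : ℍ) : WpMat p • τ = ModularGroup.S • mulH p τ := by
  apply UpperHalfPlane.ext
  have h1 : ((WpMat p • τ : ℍ) : ℂ)
      = num (WpMat p : GL (Fin 2) ℝ) τ / denom (WpMat p : GL (Fin 2) ℝ) τ :=
    UpperHalfPlane.coe_smul_of_det_pos (WpMat p).2 τ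
  rw [h1, UpperHalfPlane.modular_S_smul]
  have e : ((WpMat p : GL (Fin 2) ℝ) : Matrix (Fin 2) (Fin 2) ℝ) = !![0, -1; (p : ℝ), 0] := rfl
  simp only [num, denom, e]
  have hp : (p : ℂ) ≠ 0 := by exact_mod_cast (Fact.out : p.Prime).ne_zero
  have hτ : (τ : ℂ) ≠ 0 := UpperHalfPlane.ne_zero τ
  simp only [Matrix.of_apply, Matrix.cons_val', Matrix.cons_val_zero, Matrix.cons_val_one,
    Matrix.cons_val_fin_one, Hermite.coe_mulH]
  push_cast
  field_simp
  ring

/-- (task A-Pl-Fricke, helper) the model on the generators. -/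
theorem PlFricke_phi_eq (N : ℕ) [NeZero N] (f : FN N) : (modelB N).φ f = toMer N (bc N f) := rfl

/-- (task A-Pl-Fricke, helper) the model on the generators. -/
theorem PlFricke_phi_jF (N : ℕ) [NeZero N] (d : Dv N) :
    (modelB N).φ (jF N d.1 d.2) = jdMer d.1 := by
  rw [PlFricke_phi_eq, bc_jF, toMer_jFC]

/-- (task A-Pl-Fricke, helper) `j(d · W τ) = j((p/d) τ)`. -/
theorem PlFricke_cmp_jdMer (d : Dv p) :
    cmp (WpMat p) (jdMer d.1) = jdMer (Fermat.Agent.Crux.GM.Fricke.swp p d).1 := by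
  unfold jdMer
  rw [cmp_algebraMap]
  refine congrArg (algebraMap Hol Mer) ?_
  apply Subtype.ext
  funext τ
  show jd d.1 (WpMat p • τ) = jd (Fermat.Agent.Crux.GM.Fricke.swp p d).1 τ
  rw [WpMat_smul, Fermat.Agent.Crux.GM.Fricke.key]

/-- (task A-Pl-Fricke, helper) the Fricke involution on the generators. -/
theorem PlFricke_fr_jF (d : Dv p) :
    Fermat.Agent.Crux.GM.Fricke.fr p (jF p d.1 d.2)
      = jF p (Fermat.Agent.Crux.GM.Fricke.swp p d).1 (Fermat.Agent.Crux.GM.Fricke.swp p d).2 :=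
  (Fermat.Agent.Crux.GM.exists_fricke p).choose_spec d.1 (Fermat.Agent.Crux.GM.Fricke.swp p d).1
    d.2 (Fermat.Agent.Crux.GM.Fricke.swp p d).2 (Fermat.Agent.Crux.GM.Fricke.mul_swp p d)

/-- the Fricke involution is composition with `τ ↦ -1/(pτ)` : both sides are ring homs `FF p → Mer` which agree on constants
and on `jF p d` (`Fricke.key`, `exists_fricke`); `S24.exists_phiF_div` / `algHom_ext_FN`. -/
theorem phi_fr (f : FF p) :
    (modelB p).φ (Fermat.Agent.Crux.GM.Fricke.fr p f) = cmp (WpMat p) ((modelB p).φ f) := by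
  let L : FF p →+* Mer :=
    (modelB p).φ.comp ((Fermat.Agent.Crux.GM.Fricke.fr p : FN p ≃ₐ[Kb] FN p) : FN p →+* FN p)
  let Rr : FF p →+* Mer := ((cmp (WpMat p) : Mer →ₐ[ℂ] Mer) : Mer →+* Mer).comp (modelB p).φ
  have hLR : L.comp ((phiF p : MvPolynomial (Dv p) Kb →ₐ[Kb] FN p) : MvPolynomial (Dv p) Kb →+* FN p)
      = Rr.comp ((phiF p : MvPolynomial (Dv p) Kb →ₐ[Kb] FN p) : MvPolynomial (Dv p) Kb →+* FN p) := by
    apply MvPolynomial.ringHom_ext
    · intro c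
      show (modelB p).φ (Fermat.Agent.Crux.GM.Fricke.fr p (phiF p (MvPolynomial.C c)))
        = cmp (WpMat p) ((modelB p).φ (phiF p (MvPolynomial.C c)))
      have hC : phiF p (MvPolynomial.C c) = algebraMap Kb (FN p) c := (phiF p).commutes c
      rw [hC, AlgEquiv.commutes, (modelB p).φ_alg, AlgHom.commutes]
    · intro d
      show (modelB p).φ (Fermat.Agent.Crux.GM.Fricke.fr p (phiF p (MvPolynomial.X d)))
        = cmp (WpMat p) ((modelB p).φ (phiF p (MvPolynomial.X d)))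
      rw [Fermat.Agent.Crux.GM.Fricke.phiF_X, PlFricke_fr_jF, PlFricke_phi_jF, PlFricke_phi_jF,
        PlFricke_cmp_jdMer]
  obtain ⟨P, Q, -, rfl⟩ := exists_phiF_div p f
  have hP : L (phiF p P) = Rr (phiF p P) := RingHom.congr_fun hLR P
  have hQ : L (phiF p Q) = Rr (phiF p Q) := RingHom.congr_fun hLR Q
  show L (phiF p P / phiF p Q) = Rr (phiF p P / phiF p Q)
  rw [map_div₀, map_div₀, hP, hQ]

/-- `Δ(-1/(pτ)) = (pτ)¹² Δ(pτ)` and `Δ(p · (-1/(pτ))) = Δ(-1/τ) = τ¹² Δ(τ)` (`S24.disc_smul`), so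
`cmp W (Δ(τ)/Δ(pτ)) = p¹² Δ(pτ)/Δ(τ)`. -/
theorem cmp_W_DMer :
    cmp (WpMat p) (DMer 1) * DMer 1 = algebraMap ℂ Mer ((p : ℂ) ^ 12) * (cmp (WpMat p) (DMer p) * DMer p) := by
  unfold DMer
  rw [cmp_algebraMap, cmp_algebraMap, IsScalarTower.algebraMap_apply ℂ Hol Mer, ← map_mul,
    ← map_mul, ← map_mul]
  refine congrArg (algebraMap Hol Mer) ?_
  apply Subtype.ext
  funext τ
  show ModularForm.discriminant (mulH 1 (WpMat p • τ)) * ModularForm.discriminant (mulH 1 τ)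
    = (p : ℂ) ^ 12 * (ModularForm.discriminant (mulH p (WpMat p • τ))
        * ModularForm.discriminant (mulH p τ))
  have h1 : ∀ z : ℍ, mulH 1 z = z := by
    intro z
    apply UpperHalfPlane.ext
    rw [Hermite.coe_mulH, Nat.cast_one, one_mul]
  have hp : (p : ℂ) ≠ 0 := by exact_mod_cast (Fact.out : p.Prime).ne_zero
  have hτ : (τ : ℂ) ≠ 0 := UpperHalfPlane.ne_zero τ
  have h2 : mulH p (WpMat p • τ) = ModularGroup.S • τ := by
    rw [WpMat_smul]
    apply UpperHalfPlane.ext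
    rw [Hermite.coe_mulH, UpperHalfPlane.modular_S_smul, UpperHalfPlane.modular_S_smul]
    simp only [Hermite.coe_mulH]
    field_simp
  rw [h1, h1, h2, WpMat_smul, JBasic.disc_smul, JBasic.disc_smul, ModularGroup.denom_S,
    ModularGroup.denom_S, Hermite.coe_mulH]
  have e12 : ∀ w : ℂ, w ^ (12 : ℤ) = w ^ 12 := fun w => by norm_cast
  rw [e12, e12]
  ring

/-- **Fricke exchanges `h` and `u = p¹²/h`.**  (`phi_fr`, `phi_hQ`, `cmp_W_DMer`, injectivity of `(modelB p).φ`.) -/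
theorem fr_hQ : Fermat.Agent.Crux.GM.Fricke.fr p (hQ p) = uQ p := by
  apply (modelB p).φ.injective
  have hD1 : DMer 1 ≠ 0 := DMer_ne_zero 1
  have hDp : DMer p ≠ 0 := DMer_ne_zero p
  have hcDp : cmp (WpMat p) (DMer p) ≠ 0 := by
    rw [Ne, map_eq_zero]; exact hDp
  have h1 := phi_hQ p
  have h2 : cmp (WpMat p) ((modelB p).φ (hQ p)) * cmp (WpMat p) (DMer p)
      = cmp (WpMat p) (DMer 1) := by rw [← map_mul, h1]
  have h3 := cmp_W_DMer p
  have hφh : (modelB p).φ (hQ p) ≠ 0 := by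
    intro h0
    rw [h0, zero_mul] at h1
    exact hD1 h1.symm
  have hc : (modelB p).φ (algebraMap Qb (FF p) ((p : Qb) ^ 12)) = algebraMap ℂ Mer ((p : ℂ) ^ 12) := by
    rw [(modelB p).φ_alg]
    congr 1
    rw [map_pow, map_natCast]
  rw [phi_fr, uQ, map_mul, map_inv₀, hc]
  rw [eq_mul_inv_iff_mul_eq₀ hφh]
  -- `X * φ h = p¹²`, where `X * cDp = cD1`, `φ h * Dp = D1`, `cD1 * D1 = p¹² cDp Dp`
  apply mul_right_cancel₀ (mul_ne_zero hcDp hDp)
  calc cmp (WpMat p) ((modelB p).φ (hQ p)) * (modelB p).φ (hQ p) * (cmp (WpMat p) (DMer p) * DMer p)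
      = (cmp (WpMat p) ((modelB p).φ (hQ p)) * cmp (WpMat p) (DMer p))
          * ((modelB p).φ (hQ p) * DMer p) := by ring
    _ = cmp (WpMat p) (DMer 1) * DMer 1 := by rw [h2, h1]
    _ = algebraMap ℂ Mer ((p : ℂ) ^ 12) * (cmp (WpMat p) (DMer p) * DMer p) := h3

theorem fr_uQ : Fermat.Agent.Crux.GM.Fricke.fr p (uQ p) = hQ p := by
  have hh : hQ p ≠ 0 := hQ_ne_zero p
  have hc : algebraMap Qb (FF p) ((p : Qb) ^ 12) ≠ 0 := by
    rw [Ne, map_eq_zero]
    exact pow_ne_zero _ (p_ne_zero_Qb p)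
  have h1 : Fermat.Agent.Crux.GM.Fricke.fr p (uQ p)
      = algebraMap Qb (FF p) ((p : Qb) ^ 12) * (Fermat.Agent.Crux.GM.Fricke.fr p (hQ p))⁻¹ := by
    conv_lhs => rw [uQ]
    rw [map_mul, map_inv₀]
    congr 1
    exact AlgEquiv.commutes _ _
  rw [h1, fr_hQ, uQ, mul_inv, inv_inv, ← mul_assoc, mul_inv_cancel₀ hc, one_mul]

end

end Fermat.Agent.S15.A.Pl
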