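import Fermat.Agent.S15.A.Main
import Fermat.Agent.S15.T.Defs

/-!
# S15 / A / Export : `A.main` in the language of `S15/T/Defs.lean` (`Disc0`, `DiscInf`)
-/

set_option autoImplicit false

open WeierstrassCurve WeierstrassCurve.Affine AlgebraicCurve ModularCurve

namespace Fermat.Agent.S15.A

open Fermat.Agent.S37.Red
open Fermat.Agent.ES (Qb FF GQ)
open Fermat.Agent.S15.A.Loc (EQ)
open Fermat.Agent.S15.A.Pl

variable {p : ℕ} [Fact p.Prime] {W : WeierstrassCurve ℤ}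

theorem mem_Disc0_of_van (c : T.Cusp p) (hc : c.h = hQ p) {x : Place Qb (FF p)} {a : Qb}
    (hx : Van x (hQ p - algebraMap Qb (FF p) a)) (A : ValuationSubring Qb)
    (ha : A.valuation a < 1) : x ∈ T.Disc0 c A := by
  have hreg : Reg x (hQ p) := by
    have := Reg.add x (Van.reg x hx) (reg_algebraMap x a)
    simpa using this
  refine ⟨hc ▸ hreg, ?_⟩
  rw [hc, val_eq_of_van x hx]
  exact (ValuationSubring.mem_nonunits_iff A).2 ha

theorem mem_DiscInf_of_van (c : T.Cusp p) (hc : c.h = hQ p) {x : Place Qb (FF p)} {a : Qb}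
    (hx : Van x (hQ p - algebraMap Qb (FF p) a)) (A : ValuationSubring Qb)
    (ha : 1 < A.valuation a) : x ∈ T.DiscInf c A := by
  have ha0 : a ≠ 0 := by
    rintro rfl
    simp at ha
  have hreg : Reg x (hQ p) := by
    have := Reg.add x (Van.reg x hx) (reg_algebraMap x a)
    simpa using this
  have hnv : ¬ Van x (hQ p) := by
    intro h
    have h1 := Van.sub x h hx
    rw [sub_sub_cancel] at h1
    exact ha0 ((van_algebraMap_iff x).1 h1)
  have hreg' : Reg x (hQ p)⁻¹ := reg_inv_of_not_van x hnv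
  have hh0 : hQ p ≠ 0 := hQ_ne_zero p
  have hv : Van x ((hQ p)⁻¹ - algebraMap Qb (FF p) a⁻¹) := by
    have h1 : (hQ p)⁻¹ - algebraMap Qb (FF p) a⁻¹ =
        (-((hQ p)⁻¹ * algebraMap Qb (FF p) a⁻¹)) * (hQ p - algebraMap Qb (FF p) a) := by
      have ha' : algebraMap Qb (FF p) a ≠ 0 := by
        rwa [Ne, map_eq_zero]
      rw [map_inv₀]
      field_simp
      ring
    rw [h1]
    exact Van.mul_left x (Reg.neg x (Reg.mul x hreg' (reg_algebraMap x _))) hx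
  refine ⟨hc ▸ hreg', ?_⟩
  rw [hc, val_eq_of_van x hv]
  apply (ValuationSubring.mem_nonunits_iff A).2
  rw [map_inv₀]
  exact inv_lt_one_of_one_lt₀ ha

/-- **`A.main` for the end game.** -/
theorem main' (c : T.Cusp p) (hc : c.h = hQ p) (hp2 : p ≠ 2) (hΔ : W.Δ ≠ 0) (Q : (EQ W).Point)
    (hQfix : ∀ σ : Qb ≃ₐ[ℚ] Qb, σ • Q = Q) (hQord : addOrderOf Q = p) (h2c₄ : ¬ (2 : ℤ) ∣ W.c₄) :
    ∃ x : Place Qb (FF p),
      (∀ r : ℕ, r.Prime → r ≠ p → (r : ℤ) ∣ W.Δ → ¬ (r : ℤ) ∣ W.c₄ →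
        ∀ A : ValuationSubring Qb, A.LiesOverPrime r →
          (W.InZeroComponentAt A Q → x ∈ T.DiscInf c A) ∧
          (¬ W.InZeroComponentAt A Q → x ∈ T.Disc0 c A)) ∧
      ((∃ (r : ℕ) (A : ValuationSubring Qb), r.Prime ∧ r ≠ p ∧ (r : ℤ) ∣ W.Δ ∧ ¬ (r : ℤ) ∣ W.c₄ ∧
          A.LiesOverPrime r ∧ W.InZeroComponentAt A Q) →
        ∀ σ : GQ, arithmeticGalois (modularFunctionFieldFull p) σ • x = x) := by
  obtain ⟨x, a, -, -, hx, hloc, hgal⟩ := main hp2 hΔ Q hQfix hQord h2c₄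
  refine ⟨x, fun r hr hrp hrΔ hrc A hA => ⟨fun h => ?_, fun h => ?_⟩, hgal⟩
  · exact mem_DiscInf_of_van c hc hx A ((hloc r hr hrp hrΔ hrc A hA).1 h)
  · exact mem_Disc0_of_van c hc hx A ((hloc r hr hrp hrΔ hrc A hA).2 h)

end Fermat.Agent.S15.A
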