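import Fermat.Agent.S37.Red.Val

/-!
# S15 / A / Unique : a smooth point of a plane model carries exactly one place

`F = K(j, u)`, `Ψ(u, j) = 0`, `(u₀, j₀)` a point with `Ψ_X(u₀, j₀) ≠ 0`.  Then there is at most one place `x` of `F/K` with `j(x) = j₀`, `u(x) = u₀`.

Proof.  `R = K[j, u]`, `t = j - j₀`, `s = u - u₀`.
(U1) `P(X) = Ψ(X, j) ∈ R[X]`; `0 = P(u) = P(u₀) + P'(u₀) s + k s²` (`Polynomial.binomExpansion`), `P(u₀) = Ψ(u₀, j) = Ψ(u₀,j₀) + t g(j)`; `Ψ(u₀, j₀) = 0` by evaluation at `x`.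
  So `s ε = - t g` with `ε = P'(u₀) + k s ∈ R`, `ε(x) = Ψ_X(u₀, j₀) ≠ 0` at every place over `(u₀, j₀)`.
(U2) every `a ∈ R` is `c + t b₁ + s b₂` with `c ∈ K`, `b_i ∈ R` (`Algebra.adjoin_induction`); so `a(x) = c = a(x')`.
(U3) `a ∈ R`, `a(x) = 0` ⟹ `a ε = t (ε b₁ - g b₂)`.  Induction on `ord_x a`: `a ε^n = t^n a'` with `a' ∈ R`, `a'(x) ≠ 0`.
(U4) `f = a/b ∈ F`: `f = t^(n-m) · unit` at `x` and at `x'`, so `f ∈ O_x ↔ n ≥ m ↔ f ∈ O_x'`.
-/

set_option autoImplicit false

open Polynomial AlgebraicCurve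

namespace Fermat.Agent.S15.A.Unique

open Fermat.Agent.S37.Red

variable {K F : Type*} [Field K] [Field F] [Algebra K F]

/-- `x` lies over the point `(u₀, j₀)`. -/
def Over (j u : F) (j₀ u₀ : K) (x : Place K F) : Prop :=
  Van x (j - algebraMap K F j₀) ∧ Van x (u - algebraMap K F u₀)

/-- (U2) -/
theorem exists_decomp (j u : F) (j₀ u₀ : K) {a : F} (ha : a ∈ Algebra.adjoin K {j, u}) :
    ∃ (c : K) (b₁ b₂ : F), b₁ ∈ Algebra.adjoin K {j, u} ∧ b₂ ∈ Algebra.adjoin K {j, u} ∧
      a = algebraMap K F c + (j - algebraMap K F j₀) * b₁ + (u - algebraMap K F u₀) * b₂ := by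
  induction ha using Algebra.adjoin_induction with
  | mem a ha =>
    rcases ha with rfl | ha
    · exact ⟨j₀, 1, 0, one_mem _, zero_mem _, by ring⟩
    · rw [Set.mem_singleton_iff] at ha
      subst ha
      exact ⟨u₀, 0, 1, zero_mem _, one_mem _, by ring⟩
  | algebraMap r => exact ⟨r, 0, 0, zero_mem _, zero_mem _, by ring⟩
  | add a a' _ _ ih ih' =>
    obtain ⟨c, b₁, b₂, h₁, h₂, e⟩ := ih
    obtain ⟨c', b₁', b₂', h₁', h₂', e'⟩ := ih'
    refine ⟨c + c', b₁ + b₁', b₂ + b₂', add_mem h₁ h₁', add_mem h₂ h₂', ?_⟩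
    rw [e, e', map_add]
    ring
  | mul a a' _ ha' ih ih' =>
    obtain ⟨c, b₁, b₂, h₁, h₂, e⟩ := ih
    obtain ⟨c', b₁', b₂', h₁', h₂', e'⟩ := ih'
    refine ⟨c * c', b₁ * a' + algebraMap K F c * b₁', b₂ * a' + algebraMap K F c * b₂',
      add_mem (mul_mem h₁ ha') (mul_mem (Subalgebra.algebraMap_mem _ c) h₁'),
      add_mem (mul_mem h₂ ha') (mul_mem (Subalgebra.algebraMap_mem _ c) h₂'), ?_⟩
    rw [map_mul]
    linear_combination a' * e + algebraMap K F c * e'

theorem reg_of_mem_adjoin {j u : F} {j₀ u₀ : K} {x : Place K F} (hx : Over j u j₀ u₀ x) {a : F}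
    (ha : a ∈ Algebra.adjoin K {j, u}) : Reg x a := by
  induction ha using Algebra.adjoin_induction with
  | mem a ha =>
    rcases ha with rfl | ha
    · have h := (hx.1.reg x).add x (reg_algebraMap x j₀)
      rwa [sub_add_cancel] at h
    · rw [Set.mem_singleton_iff] at ha
      subst ha
      have h := (hx.2.reg x).add x (reg_algebraMap x u₀)
      rwa [sub_add_cancel] at h
  | algebraMap r => exact reg_algebraMap x r
  | add a a' _ _ ih ih' => exact ih.add x ih'
  | mul a a' _ _ ih ih' => exact ih.mul x ih'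

theorem Unique_a_van_iff {j u : F} {j₀ u₀ : K} {x : Place K F} (hx : Over j u j₀ u₀ x) {c : K}
    {b₁ b₂ : F} (h₁ : b₁ ∈ Algebra.adjoin K {j, u}) (h₂ : b₂ ∈ Algebra.adjoin K {j, u}) :
    Van x (algebraMap K F c + (j - algebraMap K F j₀) * b₁ + (u - algebraMap K F u₀) * b₂) ↔
      c = 0 := by
  have hv : Van x ((j - algebraMap K F j₀) * b₁ + (u - algebraMap K F u₀) * b₂) :=
    (Van.mul_right x hx.1 (reg_of_mem_adjoin hx h₁)).add x
      (Van.mul_right x hx.2 (reg_of_mem_adjoin hx h₂))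
  rw [← van_algebraMap_iff x (c := c)]
  constructor
  · intro h
    have h3 := h.sub x hv
    have e : algebraMap K F c + (j - algebraMap K F j₀) * b₁ + (u - algebraMap K F u₀) * b₂ -
        ((j - algebraMap K F j₀) * b₁ + (u - algebraMap K F u₀) * b₂) = algebraMap K F c := by ring
    rwa [e] at h3
  · intro h
    have h3 := h.add x hv
    rwa [← add_assoc] at h3

/-- (U2') -/
theorem van_iff_van {j u : F} {j₀ u₀ : K} {x x' : Place K F} (hx : Over j u j₀ u₀ x)
    (hx' : Over j u j₀ u₀ x') {a : F} (ha : a ∈ Algebra.adjoin K {j, u}) : Van x a ↔ Van x' a := by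
  obtain ⟨c, b₁, b₂, h₁, h₂, e⟩ := exists_decomp j u j₀ u₀ ha
  rw [e, Unique_a_van_iff hx h₁ h₂, Unique_a_van_iff hx' h₁ h₂]

/-- (Ub) Taylor decomposition of a bivariate polynomial at `(u₀, j₀)`. -/
theorem Ub_decomp (j₀ u₀ : K) (Φ : Polynomial (Polynomial K)) :
    ∃ (E : Polynomial (Polynomial K)) (G : Polynomial K),
      Φ = C (C ((Φ.map (evalRingHom j₀)).eval u₀)) + C ((X - C j₀) * G) + (X - C (C u₀)) * E := by
  refine ⟨Φ /ₘ (X - C (C u₀)), (Φ.eval (C u₀)) /ₘ (X - C j₀), ?_⟩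
  have h1 := modByMonic_add_div Φ (X - C (C u₀))
  rw [modByMonic_X_sub_C_eq_C_eval] at h1
  have h2 := modByMonic_add_div (Φ.eval (C u₀)) (X - C j₀)
  rw [modByMonic_X_sub_C_eq_C_eval] at h2
  have h3 : (Φ.eval (C u₀)).eval j₀ = (Φ.map (evalRingHom j₀)).eval u₀ :=
    (map_evalRingHom_eval j₀ u₀ Φ).symm
  rw [h3] at h2
  rw [← C_add, h2, h1]

theorem Ub_mem' (j u : F) (G : Polynomial K) : aeval j G ∈ Algebra.adjoin K {j, u} :=
  Algebra.adjoin_mono (s := {j}) (by simp) (aeval_mem_adjoin_singleton K (p := G) j)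

/-- (Ub) membership. -/
theorem Ub_mem (j u : F) (Φ : Polynomial (Polynomial K)) :
    (Φ.map (aeval j : Polynomial K →ₐ[K] F).toRingHom).eval u ∈ Algebra.adjoin K {j, u} := by
  rw [eval_map, eval₂_eq_sum_range]
  refine Subalgebra.sum_mem _ fun i _ => ?_
  refine Subalgebra.mul_mem _ ?_ (Subalgebra.pow_mem _ (Algebra.subset_adjoin (by simp)) _)
  exact Ub_mem' j u (Φ.coeff i)

/-- (Ub) evaluation of the decomposition. -/
theorem Ub_eval (j u : F) (j₀ u₀ : K) {Φ E : Polynomial (Polynomial K)} {G : Polynomial K}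
    (h : Φ = C (C ((Φ.map (evalRingHom j₀)).eval u₀)) + C ((X - C j₀) * G) + (X - C (C u₀)) * E) :
    (Φ.map (aeval j : Polynomial K →ₐ[K] F).toRingHom).eval u =
      algebraMap K F ((Φ.map (evalRingHom j₀)).eval u₀) + (j - algebraMap K F j₀) * aeval j G +
        (u - algebraMap K F u₀) * (E.map (aeval j : Polynomial K →ₐ[K] F).toRingHom).eval u := by
  conv_lhs => rw [h]
  simp only [Polynomial.map_add, Polynomial.map_mul, Polynomial.map_sub, Polynomial.map_C,
    Polynomial.map_X, eval_add, eval_mul, eval_sub, eval_C, eval_X, AlgHom.toRingHom_eq_coe,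
    RingHom.coe_coe, aeval_C, map_mul, map_sub, aeval_X]

/-- (Ub) the value at a place over `(u₀, j₀)`. -/
theorem Ub_van {j u : F} {j₀ u₀ : K} {x : Place K F} (hx : Over j u j₀ u₀ x)
    (Φ : Polynomial (Polynomial K)) :
    Van x ((Φ.map (aeval j : Polynomial K →ₐ[K] F).toRingHom).eval u -
      algebraMap K F ((Φ.map (evalRingHom j₀)).eval u₀)) := by
  obtain ⟨E, G, h⟩ := Ub_decomp j₀ u₀ Φ
  rw [Ub_eval j u j₀ u₀ h, add_assoc, add_sub_cancel_left]
  exact Van.add x (Van.mul_right x hx.1 (reg_of_mem_adjoin hx (Ub_mem' j u G)))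
    (Van.mul_right x hx.2 (reg_of_mem_adjoin hx (Ub_mem j u E)))

/-- (U1) -/
theorem exists_eps (j u : F) (Ψ : Polynomial (Polynomial K))
    (hΨ : (Ψ.map (aeval j : Polynomial K →ₐ[K] F).toRingHom).eval u = 0) (j₀ u₀ : K)
    (hs : ((derivative Ψ).map (evalRingHom j₀)).eval u₀ ≠ 0) (x₀ : Place K F)
    (hx₀ : Over j u j₀ u₀ x₀) :
    ∃ ε g : F, ε ∈ Algebra.adjoin K {j, u} ∧ g ∈ Algebra.adjoin K {j, u} ∧
      (u - algebraMap K F u₀) * ε = (j - algebraMap K F j₀) * g ∧
      ∀ x : Place K F, Over j u j₀ u₀ x → ¬ Van x ε := by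
  obtain ⟨E, G, h⟩ := Ub_decomp j₀ u₀ Ψ
  have h0 : (Ψ.map (evalRingHom j₀)).eval u₀ = 0 := by
    have h1 := Ub_van hx₀ Ψ
    rw [hΨ, zero_sub] at h1
    have h2 := Van.neg x₀ h1
    rw [neg_neg] at h2
    exact (van_algebraMap_iff x₀).mp h2
  have h1 := Ub_eval j u j₀ u₀ h
  rw [hΨ, h0, map_zero, zero_add] at h1
  have hE : (E.map (evalRingHom j₀)).eval u₀ = ((derivative Ψ).map (evalRingHom j₀)).eval u₀ := by
    conv_rhs => rw [h]
    simp only [derivative_add, derivative_C, derivative_mul, derivative_sub, derivative_X,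
      Polynomial.map_add, Polynomial.map_mul, Polynomial.map_sub, Polynomial.map_C,
      Polynomial.map_X, Polynomial.map_zero, Polynomial.map_one, eval_add, eval_mul, eval_sub,
      eval_C, eval_X, eval_zero, eval_one, coe_evalRingHom]
    ring
  refine ⟨(E.map (aeval j : Polynomial K →ₐ[K] F).toRingHom).eval u, -aeval j G, Ub_mem j u E,
    Subalgebra.neg_mem _ (Ub_mem' j u G), by linear_combination -h1, ?_⟩
  intro x hx hv
  have h2 := Ub_van hx E
  have h3 := Van.sub x hv h2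
  rw [sub_sub_cancel, van_algebraMap_iff, hE] at h3
  exact hs h3

theorem UniqueC_aux {j u : F} {j₀ u₀ : K} {ε g : F} (hε : ε ∈ Algebra.adjoin K {j, u})
    (hg : g ∈ Algebra.adjoin K {j, u})
    (hεg : (u - algebraMap K F u₀) * ε = (j - algebraMap K F j₀) * g) {x : Place K F}
    (hx : Over j u j₀ u₀ x) (hεx : ¬ Van x ε) (N : ℕ) :
    ∀ a : F, a ∈ Algebra.adjoin K {j, u} → a ≠ 0 → x.ord a ≤ N →
    ∃ (n : ℕ) (a' : F), a' ∈ Algebra.adjoin K {j, u} ∧ ¬ Van x a' ∧
      a * ε ^ n = (j - algebraMap K F j₀) ^ n * a' := by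
  have hε0 : ε ≠ 0 := by
    rintro rfl
    exact hεx (van_zero x)
  have hεord : x.ord ε = 0 := ord_eq_zero_of_reg_of_not_van x (reg_of_mem_adjoin hx hε) hεx
  induction N with
  | zero =>
    intro a ha ha0 hN
    refine ⟨0, a, ha, ?_, by simp⟩
    intro hv
    have := ord_pos_of_van x hv ha0
    simp only [Nat.cast_zero] at hN
    omega
  | succ N ih =>
    intro a ha ha0 hN
    by_cases hv : Van x a
    · obtain ⟨c, b₁, b₂, hb₁, hb₂, hab⟩ := exists_decomp j u j₀ u₀ ha
      have h1 : Van x ((j - algebraMap K F j₀) * b₁) :=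
        Van.mul_right x hx.1 (reg_of_mem_adjoin hx hb₁)
      have h2 : Van x ((u - algebraMap K F u₀) * b₂) :=
        Van.mul_right x hx.2 (reg_of_mem_adjoin hx hb₂)
      have hc : c = 0 := by
        rw [← van_algebraMap_iff x (𝕃 := F)]
        have e : algebraMap K F c = a - (j - algebraMap K F j₀) * b₁
            - (u - algebraMap K F u₀) * b₂ := by rw [hab]; ring
        rw [e]
        exact Van.sub x (Van.sub x hv h1) h2
      have haε : a * ε = (j - algebraMap K F j₀) * (ε * b₁ + g * b₂) := by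
        rw [hab, hc, map_zero]
        linear_combination b₂ * hεg
      set a₁ := ε * b₁ + g * b₂ with ha₁
      have ha₁R : a₁ ∈ Algebra.adjoin K {j, u} :=
        add_mem (mul_mem hε hb₁) (mul_mem hg hb₂)
      have hne : (j - algebraMap K F j₀) * a₁ ≠ 0 := by
        rw [← haε]; exact mul_ne_zero ha0 hε0
      have ht0 : j - algebraMap K F j₀ ≠ 0 := left_ne_zero_of_mul hne
      have ha₁0 : a₁ ≠ 0 := right_ne_zero_of_mul hne
      have hord : x.ord a + x.ord ε = x.ord (j - algebraMap K F j₀) + x.ord a₁ := by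
        rw [← x.ord_mul ha0 hε0, ← x.ord_mul ht0 ha₁0, haε]
      have htpos := ord_pos_of_van x hx.1 ht0
      obtain ⟨n, a', ha', hva', hn⟩ := ih a₁ ha₁R ha₁0 (by push_cast at hN; omega)
      refine ⟨n + 1, a', ha', hva', ?_⟩
      rw [pow_succ', ← mul_assoc, haε, mul_assoc, hn]
      ring
    · exact ⟨0, a, ha, hv, by simp⟩

/-- (U3) -/
theorem exists_factor {j u : F} {j₀ u₀ : K} {ε g : F} (hε : ε ∈ Algebra.adjoin K {j, u})
    (hg : g ∈ Algebra.adjoin K {j, u})
    (hεg : (u - algebraMap K F u₀) * ε = (j - algebraMap K F j₀) * g) {x : Place K F}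
    (hx : Over j u j₀ u₀ x) (hεx : ¬ Van x ε) {a : F} (ha : a ∈ Algebra.adjoin K {j, u})
    (ha0 : a ≠ 0) :
    ∃ (n : ℕ) (a' : F), a' ∈ Algebra.adjoin K {j, u} ∧ ¬ Van x a' ∧
      a * ε ^ n = (j - algebraMap K F j₀) ^ n * a' := by
  refine UniqueC_aux hε hg hεg hx hεx (x.ord a).toNat a ha ha0 ?_
  exact Int.self_le_toNat _

/-- every element of `K(j,u)` is a quotient of elements of `K[j,u]`. -/
theorem exists_div_of_adjoin_eq_top {j u : F} (hgen : IntermediateField.adjoin K {j, u} = ⊤) (f : F) :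
    ∃ a b : F, a ∈ Algebra.adjoin K {j, u} ∧ b ∈ Algebra.adjoin K {j, u} ∧ b ≠ 0 ∧ f = a / b := by
  have hf : f ∈ IntermediateField.adjoin K {j, u} := by
    rw [hgen]
    exact IntermediateField.mem_top
  obtain ⟨a, ha, b, hb, e⟩ := IntermediateField.mem_adjoin_iff_div.1 hf
  by_cases hb0 : b = 0
  · refine ⟨0, 1, zero_mem _, one_mem _, one_ne_zero, ?_⟩
    rw [e, hb0, div_zero, zero_div]
  · exact ⟨a, b, ha, hb, hb0, e⟩

theorem UniqueC_reg {j u : F} (hgen : IntermediateField.adjoin K {j, u} = ⊤) {j₀ u₀ : K} {ε g : F}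
    (hε : ε ∈ Algebra.adjoin K {j, u}) (hg : g ∈ Algebra.adjoin K {j, u})
    (hεg : (u - algebraMap K F u₀) * ε = (j - algebraMap K F j₀) * g) {x x' : Place K F}
    (hx : Over j u j₀ u₀ x) (hx' : Over j u j₀ u₀ x') (hεx : ¬ Van x ε) {f : F}
    (hf : Reg x f) : Reg x' f := by
  obtain ⟨a, b, ha, hb, hb0, rfl⟩ := exists_div_of_adjoin_eq_top hgen f
  by_cases ha0 : a = 0
  · rw [ha0, zero_div]; exact reg_zero x'
  obtain ⟨n, a', ha', hva', hn⟩ := exists_factor hε hg hεg hx hεx ha ha0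
  obtain ⟨m, b', hb', hvb', hm⟩ := exists_factor hε hg hεg hx hεx hb hb0
  have hε0 : ε ≠ 0 := by
    rintro rfl
    exact hεx (van_zero x)
  have hεx' : ¬ Van x' ε := by rwa [← van_iff_van hx hx' hε]
  have hva'' : ¬ Van x' a' := by rwa [← van_iff_van hx hx' ha']
  have hvb'' : ¬ Van x' b' := by rwa [← van_iff_van hx hx' hb']
  set t := j - algebraMap K F j₀ with ht
  have htn : t ^ n ≠ 0 := by
    have : t ^ n * a' ≠ 0 := by rw [← hn]; exact mul_ne_zero ha0 (pow_ne_zero _ hε0)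
    exact left_ne_zero_of_mul this
  have htm : t ^ m ≠ 0 := by
    have : t ^ m * b' ≠ 0 := by rw [← hm]; exact mul_ne_zero hb0 (pow_ne_zero _ hε0)
    exact left_ne_zero_of_mul this
  have hmain : a / b * (t ^ m * (b' * ε ^ n)) = t ^ n * (a' * ε ^ m) := by
    have e1 : a / b * (t ^ m * (b' * ε ^ n)) = a / b * (t ^ m * b') * ε ^ n := by ring
    rw [e1, ← hm]
    have e2 : a / b * (b * ε ^ m) * ε ^ n = (a / b * b) * ε ^ n * ε ^ m := by ring
    rw [e2, div_mul_cancel₀ _ hb0, hn]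
    ring
  have hnv : ∀ (y : Place K F), Over j u j₀ u₀ y → ¬ Van y ε → ∀ c ∈ Algebra.adjoin K {j, u},
      ¬ Van y c → ∀ i : ℕ, ¬ Van y (c * ε ^ i) := by
    intro y hy hεy c hc hcy i
    rw [van_mul_iff y (reg_of_mem_adjoin hy hc) (Reg.pow y (reg_of_mem_adjoin hy hε) i)]
    rintro (h | h)
    · exact hcy h
    · by_cases hi : i = 0
      · rw [hi, pow_zero] at h; exact not_van_one y h
      · exact hεy ((van_pow_iff y hi).1 h)
  rcases le_or_gt m n with hmn | hmn
  · obtain ⟨d, rfl⟩ := Nat.exists_eq_add_of_le hmn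
    have h1 : a / b * (b' * ε ^ (m + d)) = t ^ d * (a' * ε ^ m) := by
      apply mul_left_cancel₀ htm
      rw [pow_add t m d] at hmain
      linear_combination hmain
    have hne : b' * ε ^ (m + d) ≠ 0 := by
      intro h0
      exact hnv x hx hεx b' hb' hvb' (m + d) (by rw [h0]; exact van_zero x)
    have h2 : a / b = t ^ d * (a' * ε ^ m) * (b' * ε ^ (m + d))⁻¹ := by
      rw [← h1, mul_assoc, mul_inv_cancel₀ hne, mul_one]
    rw [h2]
    refine Reg.mul x' (Reg.mul x' (Reg.pow x' (Van.reg x' hx'.1) d)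
      (Reg.mul x' (reg_of_mem_adjoin hx' ha') (Reg.pow x' (reg_of_mem_adjoin hx' hε) m))) ?_
    exact reg_inv_of_not_van x' (hnv x' hx' hεx' b' hb' hvb'' (m + d))
  · exfalso
    obtain ⟨d, rfl⟩ := Nat.exists_eq_add_of_lt hmn
    have h1 : a / b * (t ^ (d + 1) * (b' * ε ^ n)) = a' * ε ^ (n + d + 1) := by
      apply mul_left_cancel₀ htn
      rw [show n + d + 1 = n + (d + 1) by ring, pow_add t n (d + 1)] at hmain
      rw [show n + d + 1 = n + (d + 1) by ring]
      linear_combination hmain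
    apply hnv x hx hεx a' ha' hva' (n + d + 1)
    rw [← h1]
    apply Van.mul_left x hf
    apply Van.mul_right x
    · exact (van_pow_iff x (Nat.succ_ne_zero d)).2 hx.1
    · exact Reg.mul x (reg_of_mem_adjoin hx hb') (Reg.pow x (reg_of_mem_adjoin hx hε) n)

/-- (U4) **Uniqueness of the place over a smooth point.** -/
theorem place_unique {j u : F} (hgen : IntermediateField.adjoin K {j, u} = ⊤)
    (Ψ : Polynomial (Polynomial K))
    (hΨ : (Ψ.map (aeval j : Polynomial K →ₐ[K] F).toRingHom).eval u = 0) {j₀ u₀ : K}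
    (hs : ((derivative Ψ).map (evalRingHom j₀)).eval u₀ ≠ 0) {x x' : Place K F}
    (hx : Over j u j₀ u₀ x) (hx' : Over j u j₀ u₀ x') : x = x' := by
  obtain ⟨ε, g, hε, hg, hεg, hv⟩ := exists_eps j u Ψ hΨ j₀ u₀ hs x hx
  apply Place.ext
  ext f
  exact ⟨fun h => UniqueC_reg hgen hε hg hεg hx hx' (hv x hx) h,
    fun h => UniqueC_reg hgen hε hg hεg hx' hx (hv x' hx') h⟩

theorem Unique_a_cong_add {x : Place K F} {a a' : F} {c c' : K}
    (h : Van x (a - algebraMap K F c)) (h' : Van x (a' - algebraMap K F c')) :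
    Van x (a + a' - algebraMap K F (c + c')) := by
  have h3 := h.add x h'
  have e : a - algebraMap K F c + (a' - algebraMap K F c') = a + a' - algebraMap K F (c + c') := by
    rw [map_add]
    ring
  rwa [e] at h3

theorem Unique_a_cong_mul {x : Place K F} {a a' : F} {c c' : K}
    (h : Van x (a - algebraMap K F c)) (h' : Van x (a' - algebraMap K F c')) :
    Van x (a * a' - algebraMap K F (c * c')) := by
  have hr : Reg x a' := by
    have h3 := (h'.reg x).add x (reg_algebraMap x c')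
    rwa [sub_add_cancel] at h3
  have h3 := (Van.mul_right x h hr).add x (Van.mul_left x (reg_algebraMap x c) h')
  have e : (a - algebraMap K F c) * a' + algebraMap K F c * (a' - algebraMap K F c') =
      a * a' - algebraMap K F (c * c') := by
    rw [map_mul]
    ring
  rwa [e] at h3

theorem Unique_a_cong_pow {x : Place K F} {a : F} {c : K}
    (h : Van x (a - algebraMap K F c)) (n : ℕ) : Van x (a ^ n - algebraMap K F (c ^ n)) := by
  induction n with
  | zero =>
    rw [pow_zero, pow_zero, map_one, sub_self]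
    exact van_zero x
  | succ n ih =>
    rw [pow_succ, pow_succ]
    exact Unique_a_cong_mul ih h

theorem Unique_a_cong_aeval {x : Place K F} {a : F} {c : K}
    (h : Van x (a - algebraMap K F c)) (p : Polynomial K) :
    Van x (aeval a p - algebraMap K F (p.eval c)) := by
  induction p using Polynomial.induction_on' with
  | add p q hp hq =>
    rw [map_add, eval_add]
    exact Unique_a_cong_add hp hq
  | monomial n r =>
    rw [aeval_monomial, eval_monomial]
    refine Unique_a_cong_mul ?_ (Unique_a_cong_pow h n)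
    rw [sub_self]
    exact van_zero x

/-- evaluation of the equation at a place: `Ψ(u₀, j₀) = 0`. -/
theorem eval_eq_zero_of_over {j u : F} (Ψ : Polynomial (Polynomial K))
    (hΨ : (Ψ.map (aeval j : Polynomial K →ₐ[K] F).toRingHom).eval u = 0) {j₀ u₀ : K}
    {x : Place K F} (hx : Over j u j₀ u₀ x) : (Ψ.map (evalRingHom j₀)).eval u₀ = 0 := by
  have key : ∀ Φ : Polynomial (Polynomial K),
      Van x ((Φ.map (aeval j : Polynomial K →ₐ[K] F).toRingHom).eval u -
        algebraMap K F ((Φ.map (evalRingHom j₀)).eval u₀)) := by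
    intro Φ
    induction Φ using Polynomial.induction_on' with
    | add p q hp hq =>
      rw [Polynomial.map_add, Polynomial.map_add, eval_add, eval_add]
      exact Unique_a_cong_add hp hq
    | monomial n r =>
      rw [map_monomial, map_monomial, eval_monomial, eval_monomial]
      exact Unique_a_cong_mul (Unique_a_cong_aeval hx.1 r) (Unique_a_cong_pow hx.2 n)
  have h := key Ψ
  rw [hΨ, zero_sub] at h
  have h2 := h.neg x
  rw [neg_neg] at h2
  exact (van_algebraMap_iff x).1 h2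

end Fermat.Agent.S15.A.Unique
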