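import Fermat.Agent.S15.A.Psi
import Fermat.Agent.S15.A.Unique
import Fermat.Agent.Gamma0Comb.Index

/-!
# S15 / A / Gen : `FF p = ℚ̄(j, u)`, `[FF p : ℚ̄(u)] ≤ p - 1`, `u` is a unit at all finite places

Ramification argument at the cusp `0`: `σ₀ := (coercion to ℚ̄((q))) ∘ fr`.  `σ₀(j) = j(q^p)`, so `σ₀(ℚ̄(j)) ⊆ ℚ̄((q^p))` has orders in `pℤ`;
`σ₀(u) = h = q^(1-p) + …`.  Hence `1, u, …, u^(p-1)` have pairwise distinct orders mod `p` and are linearly independent over `ℚ̄(j)`:
`p ≤ [ℚ̄(j,u) : ℚ̄(j)]`, which divides `[FF p : ℚ̄(j)] = p + 1`.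
-/

set_option autoImplicit false

open Polynomial AlgebraicCurve ModularCurve
open scoped IntermediateField

namespace Fermat.Agent.S15.A.Gen

open Fermat.Agent.S24 Fermat.Agent.S37.Red
open Fermat.Agent.ES (Qb FF)
open Fermat.Agent.S15.A.Pl
open Fermat.Agent.Crux.GM.Fricke (fr)

noncomputable section

variable (p : ℕ) [Fact p.Prime]

/-- `S24.finrank_FN`, `Gamma0Comb.index_Gamma0`, `dedekindPsi p = p + 1` (see `SS/GM2/Basis.lean`, `card_XN_mul`). -/
theorem finrank_jQ : Module.finrank Qb⟮jQ p⟯ (FF p) = p + 1 := by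
  have hp : p.Prime := Fact.out
  have h1 : Module.finrank Qb⟮jQ p⟯ (FF p) = Nat.card (XN p) := finrank_FN p
  have h2 : Nat.card (XN p) = dedekindPsi p := by
    rw [← Gamma0Comb.index_Gamma0 p]
    rfl
  have h3 := Gamma0Comb.dedekindPsi_mul_of_not_dvd (p := p) (N := 1) one_ne_zero hp
    (fun h => hp.one_lt.ne' (Nat.dvd_one.1 h))
  rw [mul_one, dedekindPsi_one, mul_one] at h3
  rw [h1, h2, h3]

/-- `fr_uQ`, `coe_hQ`, `GM.haupt_order_hH` (order and leading coefficient `1` survive the cast to `Qb`). -/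
theorem order_fr_uQ : ((fr p (uQ p) : FF p) : LaurentSeries Qb).order = 1 - (p : ℤ) := by
  rw [fr_uQ, coe_hQ, Fermat.Agent.Crux.GM.order_castS _ (Fermat.Agent.Crux.GM.haupt_order_hH p).2,
    (Fermat.Agent.Crux.GM.haupt_order_hH p).1]
  ring

/-- the set of `a` such that the series of `fr a` lies in the range of `qExpand Qb p` is a subfield containing `Qb` and `jQ`
(`fr_jN`, `Crux.jSer_eq`); `order (qExpand p x) = p * order x`. -/
theorem dvd_order_fr (a : FF p) (ha : a ∈ Qb⟮jQ p⟯) :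
    (p : ℤ) ∣ ((fr p a : FF p) : LaurentSeries Qb).order := by
  let φ : FF p →ₐ[Qb] LaurentSeries Qb :=
    (IntermediateField.val (modularFunctionFieldBar p)).comp (fr p : FF p →ₐ[Qb] FF p)
  let ψ : LaurentSeries Qb →ₐ[Qb] LaurentSeries Qb := qExpandAlgHomC Qb p
  have hle : Qb⟮jQ p⟯ ≤ (ψ.fieldRange).comap φ := by
    rw [IntermediateField.adjoin_simple_le_iff]
    show φ (jQ p) ∈ ψ.fieldRange
    refine ⟨jqModC Qb, ?_⟩
    show qExpand Qb p (jqModC Qb) = ((fr p (jQ p) : FF p) : LaurentSeries Qb)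
    rw [jQ, Fermat.Agent.Crux.GM.Fricke.fr_jN]
    exact (Fermat.Agent.Crux.jSer_eq p).symm
  obtain ⟨x, hx⟩ := hle ha
  have hx' : ((fr p a : FF p) : LaurentSeries Qb) = qExpand Qb p x := hx.symm
  rw [hx']
  by_contra hnd
  have h0 := qExpand_coeff_of_not_dvd (N := p) x hnd
  have h1 : qExpand Qb p x = 0 := HahnSeries.coeff_order_eq_zero.1 h0
  rw [h1, HahnSeries.order_zero] at hnd
  exact hnd (dvd_zero _)

/-- abstract: a finite sum of series with pairwise distinct orders, not all zero, is non-zero. -/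
theorem sum_ne_zero_of_order_injOn {ι : Type*} (s : Finset ι) (x : ι → LaurentSeries Qb)
    (hinj : ∀ i ∈ s, ∀ i' ∈ s, x i ≠ 0 → x i' ≠ 0 → (x i).order = (x i').order → i = i')
    (hne : ∃ i ∈ s, x i ≠ 0) : ∑ i ∈ s, x i ≠ 0 := by
  classical
  obtain ⟨i₁, hi₁, hx₁⟩ := hne
  have hne' : (s.filter fun i => x i ≠ 0).Nonempty := ⟨i₁, Finset.mem_filter.2 ⟨hi₁, hx₁⟩⟩
  obtain ⟨i₀, hi₀, hmin⟩ := Finset.exists_min_image _ (fun i => (x i).order) hne'
  rw [Finset.mem_filter] at hi₀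
  intro hsum
  have hc := congrArg (fun y : LaurentSeries Qb => y.coeff (x i₀).order) hsum
  simp only [HahnSeries.coeff_sum, HahnSeries.coeff_zero] at hc
  rw [Finset.sum_eq_single_of_mem i₀ hi₀.1] at hc
  · exact hi₀.2 (HahnSeries.coeff_order_eq_zero.1 hc)
  · intro i hi hne
    by_cases hxi : x i = 0
    · rw [hxi, HahnSeries.coeff_zero]
    · apply HahnSeries.coeff_eq_zero_of_lt_order
      have h1 := hmin i (Finset.mem_filter.2 ⟨hi, hxi⟩)
      exact lt_of_le_of_ne h1 (fun h => hne (hinj i hi i₀ hi₀.1 hxi hi₀.2 h.symm))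

theorem linearIndependent_pow_uQ :
    LinearIndependent Qb⟮jQ p⟯ (fun i : Fin p => (uQ p) ^ (i : ℕ)) := by
  classical
  have hp : p.Prime := Fact.out
  rw [Fintype.linearIndependent_iff]
  intro g hg
  by_contra hcon
  push Not at hcon
  obtain ⟨i₁, hi₁⟩ := hcon
  let φ : FF p →ₐ[Qb] LaurentSeries Qb :=
    (modularFunctionFieldBar p).val.comp (fr p : FF p →ₐ[Qb] FF p)
  have hφ : ∀ a, φ a = ((fr p a : FF p) : LaurentSeries Qb) := fun _ => rfl
  have hUord : (φ (uQ p)).order = 1 - (p : ℤ) := order_fr_uQ p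
  have hU0 : φ (uQ p) ≠ 0 := by
    intro h
    rw [h, HahnSeries.order_zero] at hUord
    have h2 : (2 : ℤ) ≤ p := by exact_mod_cast hp.two_le
    omega
  let x : Fin p → LaurentSeries Qb := fun i => φ (g i : FF p) * φ (uQ p) ^ (i : ℕ)
  have hsum : ∑ i, x i = 0 := by
    have h1 := congrArg φ hg
    rw [map_sum, map_zero] at h1
    rw [← h1]
    refine Finset.sum_congr rfl fun i _ => ?_
    rw [Algebra.smul_def, map_mul, map_pow]
    rfl
  refine sum_ne_zero_of_order_injOn Finset.univ x ?_ ⟨i₁, Finset.mem_univ _, ?_⟩ hsum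
  · intro i _ i' _ hxi hxi' hord
    have hgi : φ (g i : FF p) ≠ 0 := left_ne_zero_of_mul hxi
    have hgi' : φ (g i' : FF p) ≠ 0 := left_ne_zero_of_mul hxi'
    simp only [x] at hord
    rw [HahnSeries.order_mul hgi (pow_ne_zero _ hU0),
      HahnSeries.order_mul hgi' (pow_ne_zero _ hU0), HahnSeries.order_pow, HahnSeries.order_pow,
      hUord] at hord
    obtain ⟨a, ha⟩ := dvd_order_fr p (g i : FF p) (g i).2
    obtain ⟨a', ha'⟩ := dvd_order_fr p (g i' : FF p) (g i').2
    rw [hφ, hφ, ha, ha', nsmul_eq_mul, nsmul_eq_mul] at hord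
    have h1 : (p : ℤ) ∣ ((i : ℕ) : ℤ) - ((i' : ℕ) : ℤ) :=
      ⟨a' - a + ((i : ℕ) : ℤ) - ((i' : ℕ) : ℤ), by linear_combination hord⟩
    have hi := i.2
    have hi' := i'.2
    have h2 := Int.eq_zero_of_abs_lt_dvd h1 (by rw [abs_lt]; constructor <;> omega)
    apply Fin.ext
    omega
  · exact mul_ne_zero ((map_ne_zero φ).2 (fun h => hi₁ (Subtype.ext h))) (pow_ne_zero _ hU0)

omit [Fact p.Prime] in
/-- (helper, A-Gen-Top) the abstract tower argument. -/
theorem GenTop_aux {K F : Type*} [Field K] [Field F] [Algebra K F] (j u : F) (hp : 2 ≤ p)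
    (hfin : Module.finrank K⟮j⟯ F = p + 1)
    (hli : LinearIndependent K⟮j⟯ (fun i : Fin p => u ^ (i : ℕ))) :
    IntermediateField.adjoin K {j, u} = ⊤ := by
  have hfd : FiniteDimensional K⟮j⟯ F := Module.finite_of_finrank_pos (by rw [hfin]; omega)
  set L : IntermediateField K⟮j⟯ F := IntermediateField.adjoin K⟮j⟯ {u} with hL
  have hu : u ∈ L := IntermediateField.mem_adjoin_simple_self _ u
  have hli' : LinearIndependent K⟮j⟯ (fun i : Fin p => (⟨u ^ (i : ℕ), pow_mem hu _⟩ : L)) := by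
    refine LinearIndependent.of_comp (L.val.toLinearMap) ?_
    exact hli
  have h1 : p ≤ Module.finrank K⟮j⟯ L := by
    have := hli'.fintype_card_le_finrank
    rwa [Fintype.card_fin] at this
  have h2 : Module.finrank K⟮j⟯ L * Module.finrank L F = p + 1 := by
    rw [Module.finrank_mul_finrank, hfin]
  have h3 : Module.finrank L F = 1 := by
    rcases Nat.lt_or_ge (Module.finrank L F) 2 with h | h
    · have h0 : Module.finrank L F ≠ 0 := by
        intro h0
        rw [h0, mul_zero] at h2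
        omega
      omega
    · exfalso
      have : p * 2 ≤ Module.finrank K⟮j⟯ L * Module.finrank L F := Nat.mul_le_mul h1 h
      omega
  have h4 : Module.finrank K⟮j⟯ L = Module.finrank K⟮j⟯ F := by
    rw [h3, mul_one] at h2
    rw [h2, hfin]
  have h5 : L.toSubalgebra.toSubmodule = ⊤ := Submodule.eq_top_of_finrank_eq h4
  have h6 : L.restrictScalars K = IntermediateField.adjoin K {j, u} := by
    rw [hL, IntermediateField.adjoin_adjoin_left]
    rfl
  rw [eq_top_iff, ← h6]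
  intro x _
  have : x ∈ L.toSubalgebra.toSubmodule := by rw [h5]; trivial
  exact this

/-- **Generation.**  `L = ℚ̄(j)(u)`; `p ≤ [L : ℚ̄(j)]` (`linearIndependent_pow_uQ`, the powers lie in `L`), `[L : ℚ̄(j)] ∣ p + 1` (tower), so `[FF p : L] = 1`. -/
theorem adjoin_eq_top : IntermediateField.adjoin Qb {jQ p, uQ p} = ⊤ :=
  GenTop_aux p (jQ p) (uQ p) (Fact.out : p.Prime).two_le (finrank_jQ p) (linearIndependent_pow_uQ p)

/-- `u` is transcendental (non-constant: its series has order `p - 1 ≠ 0`; `Qb` is algebraically closed in `Qb((q))`, or: an algebraic element is a constant series of order `0`). -/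
theorem transcendental_uQ : Transcendental Qb (uQ p) := by
  intro h
  have hp : p.Prime := Fact.out
  have e : hQ p = algebraMap Qb (FF p) ((p : Qb) ^ 12) * (uQ p)⁻¹ := by
    rw [eq_mul_inv_iff_mul_eq₀ (uQ_ne_zero p), mul_comm]
    exact uQ_mul_hQ p
  have h1 : IsAlgebraic Qb (hQ p) := by
    rw [e]
    exact (isAlgebraic_algebraMap _).mul h.inv
  have h2 : IsAlgebraic Qb ((hQ p : FF p) : LaurentSeries Qb) :=
    h1.algHom (IntermediateField.val (modularFunctionFieldBar p))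
  rw [coe_hQ] at h2
  have hneg : (Fermat.Agent.Crux.GM.castS Qb (Fermat.Agent.Crux.GM.hH p)).order < 0 := by
    rw [Fermat.Agent.Crux.GM.order_castS _ (Fermat.Agent.Crux.GM.haupt_order_hH p).2,
      (Fermat.Agent.Crux.GM.haupt_order_hH p).1]
    have := hp.two_le
    omega
  exact Fermat.Agent.Crux.GM.transcendental_of_order_neg _ hneg h2

omit [Fact p.Prime] in
/-- abstract form of `finrank_uQ_le`. -/
theorem GenDeg_finrank_le {K E : Type*} [Field K] [Field E] [Algebra K E] (p : ℕ) (hp3 : 3 ≤ p)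
    (Ψ : Polynomial (Polynomial K)) (hS : Newton.Shape p Ψ) (j u : E) (hu : u ≠ 0)
    (htop : IntermediateField.adjoin K {j, u} = ⊤)
    (h0 : (Ψ.map (aeval j : Polynomial K →ₐ[K] E).toRingHom).eval u = 0) :
    Module.finrank K⟮u⟯ E ≤ p - 1 := by
  classical
  let uL : K⟮u⟯ := IntermediateField.AdjoinSimple.gen K u
  have huL : algebraMap K⟮u⟯ E uL = u := IntermediateField.AdjoinSimple.algebraMap_gen K u
  let a : ℕ → K⟮u⟯ := fun n =>
    ∑ i ∈ Finset.range (p + 2), algebraMap K K⟮u⟯ ((Ψ.coeff i).coeff n) * uL ^ i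
  let P : K⟮u⟯[X] := ∑ n ∈ Finset.range p, C (a n) * X ^ n
  have hdeg : P.natDegree ≤ p - 1 := by
    refine natDegree_sum_le_of_forall_le _ _ fun n hn => ?_
    exact (natDegree_C_mul_X_pow_le _ _).trans (by have := Finset.mem_range.1 hn; omega)
  have hcoeffP : ∀ n < p, P.coeff n = a n := by
    intro n hn
    simp only [P, finsetSum_coeff, coeff_C_mul, coeff_X_pow]
    rw [Finset.sum_eq_single n]
    · simp
    · intro b _ hb
      rw [if_neg (Ne.symm hb), mul_zero]
    · intro h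
      exact absurd (Finset.mem_range.2 hn) h
  have ha : a (p - 1) = - uL := by
    show ∑ i ∈ Finset.range (p + 2), _ = _
    rw [Finset.sum_eq_single 1]
    · rw [hS.c1_lead]; simp
    · intro i _ hi1
      rcases Nat.eq_zero_or_pos i with rfl | hi
      · rw [hS.c0, coeff_C, if_neg (by omega)]; simp
      · rw [coeff_eq_zero_of_natDegree_lt (lt_of_le_of_lt (hS.c_deg i (by omega)) (by omega))]
        simp
    · intro h; exact absurd (Finset.mem_range.2 (by omega)) h
  have hP0 : P ≠ 0 := by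
    intro h
    have h1 := hcoeffP (p - 1) (by omega)
    rw [h, coeff_zero, ha] at h1
    apply hu
    rw [← huL, neg_eq_zero.1 h1.symm, map_zero]
  have hcdeg : ∀ i, (Ψ.coeff i).natDegree < p := by
    intro i
    rcases Nat.lt_or_ge i 2 with hi | hi
    · interval_cases i
      · rw [hS.c0, natDegree_C]; omega
      · have := hS.c1_deg; omega
    · have := hS.c_deg i hi; omega
  have hroot : aeval j P = 0 := by
    have hdegΨ : (Ψ.map (aeval j : Polynomial K →ₐ[K] E).toRingHom).natDegree < p + 2 := by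
      have := natDegree_map_le (f := (aeval j : Polynomial K →ₐ[K] E).toRingHom) (p := Ψ)
      rw [hS.natDegree] at this
      omega
    rw [eval_eq_sum_range' hdegΨ] at h0
    rw [← h0]
    simp only [P, a, map_sum, map_mul, aeval_C, aeval_X, map_pow, huL, coeff_map]
    have h1 : ∀ i, (aeval j : Polynomial K →ₐ[K] E).toRingHom (Ψ.coeff i)
        = ∑ n ∈ Finset.range p, algebraMap K E ((Ψ.coeff i).coeff n) * j ^ n := by
      intro i
      show aeval j (Ψ.coeff i) = _
      rw [aeval_eq_sum_range' (hcdeg i)]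
      simp only [Algebra.smul_def]
    simp only [h1, Finset.sum_mul]
    rw [Finset.sum_comm]
    refine Finset.sum_congr rfl fun i _ => Finset.sum_congr rfl fun n _ => ?_
    rw [← IsScalarTower.algebraMap_apply]
    ring
  have hint : IsIntegral K⟮u⟯ j := isAlgebraic_iff_isIntegral.1 ⟨P, hP0, hroot⟩
  have htop' : K⟮u⟯⟮j⟯ = ⊤ := by
    rw [← IntermediateField.restrictScalars_eq_top_iff (K := K), IntermediateField.adjoin_adjoin_left,
      ← htop]
    congr 1
    exact Set.pair_comm _ _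
  have hfin : Module.finrank K⟮u⟯ E = (minpoly K⟮u⟯ j).natDegree := by
    rw [← IntermediateField.adjoin.finrank hint, htop', IntermediateField.finrank_top']
  rw [hfin]
  exact (natDegree_le_of_dvd (minpoly.dvd _ _ hroot) hP0).trans hdeg

/-- **Degree of `u`.**  `FF p = ℚ̄(u)(j)` and `j` is a root of `Ψ(u, Y) ∈ ℚ̄(u)[Y]`, a non-zero polynomial of degree `≤ p - 1` in `Y`:
the coefficient of `Y^(p-1)` is `-u ≠ 0` (only `c_1` has degree `p - 1`). -/
theorem finrank_uQ_le (hp2 : p ≠ 2) : Module.finrank Qb⟮uQ p⟯ (FF p) ≤ p - 1 := by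
  obtain ⟨Ψ, hS, -, h0⟩ := Psi.exists_Psi p hp2
  have hp3 : 3 ≤ p := by
    have := (Fact.out : p.Prime).two_le
    omega
  exact GenDeg_finrank_le p hp3 Ψ hS (jQ p) (uQ p) (uQ_ne_zero p) (adjoin_eq_top p) h0

/-- (task A-Gen-Unit) a polynomial with regular coefficients is regular at a regular point. -/
theorem GenUnit_reg_eval {Ω 𝕃 : Type*} [Field Ω] [Field 𝕃] [Algebra Ω 𝕃] (v : Place Ω 𝕃)
    (P : Polynomial 𝕃) (hc : ∀ i, Reg v (P.coeff i)) {u : 𝕃} (hu : Reg v u) : Reg v (P.eval u) := by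
  rw [eval_eq_sum_range]
  exact reg_sum v _ _ fun i _ => Reg.mul v (hc i) (Reg.pow v hu i)

/-- (task A-Gen-Unit) a root of a monic polynomial with regular coefficients is regular. -/
theorem GenUnit_reg_of_root {Ω 𝕃 : Type*} [Field Ω] [Field 𝕃] [Algebra Ω 𝕃] (v : Place Ω 𝕃)
    (P : Polynomial 𝕃) (hP : P.Monic) (hc : ∀ i, Reg v (P.coeff i)) {u : 𝕃} (hu : P.eval u = 0) :
    Reg v u := by
  have hl : P ∈ lifts (algebraMap v.toValuationSubring 𝕃) :=
    (lifts_iff_coeff_lifts P).2 fun i => ⟨⟨P.coeff i, hc i⟩, rfl⟩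
  obtain ⟨q, hq, -, hqm⟩ := lifts_and_natDegree_eq_and_monic hl hP
  have hint : IsIntegral v.toValuationSubring u := ⟨q, hqm, by rw [← eval_map, hq, hu]⟩
  obtain ⟨y, hy⟩ := (IsIntegrallyClosed.isIntegral_iff (R := v.toValuationSubring) (K := 𝕃)).mp hint
  rw [← hy]
  exact y.2

/-- (task A-Gen-Unit) the modular equation of `u`, with coefficients in `FF p`. -/
theorem GenUnit_exists_poly (hp2 : p ≠ 2) (x : Place Qb (FF p)) (hx : Reg x (jQ p)) :
    ∃ P : Polynomial (FF p), P.Monic ∧ (∀ i, Reg x (P.coeff i)) ∧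
      P.coeff 0 = algebraMap Qb (FF p) ((p : Qb) ^ 12) ∧ P.eval (uQ p) = 0 := by
  obtain ⟨Ψ, hS, -, hΨ⟩ := Psi.exists_Psi p hp2
  refine ⟨Ψ.map (aeval (jQ p) : Polynomial Qb →ₐ[Qb] FF p).toRingHom, hS.monic.map _, fun i => ?_,
    ?_, hΨ⟩
  · rw [coeff_map]
    exact Reg.aeval x hx (Ψ.coeff i)
  · rw [coeff_map, hS.c0]
    exact aeval_C (jQ p) _

/-- **No zeros or poles at finite places.**  `u` is integral over `ℚ̄[j]` (`Ψ` monic) and `Ψ(0, j) = p¹²` is a non-zero constant. -/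
theorem reg_uQ (hp2 : p ≠ 2) (x : Place Qb (FF p)) (hx : Reg x (jQ p)) : Reg x (uQ p) := by
  obtain ⟨P, hP, hc, -, hu⟩ := GenUnit_exists_poly p hp2 x hx
  exact GenUnit_reg_of_root x P hP hc hu

theorem not_van_uQ (hp2 : p ≠ 2) (x : Place Qb (FF p)) (hx : Reg x (jQ p)) : ¬ Van x (uQ p) := by
  intro hv
  obtain ⟨P, hP, hc, h0, hu⟩ := GenUnit_exists_poly p hp2 x hx
  have h1 : P.divX.eval (uQ p) * uQ p + algebraMap Qb (FF p) ((p : Qb) ^ 12) = 0 := by
    have h2 := congrArg (eval (uQ p)) (divX_mul_X_add P)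
    rw [eval_add, eval_mul, eval_X, eval_C, h0, hu] at h2
    exact h2
  have h3 : Reg x (P.divX.eval (uQ p)) :=
    GenUnit_reg_eval x P.divX (fun i => by rw [coeff_divX]; exact hc _) (Van.reg x hv)
  have h4 : Van x (algebraMap Qb (FF p) ((p : Qb) ^ 12)) := by
    rw [eq_neg_of_add_eq_zero_right h1]
    exact Van.neg x (Van.mul_left x h3 hv)
  exact pow_ne_zero 12 (p_ne_zero_Qb p) ((van_algebraMap_iff x).1 h4)

theorem reg_hQ (hp2 : p ≠ 2) (x : Place Qb (FF p)) (hx : Reg x (jQ p)) : Reg x (hQ p) := by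
  have h1 : hQ p = (uQ p)⁻¹ * algebraMap Qb (FF p) ((p : Qb) ^ 12) := by
    rw [← uQ_mul_hQ, inv_mul_cancel_left₀ (uQ_ne_zero p)]
  rw [h1]
  exact Reg.mul x (reg_inv_of_not_van x (not_van_uQ p hp2 x hx)) (reg_algebraMap x _)

theorem not_van_hQ (hp2 : p ≠ 2) (x : Place Qb (FF p)) (hx : Reg x (jQ p)) : ¬ Van x (hQ p) := by
  intro hv
  have h4 : Van x (algebraMap Qb (FF p) ((p : Qb) ^ 12)) := by
    rw [← uQ_mul_hQ]
    exact Van.mul_left x (reg_uQ p hp2 x hx) hv
  exact pow_ne_zero 12 (p_ne_zero_Qb p) ((van_algebraMap_iff x).1 h4)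

end

end Fermat.Agent.S15.A.Gen
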