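import Mathlib

/-!
# S15 / A / Newton : the Newton polygon of the modular equation `Ψ(u, j) = 0`, `u = p¹² Δ(q^p)/Δ(q)`

`Ψ = X^(p+1) + c_p(j) X^p + … + c_1(j) X + p¹²` with `c_1 = -j^(p-1) + …`, `deg c_i ≤ p - 2` for `i ≥ 2`, integral coefficients.
For `|j₀| > 1` and a root `u₀` of `Ψ(X, j₀)` with `|u₀| ≤ 1`: the term `c_1(j₀) u₀` strictly dominates all other terms except `p¹²`.
-/

set_option autoImplicit false

open Polynomial

namespace Fermat.Agent.S15.A.Newton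

/-- the shape of the modular equation. -/
structure Shape {K : Type*} [Field K] (p : ℕ) (Ψ : Polynomial (Polynomial K)) : Prop where
  monic : Ψ.Monic
  natDegree : Ψ.natDegree = p + 1
  c0 : Ψ.coeff 0 = C ((p : K) ^ 12)
  c1_deg : (Ψ.coeff 1).natDegree ≤ p - 1
  c1_lead : (Ψ.coeff 1).coeff (p - 1) = -1
  c_deg : ∀ i, 2 ≤ i → (Ψ.coeff i).natDegree ≤ p - 2

variable {K : Type*} [Field K] {Γ₀ : Type*} [LinearOrderedCommGroupWithZero Γ₀] (v : Valuation K Γ₀)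

/-- a polynomial with integral coefficients of degree `≤ d` at a point with `|j₀| ≥ 1`. -/
theorem val_eval_le {c : Polynomial K} (hc : ∀ n, v (c.coeff n) ≤ 1) {d : ℕ} (hd : c.natDegree ≤ d)
    {j₀ : K} (hj : 1 ≤ v j₀) : v (c.eval j₀) ≤ v j₀ ^ d := by
  rw [eval_eq_sum_range' (Nat.lt_succ_of_le hd)]
  refine v.map_sum_le fun i hi => ?_
  rw [map_mul, map_pow]
  have hi' : i ≤ d := Nat.lt_succ_iff.1 (Finset.mem_range.1 hi)
  calc v (c.coeff i) * v j₀ ^ i ≤ 1 * v j₀ ^ d :=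
        mul_le_mul' (hc i) (pow_le_pow_right₀ hj hi')
    _ = v j₀ ^ d := one_mul _

/-- degree `≤ d`, coefficient of `X^d` a unit, `|j₀| > 1`: `|c(j₀)| = |j₀|^d`. -/
theorem val_eval_eq {c : Polynomial K} (hc : ∀ n, v (c.coeff n) ≤ 1) {d : ℕ} (hd : c.natDegree ≤ d)
    (hlead : v (c.coeff d) = 1) {j₀ : K} (hj : 1 < v j₀) : v (c.eval j₀) = v j₀ ^ d := by
  have hj0 : v j₀ ≠ 0 := (lt_trans zero_lt_one hj).ne'
  rw [eval_eq_sum_range' (Nat.lt_succ_of_le hd), Finset.sum_range_succ]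
  have h1 : v (c.coeff d * j₀ ^ d) = v j₀ ^ d := by rw [map_mul, map_pow, hlead, one_mul]
  have h2 : v (∑ i ∈ Finset.range d, c.coeff i * j₀ ^ i) < v j₀ ^ d := by
    refine v.map_sum_lt (pow_ne_zero _ hj0) fun i hi => ?_
    rw [map_mul, map_pow]
    calc v (c.coeff i) * v j₀ ^ i ≤ 1 * v j₀ ^ i := mul_le_mul' (hc i) le_rfl
      _ = v j₀ ^ i := one_mul _
      _ < v j₀ ^ d := pow_lt_pow_right₀ hj (Finset.mem_range.1 hi)
  rw [← h1] at h2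
  rw [v.map_add_eq_of_lt_right h2, h1]

/-- expansion of `Ψ(u₀, j₀)`. -/
theorem eval_eq_sum {p : ℕ} {Ψ : Polynomial (Polynomial K)} (hΨ : Shape p Ψ) (j₀ u₀ : K) :
    (Ψ.map (evalRingHom j₀)).eval u₀ =
      (p : K) ^ 12 + (Ψ.coeff 1).eval j₀ * u₀ +
        ∑ i ∈ Finset.Ico 2 (p + 2), (Ψ.coeff i).eval j₀ * u₀ ^ i := by
  have hdeg : (Ψ.map (evalRingHom j₀)).natDegree < p + 2 := by
    have := natDegree_map_le (f := evalRingHom j₀) (p := Ψ)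
    rw [hΨ.natDegree] at this
    omega
  rw [eval_eq_sum_range' hdeg, Finset.range_eq_Ico,
    Finset.sum_eq_sum_Ico_succ_bot (by omega), Finset.sum_eq_sum_Ico_succ_bot (by omega)]
  simp only [coeff_map, coe_evalRingHom, hΨ.c0, eval_C, pow_zero, mul_one, pow_one, zero_add,
    Nat.reduceAdd]
  rw [add_assoc]

theorem derivative_eval_eq_sum {p : ℕ} {Ψ : Polynomial (Polynomial K)} (hΨ : Shape p Ψ) (j₀ u₀ : K) :
    ((derivative Ψ).map (evalRingHom j₀)).eval u₀ =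
      (Ψ.coeff 1).eval j₀ +
        ∑ i ∈ Finset.Ico 2 (p + 2), (i : K) * (Ψ.coeff i).eval j₀ * u₀ ^ (i - 1) := by
  have hdeg : ((derivative Ψ).map (evalRingHom j₀)).natDegree < p + 1 := by
    have h1 := natDegree_map_le (f := evalRingHom j₀) (p := derivative Ψ)
    have h2 := natDegree_derivative_le Ψ
    rw [hΨ.natDegree] at h2
    omega
  rw [eval_eq_sum_range' hdeg, Finset.sum_range_succ', Finset.sum_Ico_eq_sum_range, add_comm]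
  congr 1
  · simp [coeff_derivative]
  · refine Finset.sum_congr (by congr 1) fun i _ => ?_
    simp only [coeff_map, coe_evalRingHom, coeff_derivative, eval_mul, eval_add, eval_natCast,
      eval_one]
    rw [show 2 + i = i + 1 + 1 by ring, Nat.add_sub_cancel]
    push_cast
    ring

/-- (task A-Newton-Main) `|c_i(j₀)| ≤ R^(p-2)` for `i ≥ 2`. -/
theorem NewtonMain_term_le {p : ℕ} {Ψ : Polynomial (Polynomial K)} (hΨ : Shape p Ψ)
    (hint : ∀ i n, v ((Ψ.coeff i).coeff n) ≤ 1) {j₀ : K} (hj : 1 < v j₀) {i : ℕ} (hi : 2 ≤ i) :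
    v ((Ψ.coeff i).eval j₀) ≤ v j₀ ^ (p - 2) :=
  val_eval_le v (hint i) (hΨ.c_deg i hi) hj.le

/-- (task A-Newton-Main) `|c_1(j₀)| = R^(p-1)`. -/
theorem NewtonMain_c1 {p : ℕ} {Ψ : Polynomial (Polynomial K)} (hΨ : Shape p Ψ)
    (hint : ∀ i n, v ((Ψ.coeff i).coeff n) ≤ 1) {j₀ : K} (hj : 1 < v j₀) :
    v ((Ψ.coeff 1).eval j₀) = v j₀ ^ (p - 1) :=
  val_eval_eq v (hint 1) hΨ.c1_deg (by rw [hΨ.c1_lead, Valuation.map_neg, map_one]) hj

/-- **Dichotomy.**  `R = |j₀| > 1`, `|u₀| ≤ 1`, `Ψ(u₀, j₀) = 0` ⟹ `|u₀| R^(p-1) = 1`.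
Proof: `u₀ ≠ 0` (else `p¹² = 0`).  For `i ≥ 2`: `|c_i(j₀) u₀^i| ≤ R^(p-2) |u₀|² ≤ R^(p-2)|u₀| < R^(p-1) |u₀| = |c_1(j₀) u₀|`.
So `|c_1(j₀)u₀ + ∑_{i ≥ 2}| = R^(p-1)|u₀|` and this equals `|-p¹²| = 1`. -/
theorem dich {p : ℕ} (hp3 : 3 ≤ p) {Ψ : Polynomial (Polynomial K)} (hΨ : Shape p Ψ)
    (hint : ∀ i n, v ((Ψ.coeff i).coeff n) ≤ 1) (hvp : v (p : K) = 1) {j₀ u₀ : K} (hj : 1 < v j₀)
    (h0 : (Ψ.map (evalRingHom j₀)).eval u₀ = 0) (hu : v u₀ ≤ 1) :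
    v u₀ * v j₀ ^ (p - 1) = 1 := by
  have hR0 : 0 < v j₀ := lt_trans zero_lt_one hj
  have hc1 := NewtonMain_c1 v hΨ hint hj
  have hpow : v j₀ ^ (p - 2) < v j₀ ^ (p - 1) := pow_lt_pow_right₀ hj (by omega)
  have hu0 : u₀ ≠ 0 := by
    rintro rfl
    rw [eval_eq_sum hΨ] at h0
    have hs : ∑ i ∈ Finset.Ico 2 (p + 2), (Ψ.coeff i).eval j₀ * (0 : K) ^ i = 0 :=
      Finset.sum_eq_zero (fun i hi => by
        rw [zero_pow (by have := (Finset.mem_Ico.mp hi).1; omega), mul_zero])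
    rw [hs, mul_zero, add_zero, add_zero] at h0
    have h1 := congrArg v h0
    rw [map_pow, hvp, one_pow, map_zero] at h1
    exact one_ne_zero h1
  have hvu : 0 < v u₀ := zero_lt_iff.mpr ((v.ne_zero_iff).mpr hu0)
  have hA : v ((Ψ.coeff 1).eval j₀ * u₀) = v j₀ ^ (p - 1) * v u₀ := by rw [map_mul, hc1]
  have hS : v (∑ i ∈ Finset.Ico 2 (p + 2), (Ψ.coeff i).eval j₀ * u₀ ^ i)
      < v ((Ψ.coeff 1).eval j₀ * u₀) := by
    rw [hA]
    apply Valuation.map_sum_lt' v (mul_pos (pow_pos hR0 _) hvu)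
    intro i hi
    have hi2 := (Finset.mem_Ico.mp hi).1
    rw [map_mul, map_pow]
    calc v ((Ψ.coeff i).eval j₀) * v u₀ ^ i ≤ v j₀ ^ (p - 2) * v u₀ :=
          mul_le_mul' (NewtonMain_term_le v hΨ hint hj hi2)
            (pow_le_of_le_one zero_le hu (by omega))
      _ < v j₀ ^ (p - 1) * v u₀ := mul_lt_mul_of_pos_right hpow hvu
  rw [eval_eq_sum hΨ, add_assoc] at h0
  have h1 : (Ψ.coeff 1).eval j₀ * u₀ + ∑ i ∈ Finset.Ico 2 (p + 2), (Ψ.coeff i).eval j₀ * u₀ ^ i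
      = -(p : K) ^ 12 := by linear_combination h0
  have h2 := Valuation.map_add_eq_of_lt_left v hS
  rw [h1, Valuation.map_neg, map_pow, hvp, one_pow] at h2
  rw [mul_comm, ← hA, ← h2]

/-- **Simple root.**  Same hypotheses: `|Ψ_X(u₀, j₀)| = R^(p-1)`: for `i ≥ 2`, `|i c_i(j₀) u₀^(i-1)| ≤ R^(p-2) < R^(p-1)`. -/
theorem simple_root {p : ℕ} (hp3 : 3 ≤ p) {Ψ : Polynomial (Polynomial K)} (hΨ : Shape p Ψ)
    (hint : ∀ i n, v ((Ψ.coeff i).coeff n) ≤ 1) (hnat : ∀ n : ℕ, v (n : K) ≤ 1) {j₀ u₀ : K}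
    (hj : 1 < v j₀) (hu : v u₀ ≤ 1) :
    ((derivative Ψ).map (evalRingHom j₀)).eval u₀ ≠ 0 := by
  have hR0 : 0 < v j₀ := lt_trans zero_lt_one hj
  have hc1 := NewtonMain_c1 v hΨ hint hj
  have hpow : v j₀ ^ (p - 2) < v j₀ ^ (p - 1) := pow_lt_pow_right₀ hj (by omega)
  have hS : v (∑ i ∈ Finset.Ico 2 (p + 2), (i : K) * (Ψ.coeff i).eval j₀ * u₀ ^ (i - 1))
      < v ((Ψ.coeff 1).eval j₀) := by
    rw [hc1]
    apply Valuation.map_sum_lt' v (pow_pos hR0 _)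
    intro i hi
    have hi2 := (Finset.mem_Ico.mp hi).1
    rw [map_mul, map_mul, map_pow]
    calc v (i : K) * v ((Ψ.coeff i).eval j₀) * v u₀ ^ (i - 1) ≤ 1 * v j₀ ^ (p - 2) * 1 :=
          mul_le_mul' (mul_le_mul' (hnat i) (NewtonMain_term_le v hΨ hint hj hi2))
            (pow_le_one' hu _)
      _ = v j₀ ^ (p - 2) := by rw [one_mul, mul_one]
      _ < v j₀ ^ (p - 1) := hpow
  rw [derivative_eval_eq_sum hΨ]
  intro h0
  have h2 := Valuation.map_add_eq_of_lt_left v hS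
  rw [h0, map_zero, hc1] at h2
  exact (pow_pos hR0 _).ne h2

/-- the form used in `A.Main`: `h₀ = p¹²/u₀`.  `|h₀| < |j₀|^(p-1)` ⟹ `|h₀| < 1`. -/
theorem val_lt_one_of_lt {p : ℕ} (hp3 : 3 ≤ p) {Ψ : Polynomial (Polynomial K)} (hΨ : Shape p Ψ)
    (hint : ∀ i n, v ((Ψ.coeff i).coeff n) ≤ 1) (hvp : v (p : K) = 1) {j₀ h₀ : K} (hj : 1 < v j₀)
    (hh0 : h₀ ≠ 0) (h0 : (Ψ.map (evalRingHom j₀)).eval ((p : K) ^ 12 / h₀) = 0)
    (hlt : v h₀ < v j₀ ^ (p - 1)) : v h₀ < 1 := by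
  by_contra hge
  rw [not_lt] at hge
  have hvh : v h₀ ≠ 0 := (v.ne_zero_iff).mpr hh0
  have hvu : v ((p : K) ^ 12 / h₀) = (v h₀)⁻¹ := by
    rw [map_div₀, map_pow, hvp, one_pow, one_div]
  have hu : v ((p : K) ^ 12 / h₀) ≤ 1 := by
    rw [hvu]
    exact inv_le_one_of_one_le₀ hge
  have h1 := dich v hp3 hΨ hint hvp hj h0 hu
  rw [hvu, inv_mul_eq_one₀ hvh] at h1
  exact hlt.ne h1

end Fermat.Agent.S15.A.Newton
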