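import Fermat.Agent.S28.BuildData
import Fermat.Agent.S28.Transfer
import Fermat.Agent.Crux.Descent
import Fermat.Agent.S15.A.Place
import Fermat.Agent.S15.A.Newton

/-!
# S15 / A / Psi : the shape of the modular equation `Ψ(u, j) = 0` for `u = p¹² Δ(q^p)/Δ(q)`

`S28.Build.PsiL A p ζ = ∏_g (X - u_g)` (variable `t`, `q = t^p`), `u_∞ = p¹² Δ(t^{p²})/Δ(t^p)` of order `p² - p`,
`u_b = Δ(ζ^b t)/Δ(t^p) = ζ^b t^(1-p) (1 + …)`.  The coefficient of `X^i` is `± e_{p+1-i}(u_g)`, of order `≥ -(p+1-i)(p-1)`;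
it is a polynomial in `j(t^p)` (order `-p`), hence of degree `≤ (p+1-i)(p-1)/p`.
-/

set_option autoImplicit false

open Polynomial ModularCurve

namespace Fermat.Agent.S15.A.Psi

open Fermat.Agent.S28 Fermat.Agent.S28.Build
open Fermat.Agent.ES (Qb FF)
open Fermat.Agent.S15.A.Pl

noncomputable section

section Formal

variable (A : Type*) [CommRing A] (p : ℕ) [NeZero p] (ζ : Aˣ)

theorem uF_none_mem_F : uF A p ζ none ∈ F ((p : ℤ) * p - p) := by
  have h := mul_mem_F (mul_mem_F (C_mem_F ((p : A) ^ 12)) (V_mem_F p (V_mem_F p (deltaC_mem_F A))))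
    (V_mem_F p (deltaInvC_mem_F A))
  have e : (0 : ℤ) + (p : ℤ) * ((p : ℤ) * 1) + (p : ℤ) * (-1) = (p : ℤ) * p - p := by ring
  rw [e] at h
  exact h

theorem uF_some_mem_F (b : Fin p) : uF A p ζ (some b) ∈ F (1 - (p : ℤ)) := by
  have h := mul_mem_F (scale_mem_F (ζ ^ (b : ℕ)) (deltaC_mem_F A)) (V_mem_F p (deltaInvC_mem_F A))
  have e : (1 : ℤ) + (p : ℤ) * (-1) = 1 - (p : ℤ) := by ring
  rw [e] at h
  exact h

/-- (Ord) lowest coefficient of a product. -/
theorem Ord_coeff_mul {x y : LaurentSeries A} {k l : ℤ} (hx : x ∈ F k) (hy : y ∈ F l) :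
    (x * y).coeff (k + l) = x.coeff k * y.coeff l := by
  rw [HahnSeries.coeff_mul, Finset.sum_eq_single (k, l)]
  · intro ij hij hne
    rw [Finset.mem_antidiagonal] at hij
    obtain ⟨h1, h2, h3⟩ := hij
    exfalso
    have hi : k ≤ ij.1 := by
      by_contra h
      exact h1 (hx _ (not_le.mp h))
    have hj : l ≤ ij.2 := by
      by_contra h
      exact h2 (hy _ (not_le.mp h))
    apply hne
    ext
    · show ij.1 = k
      omega
    · show ij.2 = l
      omega
  · intro hnot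
    rw [Finset.mem_antidiagonal] at hnot
    by_cases h1 : x.coeff k = 0
    · rw [h1, zero_mul]
    · by_cases h2 : y.coeff l = 0
      · rw [h2, mul_zero]
      · exact absurd ⟨h1, h2, rfl⟩ hnot

/-- (Ord) -/
theorem Ord_coeff_ofPowerSeries_zero (f : PowerSeries A) :
    (HahnSeries.ofPowerSeries ℤ A f).coeff 0 = PowerSeries.constantCoeff f := by
  have := HahnSeries.ofPowerSeries_apply_coeff (Γ := ℤ) f 0
  simpa using this

/-- (Ord) `Δ = q + …`. -/
theorem Ord_coeff_deltaC : (deltaC A).coeff 1 = 1 := by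
  have hη : PowerSeries.constantCoeff (dedekindEtaUnit.map (Int.castRingHom A)) = 1 := by
    have := constantCoeff_dedekindEtaUnit
    rw [← PowerSeries.coeff_zero_eq_constantCoeff_apply] at this ⊢
    rw [PowerSeries.coeff_map, this]; simp
  have h := Ord_coeff_mul A (single_mem_F (1 : ℤ) (1 : A))
    (ofPowerSeries_mem_F (dedekindEtaUnit.map (Int.castRingHom A)))
  rw [add_zero, Ord_coeff_ofPowerSeries_zero, hη, HahnSeries.coeff_single_same, mul_one] at h
  exact h

/-- (Ord) `Δ⁻¹ = q⁻¹ + …`. -/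
theorem Ord_coeff_deltaInvC : (deltaInvC A).coeff (-1) = 1 := by
  have hη : PowerSeries.constantCoeff (dedekindEtaUnitInv.map (Int.castRingHom A)) = 1 := by
    have := constantCoeff_dedekindEtaUnitInv
    rw [← PowerSeries.coeff_zero_eq_constantCoeff_apply] at this ⊢
    rw [PowerSeries.coeff_map, this]; simp
  have h := Ord_coeff_mul A (single_mem_F (-1 : ℤ) (1 : A))
    (ofPowerSeries_mem_F (dedekindEtaUnitInv.map (Int.castRingHom A)))
  rw [add_zero, Ord_coeff_ofPowerSeries_zero, hη, HahnSeries.coeff_single_same, mul_one] at h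
  exact h

/-- lowest coefficient of `u_b`. -/
theorem coeff_uF_some (b : Fin p) : (uF A p ζ (some b)).coeff (1 - (p : ℤ)) = ((ζ ^ (b : ℕ) : Aˣ) : A) := by
  have h := Ord_coeff_mul A (scale_mem_F (ζ ^ (b : ℕ)) (deltaC_mem_F A))
    (V_mem_F p (deltaInvC_mem_F A))
  have e : (1 : ℤ) + (p : ℤ) * (-1) = 1 - (p : ℤ) := by ring
  rw [e, qExpand_coeff_mul, Ord_coeff_deltaInvC, scale_coeff, Ord_coeff_deltaC, zpow_one, mul_one,
    mul_one] at h
  exact h

/-- lowest coefficient of `u_∞`. -/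
theorem coeff_uF_none : (uF A p ζ none).coeff ((p : ℤ) * p - p) = (p : A) ^ 12 := by
  have h := Ord_coeff_mul A
    (mul_mem_F (C_mem_F ((p : A) ^ 12)) (V_mem_F p (V_mem_F p (deltaC_mem_F A))))
    (V_mem_F p (deltaInvC_mem_F A))
  have e : (0 : ℤ) + (p : ℤ) * ((p : ℤ) * 1) + (p : ℤ) * (-1) = (p : ℤ) * p - p := by ring
  rw [e, qExpand_coeff_mul, Ord_coeff_deltaInvC, zero_add, Build.coeff_C_mul, qExpand_coeff_mul,
    qExpand_coeff_mul, Ord_coeff_deltaC, mul_one, mul_one] at h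
  exact h

/-- lowest coefficient of a product. -/
theorem coeff_mul_of_mem_F {x y : LaurentSeries A} {k l : ℤ} (hx : x ∈ F k) (hy : y ∈ F l) :
    (x * y).coeff (k + l) = x.coeff k * y.coeff l :=
  Ord_coeff_mul A hx hy

theorem coeff_prod_of_mem_F {ι : Type*} (s : Finset ι) (k : ι → ℤ) (x : ι → LaurentSeries A)
    (hx : ∀ i ∈ s, x i ∈ F (k i)) :
    (∏ i ∈ s, x i).coeff (∑ i ∈ s, k i) = ∏ i ∈ s, (x i).coeff (k i) := by
  classical
  induction s using Finset.induction_on with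
  | empty => simp
  | insert a s ha ih =>
    rw [Finset.prod_insert ha, Finset.sum_insert ha, Finset.prod_insert ha,
      Ord_coeff_mul A (hx a (Finset.mem_insert_self _ _))
        (prod_mem_F s k x fun i hi => hx i (Finset.mem_insert_of_mem hi)),
      ih fun i hi => hx i (Finset.mem_insert_of_mem hi)]

/-- a product of `k` distinct `u_g` has order `≥ -k(p-1)`  (`prod_mem_F`, `F_mono`; `p² - p ≥ 1 - p`). -/
theorem prod_uF_mem_F' (s : Finset (Option (Fin p))) :
    ∏ g ∈ s, uF A p ζ g ∈ F (-(s.card : ℤ) * ((p : ℤ) - 1)) := by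
  have hp : (1 : ℤ) ≤ p := by exact_mod_cast Nat.pos_of_ne_zero (NeZero.ne p)
  have h := prod_mem_F s (fun _ => 1 - (p : ℤ)) (fun g => uF A p ζ g) (fun g _ => by
    cases g with
    | none => exact F_mono (by nlinarith) (uF_none_mem_F A p ζ)
    | some b => exact uF_some_mem_F A p ζ b)
  have e : ∑ _g ∈ s, (1 - (p : ℤ)) = -(s.card : ℤ) * ((p : ℤ) - 1) := by
    rw [Finset.sum_const, nsmul_eq_mul]
    ring
  rw [e] at h
  exact h

/-- the coefficient of `X^i` in `∏_g (X - u_g)`  (`Finset.prod_X_sub_C_coeff` / `Multiset.prod_X_sub_C_coeff`, `esymm` as a sum over `powersetCard`). -/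
theorem coeff_PsiL_mem_F (i : ℕ) (hi : i ≤ p + 1) :
    (PsiL A p ζ).coeff i ∈ F (-((p + 1 - i : ℕ) : ℤ) * ((p : ℤ) - 1)) := by
  classical
  have hcard : Multiset.card ((Finset.univ : Finset (Option (Fin p))).val.map (uF A p ζ)) = p + 1 := by
    rw [Multiset.card_map]
    change (Finset.univ : Finset (Option (Fin p))).card = p + 1
    rw [Finset.card_univ, Fintype.card_option, Fintype.card_fin]
  have e1 : PsiL A p ζ =
      (((Finset.univ : Finset (Option (Fin p))).val.map (uF A p ζ)).map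
        fun t => X - Polynomial.C t).prod := by
    rw [Multiset.map_map]
    rfl
  rw [e1, Multiset.prod_X_sub_C_coeff _ (by rw [hcard]; exact hi), hcard, Finset.esymm_map_val]
  have hsum : ∑ t ∈ (Finset.univ : Finset (Option (Fin p))).powersetCard (p + 1 - i),
      ∏ g ∈ t, uF A p ζ g ∈ F (-((p + 1 - i : ℕ) : ℤ) * ((p : ℤ) - 1)) := by
    refine AddSubgroup.sum_mem _ fun t ht => ?_
    have h := prod_uF_mem_F' A p ζ t
    rwa [(Finset.mem_powersetCard.1 ht).2] at h
  rcases neg_one_pow_eq_or (LaurentSeries A) (p + 1 - i) with h | h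
  · rw [h, one_mul]
    exact hsum
  · rw [h, neg_one_mul]
    exact neg_mem hsum

omit [NeZero p] in
/-- `∏_b ζ^b = 1` for `p` odd. -/
theorem Lead_prod_zeta (hodd : Odd p) (hζ : ζ ^ p = 1) :
    ∏ b : Fin p, ((ζ ^ (b : ℕ) : Aˣ) : A) = 1 := by
  have h1 : ∏ b : Fin p, (ζ ^ (b : ℕ) : Aˣ) = 1 := by
    rw [Finset.prod_pow_eq_pow_sum, Fin.sum_univ_eq_sum_range (fun i => i) p]
    obtain ⟨m, hm⟩ := hodd
    have h2 := Finset.sum_range_id_mul_two p
    have h3 : ∑ i ∈ Finset.range p, i = p * m := by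
      have h4 : p - 1 = m * 2 := by omega
      rw [h4, ← mul_assoc] at h2
      exact Nat.eq_of_mul_eq_mul_right (by norm_num) h2
    rw [h3, pow_mul, hζ, one_pow]
  have h5 := congrArg (Units.val) h1
  rw [Units.val_one] at h5
  rw [← h5]
  simp

theorem Lead_prod_some_mem_F : ∏ b : Fin p, uF A p ζ (some b) ∈ F ((p : ℤ) * (1 - (p : ℤ))) := by
  have h := prod_mem_F Finset.univ (fun _ : Fin p => 1 - (p : ℤ)) (fun b => uF A p ζ (some b))
    (fun b _ => uF_some_mem_F A p ζ b)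
  simp only [Finset.sum_const, Finset.card_univ, Fintype.card_fin, nsmul_eq_mul] at h
  exact h

theorem Lead_coeff_prod_some (hodd : Odd p) (hζ : ζ ^ p = 1) :
    (∏ b : Fin p, uF A p ζ (some b)).coeff ((p : ℤ) * (1 - (p : ℤ))) = 1 := by
  have h := coeff_prod_of_mem_F A Finset.univ (fun _ : Fin p => 1 - (p : ℤ))
    (fun b => uF A p ζ (some b)) (fun b _ => uF_some_mem_F A p ζ b)
  simp only [Finset.sum_const, Finset.card_univ, Fintype.card_fin, nsmul_eq_mul] at h
  rw [h]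
  simp only [coeff_uF_some]
  exact Lead_prod_zeta A p ζ hodd hζ

/-- the coefficient of `X`: `- e_p(u)`, `e_p(u) = ∏_b u_b + (terms containing u_∞, of order ≥ p - 1)`; `∏_b ζ^b = ζ^(p(p-1)/2) = 1`. -/
theorem coeff_one_PsiL (hodd : Odd p) (hζ : ζ ^ p = 1) (hp1 : 1 < p) :
    ((PsiL A p ζ).coeff 1).coeff (-(p : ℤ) * ((p : ℤ) - 1)) = -1 := by
  classical
  set P : Polynomial (LaurentSeries A) := ∏ b : Fin p, (X - Polynomial.C (uF A p ζ (some b))) with hP
  have hsplit : PsiL A p ζ = (X - Polynomial.C (uF A p ζ none)) * P := by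
    rw [PsiL, Fintype.prod_option]
  have hc1 : (PsiL A p ζ).coeff 1 = P.coeff 0 - uF A p ζ none * P.coeff 1 := by
    rw [hsplit, sub_mul, coeff_sub, Polynomial.coeff_C_mul]
    congr 1
    exact coeff_X_mul P 0
  have hP0 : P.coeff 0 = - ∏ b : Fin p, uF A p ζ (some b) := by
    rw [hP, coeff_zero_eq_eval_zero, eval_prod]
    simp only [eval_sub, eval_X, eval_C, zero_sub]
    rw [Finset.prod_neg, Finset.card_univ, Fintype.card_fin, hodd.neg_one_pow, neg_one_mul]
  have hP1 : P.coeff 1 ∈ F (((p - 1 : ℕ) : ℤ) * (1 - (p : ℤ))) := by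
    have e : P = ∏ b : Fin p, (X + Polynomial.C (- uF A p ζ (some b))) := by
      rw [hP]
      refine Finset.prod_congr rfl fun b _ => ?_
      rw [map_neg, sub_eq_add_neg]
    rw [e, Finset.prod_X_add_C_coeff Finset.univ _ (by
      rw [Finset.card_univ, Fintype.card_fin]; omega)]
    refine AddSubgroup.sum_mem _ fun t ht => ?_
    rw [Finset.card_univ, Fintype.card_fin, Finset.mem_powersetCard] at ht
    have h := prod_mem_F t (fun _ : Fin p => 1 - (p : ℤ)) (fun b => - uF A p ζ (some b))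
      (fun b _ => (F _).neg_mem (uF_some_mem_F A p ζ b))
    simp only [Finset.sum_const, nsmul_eq_mul, ht.2] at h
    exact h
  have hmul := mul_mem_F (uF_none_mem_F A p ζ) hP1
  have hp1' : (1 : ℤ) < p := by exact_mod_cast hp1
  have hcast : ((p - 1 : ℕ) : ℤ) = (p : ℤ) - 1 := by
    rw [Nat.cast_sub hp1.le, Nat.cast_one]
  have hzero : (uF A p ζ none * P.coeff 1).coeff (-(p : ℤ) * ((p : ℤ) - 1)) = 0 := by
    apply hmul
    rw [hcast]
    nlinarith
  rw [hc1, HahnSeries.coeff_sub, hzero, sub_zero, hP0, HahnSeries.coeff_neg]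
  have hidx : -(p : ℤ) * ((p : ℤ) - 1) = (p : ℤ) * (1 - (p : ℤ)) := by ring
  rw [hidx, Lead_coeff_prod_some A p ζ hodd hζ]

/-- the constant coefficient: `∏_g u_g = p¹² + …` (`p + 1` even). -/
theorem coeff_zero_PsiL (hodd : Odd p) (hζ : ζ ^ p = 1) :
    ((PsiL A p ζ).coeff 0).coeff 0 = (p : A) ^ 12 := by
  have h0 : (PsiL A p ζ).coeff 0 = ∏ g, uF A p ζ g := by
    rw [PsiL, coeff_zero_eq_eval_zero, eval_prod]
    simp only [eval_sub, eval_X, eval_C, zero_sub]
    rw [Finset.prod_neg, Finset.card_univ, Fintype.card_option, Fintype.card_fin,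
      hodd.add_one.neg_one_pow, one_mul]
  rw [h0, Fintype.prod_option]
  have h := coeff_mul_of_mem_F A (uF_none_mem_F A p ζ) (Lead_prod_some_mem_F A p ζ)
  have hidx : (p : ℤ) * p - p + (p : ℤ) * (1 - (p : ℤ)) = 0 := by ring
  rw [hidx] at h
  rw [h, coeff_uF_none, Lead_coeff_prod_some A p ζ hodd hζ, mul_one]

variable {A}

/-- a polynomial in `j(t^p)` of order `> -p(d+1)` has degree `≤ d`  (`coeff_evAt_V_J` at `n = natDegree`). -/
theorem natDegree_le_of_mem_F (Q : Polynomial A) (d : ℕ) {k : ℤ} (hk : -(p : ℤ) * (d + 1) < k)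
    (h : evAt (V A p (J A)) Q ∈ F k) : Q.natDegree ≤ d := by
  by_contra hcon
  rw [not_le] at hcon
  have h1 := coeff_evAt_V_J p Q Q.natDegree le_rfl
  have hlt : (p : ℤ) * (-(Q.natDegree : ℤ)) < k := by
    have h2 : ((d : ℤ) + 1) ≤ (Q.natDegree : ℤ) := by exact_mod_cast hcon
    have h3 : (p : ℤ) * ((d : ℤ) + 1) ≤ (p : ℤ) * (Q.natDegree : ℤ) :=
      mul_le_mul_of_nonneg_left h2 (Int.natCast_nonneg p)
    linarith
  rw [h _ hlt] at h1
  have hQ0 : Q = 0 := leadingCoeff_eq_zero.1 h1.symm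
  rw [hQ0, natDegree_zero] at hcon
  exact Nat.not_lt_zero _ hcon

/-- `deg ∏_g (X - u_g) ≤ p + 1`. -/
theorem PsiShape_natDegree_PsiL_le : (PsiL A p ζ).natDegree ≤ p + 1 := by
  unfold PsiL
  refine (natDegree_prod_le _ _).trans ?_
  refine (Finset.sum_le_card_nsmul _ _ 1 fun g _ => natDegree_X_sub_C_le _).trans ?_
  simp

/-- the constant coefficient `∏_g (- u_g)` has order `≥ 0`. -/
theorem PsiShape_coeff_zero_mem_F : (PsiL A p ζ).coeff 0 ∈ F (A := A) 0 := by
  rw [PsiL, Polynomial.coeff_zero_eq_eval_zero, Polynomial.eval_prod]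
  simp only [eval_sub, eval_X, eval_C, zero_sub]
  rw [Finset.prod_neg (s := Finset.univ) (uF A p ζ)]
  rcases neg_one_pow_eq_or (LaurentSeries A) (Finset.univ : Finset (Option (Fin p))).card with h | h
  · rw [h, one_mul]
    exact prod_uF_mem_F A p ζ
  · rw [h, neg_one_mul]
    exact neg_mem (prod_uF_mem_F A p ζ)

/-- **Shape from the factorisation.** -/
theorem shape_of_map_eq (hp3 : 3 ≤ p) (hodd : Odd p) (hζ : ζ ^ p = 1) (Ψ : Polynomial (Polynomial A))
    (hΨ : Ψ.map (evAt (V A p (J A))) = PsiL A p ζ) :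
    Ψ.coeff 0 = C ((p : A) ^ 12) ∧ (Ψ.coeff 1).natDegree ≤ p - 1 ∧ (Ψ.coeff 1).coeff (p - 1) = -1 ∧
      ∀ i, 2 ≤ i → (Ψ.coeff i).natDegree ≤ p - 2 := by
  have hc : ∀ i, evAt (V A p (J A)) (Ψ.coeff i) = (PsiL A p ζ).coeff i := by
    intro i
    rw [← hΨ, Polynomial.coeff_map]
  have hp3' : (3 : ℤ) ≤ (p : ℤ) := by exact_mod_cast hp3
  have hd1 : (Ψ.coeff 1).natDegree ≤ p - 1 := by
    refine natDegree_le_of_mem_F p (Ψ.coeff 1) (p - 1)
      (k := -((p + 1 - 1 : ℕ) : ℤ) * ((p : ℤ) - 1)) ?_ ?_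
    · have e1 : ((p - 1 : ℕ) : ℤ) = (p : ℤ) - 1 := by
        rw [Nat.cast_sub (by omega)]; simp
      have e2 : ((p + 1 - 1 : ℕ) : ℤ) = (p : ℤ) := by simp
      rw [e1, e2]
      nlinarith
    · rw [hc]
      exact coeff_PsiL_mem_F A p ζ 1 (by omega)
  refine ⟨?_, hd1, ?_, ?_⟩
  · have h0 : (Ψ.coeff 0).natDegree = 0 := natDegree_eq_zero_of_mem_F p (Ψ.coeff 0) (by
      rw [hc]; exact PsiShape_coeff_zero_mem_F p ζ)
    rw [Polynomial.eq_C_of_natDegree_eq_zero h0]
    congr 1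
    have h1 := coeff_zero_PsiL A p ζ hodd hζ
    rw [← hc, Polynomial.eq_C_of_natDegree_eq_zero h0, evAt_C, HahnSeries.C_apply,
      HahnSeries.coeff_single_same] at h1
    exact h1
  · have h1 := coeff_evAt_V_J p (Ψ.coeff 1) (p - 1) hd1
    have h2 := coeff_one_PsiL A p ζ hodd hζ (by omega)
    have e1 : (p : ℤ) * (-((p - 1 : ℕ) : ℤ)) = -(p : ℤ) * ((p : ℤ) - 1) := by
      rw [Nat.cast_sub (by omega)]; push_cast; ring
    rw [← h1, e1, hc, h2]
  · intro i hi
    by_cases hip : i ≤ p + 1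
    · refine natDegree_le_of_mem_F p (Ψ.coeff i) (p - 2)
        (k := -((p + 1 - i : ℕ) : ℤ) * ((p : ℤ) - 1)) ?_ ?_
      · have e1 : ((p - 2 : ℕ) : ℤ) = (p : ℤ) - 2 := by
          rw [Nat.cast_sub (by omega)]; simp
        have e2 : ((p + 1 - i : ℕ) : ℤ) = (p : ℤ) + 1 - i := by
          rw [Nat.cast_sub hip]; push_cast; ring
        have hi' : (2 : ℤ) ≤ (i : ℤ) := by exact_mod_cast hi
        rw [e1, e2]
        nlinarith
      · rw [hc]
        exact coeff_PsiL_mem_F A p ζ i hip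
    · have h0 : Ψ.coeff i = 0 := by
        apply evAt_V_J_injective (A := A) p
        rw [hc, map_zero]
        exact Polynomial.coeff_eq_zero_of_natDegree_lt
          (lt_of_le_of_lt (PsiShape_natDegree_PsiL_le p ζ) (by omega))
      rw [h0]
      simp

end Formal

/-- existence over a subring of `ℂ` (first lines of `S28.exists_modEqData_of_injective`: `coeffs_mem`, `mem_range_evAt_of_coeffMap`, `lifts_and_natDegree_eq_and_monic`). -/
theorem exists_Psi_of_injective {A : Type*} [CommRing A] (ι : A →+* ℂ)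
    (hι : Function.Injective ι) (p : ℕ) [NeZero p] (hp : p.Prime) (ζ : Aˣ)
    (hζ : IsPrimitiveRoot (Units.map (ι : A →* ℂ) ζ) p) :
    ∃ Ψ : Polynomial (Polynomial A), Ψ.map (evAt (V A p (J A))) = PsiL A p ζ ∧ Ψ.Monic ∧
      Ψ.natDegree = p + 1 := by
  obtain ⟨h1, -, -⟩ := coeffs_mem p _ hp hζ
  have hmem : PsiL A p ζ ∈ Polynomial.lifts (evAt (V A p (J A))) := by
    rw [Polynomial.lifts_iff_coeff_lifts]
    intro n
    refine mem_range_evAt_of_coeffMap ι hι p _ ?_
    rw [← Polynomial.coeff_map, map_PsiL ι p ζ]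
    exact h1 n
  obtain ⟨Ψ, hΨ, hdeg, hΨm⟩ := Polynomial.lifts_and_natDegree_eq_and_monic hmem
    (PsiL_monic A p ζ)
  refine ⟨Ψ, hΨ, hΨm, ?_⟩
  have : Nontrivial A := ι.domain_nontrivial
  rw [hdeg, PsiL, natDegree_prod_of_monic _ _ fun g _ => monic_X_sub_C _]
  simp

/-- `Ψ(u, j) = 0` from the factorisation (`PsiL_eval`, `qExpand_injective`, as in `S28.exists_modEqData_of_injective`). -/
theorem eval_uInf_eq_zero {A : Type*} [CommRing A] (p : ℕ) [NeZero p] (ζ : Aˣ)
    (Ψ : Polynomial (Polynomial A)) (hΨ : Ψ.map (evAt (V A p (J A))) = PsiL A p ζ) :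
    (Ψ.map (evAt (J A))).eval (uInf A p) = 0 := by
  have hmap : (Ψ.map (evAt (J A))).map (V A p) = Ψ.map (evAt (V A p (J A))) := by
    rw [Polynomial.map_map, Build.V_comp_evAt]
  apply qExpand_injective p
  rw [map_zero, ← Polynomial.eval_map_apply, hmap, hΨ, PsiL_eval]

/-- bridge from `LaurentSeries Qb` to `FF p`: the underlying series of `aeval (jQ p) c` is `evAt (J Qb) c` (`Crux.jSer_eq`, `qExpand_one_apply`), that of `uQ p` is `uInf Qb p` (`coe_uQ`). -/
theorem eval_uQ_eq_zero (p : ℕ) [Fact p.Prime] (Ψ : Polynomial (Polynomial Qb))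
    (h : (Ψ.map (evAt (J Qb))).eval (uInf Qb p) = 0) :
    (Ψ.map (aeval (jQ p) : Polynomial Qb →ₐ[Qb] FF p).toRingHom).eval (uQ p) = 0 := by
  have hcomp : ((modularFunctionFieldBar p).val.toRingHom).comp
      (aeval (jQ p) : Polynomial Qb →ₐ[Qb] FF p).toRingHom = evAt (J Qb) := by
    apply Polynomial.ringHom_ext
    · intro a
      rw [evAt_C]
      change (((aeval (jQ p) : Polynomial Qb →ₐ[Qb] FF p) (C a) : FF p) : LaurentSeries Qb) = _
      rw [aeval_C]
      change algebraMap Qb (LaurentSeries Qb) a = _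
      rw [algebraMap_laurentSeries_eq_single]
      rfl
    · rw [evAt_X]
      change (((aeval (jQ p) : Polynomial Qb →ₐ[Qb] FF p) X : FF p) : LaurentSeries Qb) = _
      rw [aeval_X]
      change Fermat.Agent.S24.jSer 1 = _
      rw [Fermat.Agent.Crux.jSer_eq, qExpand_one_apply]
  apply (modularFunctionFieldBar p).val.toRingHom.injective
  rw [map_zero, Polynomial.eval_map, Polynomial.hom_eval₂, hcomp]
  rw [Polynomial.eval_map] at h
  have hu : (modularFunctionFieldBar p).val.toRingHom (uQ p) = uInf Qb p := coe_uQ p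
  rw [hu]
  exact h

/-- **The modular equation of `u` over `j`, over `ℚ̄`.**  `A = Transfer.Oz p = ℤ[ζ_p] ⊆ ℂ` (as in `S28.exists_modEqData_adjoin`), `f : Oz p →+* Qb` (`Transfer.exists_ringHom`), `Ψ := Ψ₀.map (mapRingHom f)`;
degrees can only drop, the listed coefficients are preserved; `f a` is integral over `ℤ` (`Transfer.isIntegral_Oz`, `map_isIntegral_int`); `coeffMap f` transports `eval_uInf_eq_zero` (`Transfer.coeffMap_eval_map`). -/
theorem exists_Psi (p : ℕ) [Fact p.Prime] (hp2 : p ≠ 2) :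
    ∃ Ψ : Polynomial (Polynomial Qb), Newton.Shape p Ψ ∧
      (∀ i n, IsIntegral ℤ ((Ψ.coeff i).coeff n)) ∧
      (Ψ.map (aeval (jQ p) : Polynomial Qb →ₐ[Qb] FF p).toRingHom).eval (uQ p) = 0 := by
  have hp : p.Prime := Fact.out
  have hodd : Odd p := hp.odd_of_ne_two hp2
  have hp3 : 3 ≤ p := by
    have := hp.two_le
    omega
  obtain ⟨f⟩ := Transfer.exists_ringHom Qb p
  have hint : Algebra.IsIntegral ℤ (Transfer.Oz p) := Transfer.isIntegral_Oz p
  set z : ℂ := Complex.exp (2 * Real.pi * Complex.I / p) with hz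
  have hprim : IsPrimitiveRoot z p := Complex.isPrimitiveRoot_exp p (NeZero.ne p)
  let zA : ↥(Algebra.adjoin ℤ {z}) := ⟨z, Algebra.subset_adjoin (Set.mem_singleton z)⟩
  have hpow : zA ^ p = 1 := Subtype.ext (by simpa using hprim.pow_eq_one)
  have hu : IsUnit zA := IsUnit.of_pow_eq_one hpow (NeZero.ne p)
  have hζp : hu.unit ^ p = 1 := Units.ext (by simpa using hpow)
  obtain ⟨Ψ₀, hΨ₀, hmonic, hdeg⟩ := exists_Psi_of_injective (Algebra.adjoin ℤ {z}).val.toRingHom
    Subtype.val_injective p hp hu.unit (by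
      rw [← IsPrimitiveRoot.coe_units_iff]
      exact hprim)
  obtain ⟨s0, s1, s2, s3⟩ := shape_of_map_eq p hu.unit hp3 hodd hζp Ψ₀ hΨ₀
  refine ⟨Ψ₀.map (Polynomial.mapRingHom f), ⟨hmonic.map _, ?_, ?_, ?_, ?_, ?_⟩, ?_, ?_⟩
  · rw [hmonic.natDegree_map, hdeg]
  · rw [Polynomial.coeff_map, s0, Polynomial.coe_mapRingHom, Polynomial.map_C, map_pow,
      map_natCast]
  · rw [Polynomial.coeff_map, Polynomial.coe_mapRingHom]
    exact (Polynomial.natDegree_map_le).trans s1
  · rw [Polynomial.coeff_map, Polynomial.coe_mapRingHom, Polynomial.coeff_map, s2, map_neg,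
      map_one]
  · intro i hi
    rw [Polynomial.coeff_map, Polynomial.coe_mapRingHom]
    exact (Polynomial.natDegree_map_le).trans (s3 i hi)
  · intro i n
    rw [Polynomial.coeff_map, Polynomial.coe_mapRingHom, Polynomial.coeff_map]
    exact map_isIntegral_int f (Algebra.IsIntegral.isIntegral _)
  · apply eval_uQ_eq_zero
    have h := congrArg (coeffMap f) (eval_uInf_eq_zero p hu.unit Ψ₀ hΨ₀)
    rw [Transfer.coeffMap_eval_map, coeffMap_J, coeffMap_uInf, map_zero] at h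
    exact h

end

end Fermat.Agent.S15.A.Psi
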